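/-
S25 (Jacobian of a curve), shared ALGEBRAIC definitions.   Owner: helper25.
FROZEN INTERFACE: do not edit without telling helper25.

A smooth proper curve `C/k` with a marked point `P₀` is cut into two affine charts
`W₁ = C \ P₀ = Spec B₁`, `W₂ = {1/x regular} = Spec B₂`, `W₁ ∩ W₂ = Spec B₁₂`, by a function `x`
whose only pole is `P₀`.  A quasi-coherent sheaf on `C ×ₖ Spec A` is a `Triple` of modules.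
-/
import Mathlib

set_option autoImplicit false

universe u

open scoped TensorProduct Polynomial

namespace Fermat.Agent.S25

/-- Algebraic avatar of a smooth proper integral curve over `k` with a marked rational point. -/
structure CurveCharts (k : Type u) [Field k] where
  B₁ : Type u
  B₂ : Type u
  B₁₂ : Type u
  [ring₁ : CommRing B₁]
  [ring₂ : CommRing B₂]
  [ring₁₂ : CommRing B₁₂]
  [alg₁ : Algebra k B₁]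
  [alg₂ : Algebra k B₂]
  [alg₁₂ : Algebra k B₁₂]
  [algB₁ : Algebra B₁ B₁₂]
  [algB₂ : Algebra B₂ B₁₂]
  [tower₁ : IsScalarTower k B₁ B₁₂]
  [tower₂ : IsScalarTower k B₂ B₁₂]
  /-- the function with its only pole at the marked point -/
  x : B₁
  /-- `y = 1/x` -/
  y : B₂
  /-- the marked point `P₀ ∈ W₂` -/
  e₀ : B₂ →ₐ[k] k
  away₁ : IsLocalization.Away x B₁₂
  away₂ : IsLocalization.Away y B₁₂
  xy : algebraMap B₁ B₁₂ x * algebraMap B₂ B₁₂ y = 1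
  dom₁ : IsDomain B₁
  dom₂ : IsDomain B₂
  smooth₁ : Algebra.Smooth k B₁
  smooth₂ : Algebra.Smooth k B₂
  /-- `B₁` is finite over `k[x]` -/
  fin₁ : (Polynomial.aeval (R := k) x).toRingHom.Finite
  /-- `B₂` is finite over `k[y]` -/
  fin₂ : (Polynomial.aeval (R := k) y).toRingHom.Finite
  /-- `x` is not constant -/
  trans₁ : Transcendental k x
  /-- global functions are constant -/
  const : ∀ (b₁ : B₁) (b₂ : B₂), algebraMap B₁ B₁₂ b₁ = algebraMap B₂ B₁₂ b₂ →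
    ∃ c : k, b₁ = algebraMap k B₁ c
  /-- the only zero of `y` on `W₂` is the marked point -/
  pole : ∀ 𝔮 : Ideal B₂, 𝔮.IsPrime → y ∈ 𝔮 → 𝔮 = RingHom.ker e₀

namespace CurveCharts

attribute [instance] ring₁ ring₂ ring₁₂ alg₁ alg₂ alg₁₂ algB₁ algB₂ tower₁ tower₂ dom₁ dom₂
  smooth₁ smooth₂

variable {k : Type u} [Field k] (𝔠 : CurveCharts k) (A : Type u) [CommRing A] [Algebra k A]

/-- coordinate ring of `W₁ × Spec A` -/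
abbrev R₁ : Type u := A ⊗[k] 𝔠.B₁
/-- coordinate ring of `W₂ × Spec A` -/
abbrev R₂ : Type u := A ⊗[k] 𝔠.B₂
/-- coordinate ring of `(W₁ ∩ W₂) × Spec A` -/
abbrev R₁₂ : Type u := A ⊗[k] 𝔠.B₁₂

/-- restriction `R₁ → R₁₂` -/
noncomputable def res₁ : 𝔠.R₁ A →ₐ[A] 𝔠.R₁₂ A :=
  Algebra.TensorProduct.map (AlgHom.id A A) (IsScalarTower.toAlgHom k 𝔠.B₁ 𝔠.B₁₂)

/-- restriction `R₂ → R₁₂` -/
noncomputable def res₂ : 𝔠.R₂ A →ₐ[A] 𝔠.R₁₂ A :=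
  Algebra.TensorProduct.map (AlgHom.id A A) (IsScalarTower.toAlgHom k 𝔠.B₂ 𝔠.B₁₂)

/-- `1 ⊗ x` -/
noncomputable def xA : 𝔠.R₁ A := 1 ⊗ₜ 𝔠.x
/-- `1 ⊗ y` -/
noncomputable def yA : 𝔠.R₂ A := 1 ⊗ₜ 𝔠.y

/-- evaluation at the marked point, `R₂ → A` -/
noncomputable def ev₀ : 𝔠.R₂ A →ₐ[A] A :=
  (Algebra.TensorProduct.rid k A A).toAlgHom.comp
    (Algebra.TensorProduct.map (AlgHom.id A A) 𝔠.e₀)

variable {A} {A' : Type u} [CommRing A'] [Algebra k A']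

/-- base change of coordinate rings along `φ : A → A'` -/
noncomputable def bc₁ (φ : A →ₐ[k] A') : 𝔠.R₁ A →ₐ[k] 𝔠.R₁ A' :=
  Algebra.TensorProduct.map φ (AlgHom.id k 𝔠.B₁)
noncomputable def bc₂ (φ : A →ₐ[k] A') : 𝔠.R₂ A →ₐ[k] 𝔠.R₂ A' :=
  Algebra.TensorProduct.map φ (AlgHom.id k 𝔠.B₂)
noncomputable def bc₁₂ (φ : A →ₐ[k] A') : 𝔠.R₁₂ A →ₐ[k] 𝔠.R₁₂ A' :=
  Algebra.TensorProduct.map φ (AlgHom.id k 𝔠.B₁₂)

end CurveCharts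

variable {k : Type u} [Field k]

/-- A (pre-)quasi-coherent sheaf on `C × Spec A`: sections on the three affine opens, with the two
restriction maps (additive, semilinear along `res₁`, `res₂`). -/
structure Triple (𝔠 : CurveCharts k) (A : Type u) [CommRing A] [Algebra k A] where
  N₁ : Type u
  N₂ : Type u
  N₁₂ : Type u
  [ag₁ : AddCommGroup N₁]
  [ag₂ : AddCommGroup N₂]
  [ag₁₂ : AddCommGroup N₁₂]
  [mod₁ : Module (𝔠.R₁ A) N₁]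
  [mod₂ : Module (𝔠.R₂ A) N₂]
  [mod₁₂ : Module (𝔠.R₁₂ A) N₁₂]
  ρ₁ : N₁ →ₛₗ[(𝔠.res₁ A).toRingHom] N₁₂
  ρ₂ : N₂ →ₛₗ[(𝔠.res₂ A).toRingHom] N₁₂

namespace Triple

attribute [instance] ag₁ ag₂ ag₁₂ mod₁ mod₂ mod₁₂

variable {𝔠 : CurveCharts k} {A : Type u} [CommRing A] [Algebra k A]

/-- The `A`-module structures (through `A → A ⊗ B`). -/
noncomputable instance modA₁ (T : Triple 𝔠 A) : Module A T.N₁ :=
  Module.compHom T.N₁ (algebraMap A (𝔠.R₁ A))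
noncomputable instance modA₂ (T : Triple 𝔠 A) : Module A T.N₂ :=
  Module.compHom T.N₂ (algebraMap A (𝔠.R₂ A))
noncomputable instance modA₁₂ (T : Triple 𝔠 A) : Module A T.N₁₂ :=
  Module.compHom T.N₁₂ (algebraMap A (𝔠.R₁₂ A))

instance tower₁ (T : Triple 𝔠 A) : IsScalarTower A (𝔠.R₁ A) T.N₁ :=
  ⟨fun a r n => by
    change (a • r) • n = (algebraMap A (𝔠.R₁ A) a) • (r • n)
    rw [Algebra.smul_def, mul_smul]⟩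
instance tower₂ (T : Triple 𝔠 A) : IsScalarTower A (𝔠.R₂ A) T.N₂ :=
  ⟨fun a r n => by
    change (a • r) • n = (algebraMap A (𝔠.R₂ A) a) • (r • n)
    rw [Algebra.smul_def, mul_smul]⟩
instance tower₁₂ (T : Triple 𝔠 A) : IsScalarTower A (𝔠.R₁₂ A) T.N₁₂ :=
  ⟨fun a r n => by
    change (a • r) • n = (algebraMap A (𝔠.R₁₂ A) a) • (r • n)
    rw [Algebra.smul_def, mul_smul]⟩

/-- `ρ₁` as an `A`-linear map. -/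
noncomputable def ρ₁A (T : Triple 𝔠 A) : T.N₁ →ₗ[A] T.N₁₂ where
  toFun := T.ρ₁
  map_add' := T.ρ₁.map_add
  map_smul' a n := by
    change T.ρ₁ ((algebraMap A (𝔠.R₁ A) a) • n) = (algebraMap A (𝔠.R₁₂ A) a) • T.ρ₁ n
    rw [T.ρ₁.map_smulₛₗ]
    congr 1
    exact (𝔠.res₁ A).commutes a

/-- `ρ₂` as an `A`-linear map. -/
noncomputable def ρ₂A (T : Triple 𝔠 A) : T.N₂ →ₗ[A] T.N₁₂ where
  toFun := T.ρ₂
  map_add' := T.ρ₂.map_add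
  map_smul' a n := by
    change T.ρ₂ ((algebraMap A (𝔠.R₂ A) a) • n) = (algebraMap A (𝔠.R₁₂ A) a) • T.ρ₂ n
    rw [T.ρ₂.map_smulₛₗ]
    congr 1
    exact (𝔠.res₂ A).commutes a

/-- The Čech differential `(n₁, n₂) ↦ ρ₁ n₁ - ρ₂ n₂`; `H⁰ = ker δ`, `H¹ = coker δ`. -/
noncomputable def δ (T : Triple 𝔠 A) : (T.N₁ × T.N₂) →ₗ[A] T.N₁₂ :=
  T.ρ₁A.coprod (-T.ρ₂A)

@[simp] lemma δ_apply (T : Triple 𝔠 A) (n : T.N₁ × T.N₂) : T.δ n = T.ρ₁ n.1 - T.ρ₂ n.2 := by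
  simp [δ, ρ₁A, ρ₂A, sub_eq_add_neg]

/-- Quasi-coherence: `N₁₂ = N₁[1/x] = N₂[1/y]` (elementary form). -/
structure IsQC (T : Triple 𝔠 A) : Prop where
  surj₁ : ∀ n : T.N₁₂, ∃ (m : ℕ) (n₁ : T.N₁), T.ρ₁ n₁ = (𝔠.res₁ A (𝔠.xA A)) ^ m • n
  inj₁ : ∀ n₁ : T.N₁, T.ρ₁ n₁ = 0 → ∃ m : ℕ, (𝔠.xA A) ^ m • n₁ = 0
  surj₂ : ∀ n : T.N₁₂, ∃ (m : ℕ) (n₂ : T.N₂), T.ρ₂ n₂ = (𝔠.res₂ A (𝔠.yA A)) ^ m • n
  inj₂ : ∀ n₂ : T.N₂, T.ρ₂ n₂ = 0 → ∃ m : ℕ, (𝔠.yA A) ^ m • n₂ = 0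

/-- A line bundle on `C × Spec A`. -/
structure IsInvertible (T : Triple 𝔠 A) : Prop extends IsQC T where
  inv₁ : Module.Invertible (𝔠.R₁ A) T.N₁
  inv₂ : Module.Invertible (𝔠.R₂ A) T.N₂

/-- Morphisms of triples. -/
structure Hom (T T' : Triple 𝔠 A) where
  f₁ : T.N₁ →ₗ[𝔠.R₁ A] T'.N₁
  f₂ : T.N₂ →ₗ[𝔠.R₂ A] T'.N₂
  f₁₂ : T.N₁₂ →ₗ[𝔠.R₁₂ A] T'.N₁₂
  comm₁ : ∀ n, f₁₂ (T.ρ₁ n) = T'.ρ₁ (f₁ n)
  comm₂ : ∀ n, f₁₂ (T.ρ₂ n) = T'.ρ₂ (f₂ n)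

/-- Isomorphisms of triples. -/
structure Iso (T T' : Triple 𝔠 A) where
  e₁ : T.N₁ ≃ₗ[𝔠.R₁ A] T'.N₁
  e₂ : T.N₂ ≃ₗ[𝔠.R₂ A] T'.N₂
  e₁₂ : T.N₁₂ ≃ₗ[𝔠.R₁₂ A] T'.N₁₂
  comm₁ : ∀ n, e₁₂ (T.ρ₁ n) = T'.ρ₁ (e₁ n)
  comm₂ : ∀ n, e₁₂ (T.ρ₂ n) = T'.ρ₂ (e₂ n)

/-- The structure sheaf. -/
noncomputable def unit (𝔠 : CurveCharts k) (A : Type u) [CommRing A] [Algebra k A] :
    Triple 𝔠 A where
  N₁ := 𝔠.R₁ A
  N₂ := 𝔠.R₂ A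
  N₁₂ := 𝔠.R₁₂ A
  ρ₁ :=
    { toFun := 𝔠.res₁ A
      map_add' := map_add _
      map_smul' := fun r n => by simp [smul_eq_mul] }
  ρ₂ :=
    { toFun := 𝔠.res₂ A
      map_add' := map_add _
      map_smul' := fun r n => by simp [smul_eq_mul] }

/-- `T'` over `A'` is the base change of `T` over `A` along `φ`: additive maps, semilinear along
`bcᵢ φ`, compatible with the `ρ`'s, each exhibiting `T'.Nᵢ` as `Rᵢ A' ⊗_{Rᵢ A} T.Nᵢ`. -/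
structure BaseChange {A' : Type u} [CommRing A'] [Algebra k A'] (φ : A →ₐ[k] A')
    (T : Triple 𝔠 A) (T' : Triple 𝔠 A') where
  β₁ : T.N₁ →ₛₗ[(𝔠.bc₁ φ).toRingHom] T'.N₁
  β₂ : T.N₂ →ₛₗ[(𝔠.bc₂ φ).toRingHom] T'.N₂
  β₁₂ : T.N₁₂ →ₛₗ[(𝔠.bc₁₂ φ).toRingHom] T'.N₁₂
  comm₁ : ∀ n, β₁₂ (T.ρ₁ n) = T'.ρ₁ (β₁ n)
  comm₂ : ∀ n, β₁₂ (T.ρ₂ n) = T'.ρ₂ (β₂ n)
  /-- universal property of `R₁ A' ⊗_{R₁ A} N₁` (instance-free form) -/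
  isBC₁ : ∀ (Q : Type u) [AddCommGroup Q] [Module (𝔠.R₁ A') Q]
    (f : T.N₁ →ₛₗ[(𝔠.bc₁ φ).toRingHom] Q), ∃! g : T'.N₁ →ₗ[𝔠.R₁ A'] Q, ∀ n, g (β₁ n) = f n
  isBC₂ : ∀ (Q : Type u) [AddCommGroup Q] [Module (𝔠.R₂ A') Q]
    (f : T.N₂ →ₛₗ[(𝔠.bc₂ φ).toRingHom] Q), ∃! g : T'.N₂ →ₗ[𝔠.R₂ A'] Q, ∀ n, g (β₂ n) = f n
  isBC₁₂ : ∀ (Q : Type u) [AddCommGroup Q] [Module (𝔠.R₁₂ A') Q]
    (f : T.N₁₂ →ₛₗ[(𝔠.bc₁₂ φ).toRingHom] Q), ∃! g : T'.N₁₂ →ₗ[𝔠.R₁₂ A'] Q, ∀ n, g (β₁₂ n) = f n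

/-- The restriction of the line bundle to the marked section `P₀ × Spec A` is trivial:
some `n ∈ N₂` generates `N₂` modulo the ideal of the section. -/
def IsRigid (T : Triple 𝔠 A) : Prop :=
  ∃ n : T.N₂, ∀ m : T.N₂, ∃ r : 𝔠.R₂ A,
    m - r • n ∈ (RingHom.ker (𝔠.ev₀ A).toRingHom) • (⊤ : Submodule (𝔠.R₂ A) T.N₂)

end Triple

end Fermat.Agent.S25
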