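/-
S25: the ALGEBRAIC SPECIFICATION.  Owner: helper25.  FROZEN INTERFACE.

Everything the scheme-theoretic assembly needs from commutative algebra is collected in the
structure `AlgSpec 𝔠`.  Algebra teams prove `Nonempty (AlgSpec 𝔠)` (field by field);
scheme teams take `AlgSpec 𝔠` as a hypothesis.
-/
import Fermat.Agent.S25.Core

set_option autoImplicit false

universe u

open scoped TensorProduct Polynomial

namespace Fermat.Agent.S25

variable {k : Type u} [Field k]

namespace Triple

variable {𝔠 : CurveCharts k}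

section Field

variable {K : Type u} [Field K] [Algebra k K]

/-- `h⁰` of a triple over a field. -/
noncomputable def h0 (T : Triple 𝔠 K) : ℕ := Module.finrank K (LinearMap.ker T.δ)
/-- `h¹` of a triple over a field. -/
noncomputable def h1 (T : Triple 𝔠 K) : ℕ := Module.finrank K (T.N₁₂ ⧸ LinearMap.range T.δ)
/-- Euler characteristic of a triple over a field. -/
noncomputable def chi (T : Triple 𝔠 K) : ℤ := (T.h0 : ℤ) - (T.h1 : ℤ)

end Field

variable {A : Type u} [CommRing A] [Algebra k A]

/-- Fibrewise degree zero: every fibre has the Euler characteristic of the structure sheaf. -/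
def Deg0 (T : Triple 𝔠 A) : Prop :=
  ∀ (K : Type u) [Field K] [Algebra k K] (φ : A →ₐ[k] K) (TK : Triple 𝔠 K),
    Nonempty (BaseChange φ T TK) → TK.chi = (unit 𝔠 K).chi

/-- The objects of the moduli problem `Pic⁰` over `A`. -/
structure IsPic0 (T : Triple 𝔠 A) : Prop where
  inv : T.IsInvertible
  rigid : T.IsRigid
  deg0 : T.Deg0

/-- `T'` (over `A'`) is isomorphic to the base change of `T` (over `A`) along `φ`.
(`BaseChange` is already stable under isomorphism of the target.) -/
abbrev IsBC {A' : Type u} [CommRing A'] [Algebra k A'] (φ : A →ₐ[k] A')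
    (T : Triple 𝔠 A) (T' : Triple 𝔠 A') : Prop := Nonempty (BaseChange φ T T')

end Triple

/-- genus -/
noncomputable def CurveCharts.genus (𝔠 : CurveCharts k) : ℕ := (Triple.unit 𝔠 k).h1

open Triple in
/-- Finite atlas of `Pic⁰` by affine charts. -/
structure AlgCharts (𝔠 : CurveCharts k) where
  ι : Type u
  fin : Finite ι
  R : ι → Type u
  [ring : ∀ i, CommRing (R i)]
  [alg : ∀ i, Algebra k (R i)]
  ft : ∀ i, Algebra.FiniteType k (R i)
  /-- the universal line bundle on the chart -/
  U : ∀ i, Triple 𝔠 (R i)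
  pic0 : ∀ i, (U i).IsPic0
  /-- the chart is a subfunctor -/
  mono : ∀ (i : ι) (A : Type u) [CommRing A] [Algebra k A] (φ φ' : R i →ₐ[k] A) (T : Triple 𝔠 A),
    IsBC φ (U i) T → IsBC φ' (U i) T → φ = φ'
  /-- the chart is an open subfunctor -/
  isOpen : ∀ (i : ι) (A : Type u) [CommRing A] [Algebra k A] (T : Triple 𝔠 A), T.IsPic0 →
    ∃ V : Set (PrimeSpectrum A), IsOpen V ∧
      ∀ (A' : Type u) [CommRing A'] [Algebra k A'] (ψ : A →ₐ[k] A') (T' : Triple 𝔠 A'),
        IsBC ψ T T' →
        ((∀ p : PrimeSpectrum A', PrimeSpectrum.comap ψ.toRingHom p ∈ V) ↔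
          ∃ φ : R i →ₐ[k] A', IsBC φ (U i) T')
  /-- the charts cover (checked on field-valued points) -/
  cover : ∀ (K : Type u) [Field K] [Algebra k K] (T : Triple 𝔠 K), T.IsPic0 →
    ∃ (i : ι) (φ : R i →ₐ[k] K), IsBC φ (U i) T

attribute [instance] AlgCharts.ring AlgCharts.alg

open Triple in
/-- The complete algebraic input of the construction of the Jacobian. -/
structure AlgSpec (𝔠 : CurveCharts k) where
  charts : AlgCharts 𝔠
  /-- base change exists -/
  exists_bc : ∀ (A A' : Type u) [CommRing A] [Algebra k A] [CommRing A'] [Algebra k A']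
    (φ : A →ₐ[k] A') (T : Triple 𝔠 A), ∃ T' : Triple 𝔠 A', IsBC φ T T'
  /-- base change is unique up to isomorphism -/
  bc_unique : ∀ (A A' : Type u) [CommRing A] [Algebra k A] [CommRing A'] [Algebra k A']
    (φ : A →ₐ[k] A') (T : Triple 𝔠 A) (T' T'' : Triple 𝔠 A'), IsBC φ T T' → IsBC φ T T'' →
    Nonempty (Iso T' T'')
  /-- `Pic⁰` is stable under base change -/
  bc_pic0 : ∀ (A A' : Type u) [CommRing A] [Algebra k A] [CommRing A'] [Algebra k A']
    (φ : A →ₐ[k] A') (T : Triple 𝔠 A) (T' : Triple 𝔠 A'), IsBC φ T T' → T.IsPic0 → T'.IsPic0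
  /-- infinitesimal lifting (gives smoothness) -/
  lift : ∀ (A A' : Type u) [CommRing A] [Algebra k A] [CommRing A'] [Algebra k A']
    (π : A' →ₐ[k] A), Function.Surjective π → (RingHom.ker π.toRingHom) ^ 2 = ⊥ →
    ∀ T : Triple 𝔠 A, T.IsPic0 → ∃ T' : Triple 𝔠 A', T'.IsPic0 ∧ IsBC π T' T
  /-- valuative criterion, uniqueness (gives separatedness) -/
  val_unique : ∀ (V K : Type u) [CommRing V] [IsDomain V] [ValuationRing V] [Field K]
    [Algebra k V] [Algebra k K] [Algebra V K] [IsScalarTower k V K] [IsFractionRing V K]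
    (T T' : Triple 𝔠 V) (TK : Triple 𝔠 K), T.IsPic0 → T'.IsPic0 →
    IsBC (IsScalarTower.toAlgHom k V K) T TK → IsBC (IsScalarTower.toAlgHom k V K) T' TK →
    Nonempty (Iso T T')
  /-- valuative criterion, existence (gives properness) -/
  val_exists : ∀ (V K : Type u) [CommRing V] [IsDomain V] [ValuationRing V] [Field K]
    [Algebra k V] [Algebra k K] [Algebra V K] [IsScalarTower k V K] [IsFractionRing V K]
    (TK : Triple 𝔠 K), TK.IsPic0 →
    ∃ T : Triple 𝔠 V, T.IsPic0 ∧ IsBC (IsScalarTower.toAlgHom k V K) T TK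
  /-- the Euler characteristic is locally constant in families -/
  chi_locConst : ∀ (A : Type u) [CommRing A] [Algebra k A] (T : Triple 𝔠 A), T.IsInvertible →
    ∃ f : PrimeSpectrum A → ℤ, IsLocallyConstant f ∧
      ∀ (K : Type u) [Field K] [Algebra k K] (φ : A →ₐ[k] K) (TK : Triple 𝔠 K), IsBC φ T TK →
        TK.chi = f (PrimeSpectrum.comap φ.toRingHom ⊥)
  /-- a geometrically integral affine family through the trivial bundle which hits every
  geometric point of `Pic⁰` (gives connectedness and `degree 0 ⇒ algebraically equivalent to 0`) -/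
  famRing : Type u
  [famCommRing : CommRing famRing]
  [famAlg : Algebra k famRing]
  fam_ft : Algebra.FiniteType k famRing
  fam_geomIntegral : ∀ (K : Type u) [Field K] [Algebra k K], IsDomain (K ⊗[k] famRing)
  fam : Triple 𝔠 famRing
  fam_pic0 : fam.IsPic0
  fam_surj : ∀ (K : Type u) [Field K] [IsAlgClosed K] [Algebra k K] (T : Triple 𝔠 K), T.IsPic0 →
    ∃ φ : famRing →ₐ[k] K, IsBC φ fam T

end Fermat.Agent.S25
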