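/-
S25 / block L: "finite models" of a linear map (= cohomology and base change in linear algebra).
Owner: helper25.  FROZEN INTERFACE (definition only).
-/
import Mathlib

set_option autoImplicit false

universe u

namespace Fermat.Agent.S25

/-- A finite model of an `A`-linear map `δ : K⁰ → K¹` (think: Čech complex of a line bundle on
`C × Spec A`): a map `d : P⁰ → P¹` of finitely generated projective modules and a surjective map of
complexes `(a, b) : (K⁰ → K¹) → (P⁰ → P¹)` whose kernel complex `ker a → ker b` is an isomorphism.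
Since `P⁰, P¹` are projective everything splits, so `ker`/`coker` of `δ ⊗ A'` and `d ⊗ A'` agree for
every `A`-algebra `A'`. -/
structure FiniteModel {A : Type u} [CommRing A] {K0 K1 : Type u} [AddCommGroup K0] [Module A K0]
    [AddCommGroup K1] [Module A K1] (δ : K0 →ₗ[A] K1) where
  P0 : Type u
  P1 : Type u
  [ag0 : AddCommGroup P0]
  [ag1 : AddCommGroup P1]
  [mod0 : Module A P0]
  [mod1 : Module A P1]
  fin0 : Module.Finite A P0
  fin1 : Module.Finite A P1
  proj0 : Module.Projective A P0
  proj1 : Module.Projective A P1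
  d : P0 →ₗ[A] P1
  a : K0 →ₗ[A] P0
  b : K1 →ₗ[A] P1
  comm : ∀ z, b (δ z) = d (a z)
  a_surj : Function.Surjective a
  b_surj : Function.Surjective b
  ker_inj : ∀ z, a z = 0 → δ z = 0 → z = 0
  ker_surj : ∀ w, b w = 0 → ∃ z, a z = 0 ∧ δ z = w

attribute [instance] FiniteModel.ag0 FiniteModel.ag1 FiniteModel.mod0 FiniteModel.mod1
  FiniteModel.fin0 FiniteModel.fin1 FiniteModel.proj0 FiniteModel.proj1

end Fermat.Agent.S25
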