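/-
S25 / block L1: formal consequences of a `FiniteModel` (cohomology and base change in linear
algebra).  Owner: helper79.
-/
import Fermat.Agent.S25.FiniteModel

set_option autoImplicit false

universe u

open scoped TensorProduct

namespace Fermat.Agent.S25

namespace FiniteModel

variable {A : Type u} [CommRing A] {K0 K1 : Type u} [AddCommGroup K0] [Module A K0]
    [AddCommGroup K1] [Module A K1] {δ : K0 →ₗ[A] K1}

/-! ### L1: formal consequences -/

theorem injective_iff (m : FiniteModel δ) : Function.Injective δ ↔ Function.Injective m.d := by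
  constructor
  · intro h
    rw [injective_iff_map_eq_zero]
    intro p hp
    obtain ⟨z, rfl⟩ := m.a_surj p
    obtain ⟨z', hz', hδ⟩ := m.ker_surj (δ z) (by rw [m.comm, hp])
    rw [← h hδ, hz']
  · intro h
    rw [injective_iff_map_eq_zero]
    intro z hz
    refine m.ker_inj z (h ?_) hz
    rw [← m.comm, hz, map_zero, map_zero]

theorem surjective_iff (m : FiniteModel δ) : Function.Surjective δ ↔ Function.Surjective m.d := by
  constructor
  · intro h q
    obtain ⟨w, rfl⟩ := m.b_surj q
    obtain ⟨z, rfl⟩ := h w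
    exact ⟨m.a z, (m.comm z).symm⟩
  · intro h w
    obtain ⟨p, hp⟩ := h (m.b w)
    obtain ⟨z, rfl⟩ := m.a_surj p
    obtain ⟨z', -, hz'⟩ := m.ker_surj (w - δ z) (by rw [map_sub, m.comm, hp, sub_self])
    exact ⟨z' + z, by rw [map_add, hz', sub_add_cancel]⟩

theorem bijective_iff (m : FiniteModel δ) : Function.Bijective δ ↔ Function.Bijective m.d :=
  and_congr m.injective_iff m.surjective_iff

/-- the map `ker δ → ker d` induced by `a` -/
noncomputable def kerMap (m : FiniteModel δ) : LinearMap.ker δ →ₗ[A] LinearMap.ker m.d :=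
  (m.a.comp (LinearMap.ker δ).subtype).codRestrict (LinearMap.ker m.d) fun z => by
    rw [LinearMap.mem_ker, LinearMap.comp_apply, Submodule.subtype_apply, ← m.comm,
      LinearMap.mem_ker.mp z.2, map_zero]

theorem kerMap_bijective (m : FiniteModel δ) : Function.Bijective m.kerMap := by
  constructor
  · rw [injective_iff_map_eq_zero]
    intro z hz
    have h1 : m.a z = 0 := congrArg Subtype.val hz
    exact Subtype.ext (m.ker_inj z h1 (LinearMap.mem_ker.mp z.2))
  · rintro ⟨p, hp⟩
    obtain ⟨z, rfl⟩ := m.a_surj p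
    obtain ⟨z', hz', hδ⟩ := m.ker_surj (δ z) (by rw [m.comm, LinearMap.mem_ker.mp hp])
    refine ⟨⟨z - z', by rw [LinearMap.mem_ker, map_sub, hδ, sub_self]⟩, Subtype.ext ?_⟩
    show m.a (z - z') = m.a z
    rw [map_sub, hz', sub_zero]

noncomputable def kerEquiv (m : FiniteModel δ) : LinearMap.ker δ ≃ₗ[A] LinearMap.ker m.d :=
  LinearEquiv.ofBijective m.kerMap m.kerMap_bijective

@[simp]
theorem coe_kerEquiv_apply (m : FiniteModel δ) (z : LinearMap.ker δ) :
    (m.kerEquiv z : m.P0) = m.a z := rfl

/-- the map `coker δ → coker d` induced by `b` -/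
noncomputable def cokerMap (m : FiniteModel δ) :
    (K1 ⧸ LinearMap.range δ) →ₗ[A] (m.P1 ⧸ LinearMap.range m.d) :=
  Submodule.mapQ _ _ m.b (by
    rintro _ ⟨z, rfl⟩
    exact ⟨m.a z, (m.comm z).symm⟩)

theorem cokerMap_bijective (m : FiniteModel δ) : Function.Bijective m.cokerMap := by
  constructor
  · rw [injective_iff_map_eq_zero]
    intro x hx
    obtain ⟨w, rfl⟩ := Submodule.Quotient.mk_surjective _ x
    have h1 : Submodule.Quotient.mk (m.b w) = (0 : m.P1 ⧸ LinearMap.range m.d) := hx
    rw [Submodule.Quotient.mk_eq_zero] at h1 ⊢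
    obtain ⟨p, hp⟩ := h1
    obtain ⟨z, rfl⟩ := m.a_surj p
    obtain ⟨z', -, hz'⟩ := m.ker_surj (w - δ z) (by rw [map_sub, m.comm, hp, sub_self])
    exact ⟨z' + z, by rw [map_add, hz', sub_add_cancel]⟩
  · intro y
    obtain ⟨q, rfl⟩ := Submodule.Quotient.mk_surjective _ y
    obtain ⟨w, rfl⟩ := m.b_surj q
    exact ⟨Submodule.Quotient.mk w, rfl⟩

noncomputable def cokerEquiv (m : FiniteModel δ) :
    (K1 ⧸ LinearMap.range δ) ≃ₗ[A] (m.P1 ⧸ LinearMap.range m.d) :=
  LinearEquiv.ofBijective m.cokerMap m.cokerMap_bijective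

@[simp]
theorem cokerEquiv_mk (m : FiniteModel δ) (w : K1) :
    m.cokerEquiv (Submodule.Quotient.mk w) = Submodule.Quotient.mk (m.b w) := rfl

/-! ### splittings -/

/-- All the data of a finite model can be expressed by equations between linear maps. -/
theorem exists_splitting (m : FiniteModel δ) :
    ∃ (s : m.P0 →ₗ[A] K0) (t : m.P1 →ₗ[A] K1) (ψ : K1 →ₗ[A] K0),
      m.a ∘ₗ s = LinearMap.id ∧ m.b ∘ₗ t = LinearMap.id ∧ m.a ∘ₗ ψ = 0 ∧
      δ ∘ₗ ψ = LinearMap.id - t ∘ₗ m.b ∧
      ψ ∘ₗ δ ∘ₗ (LinearMap.id - s ∘ₗ m.a) = LinearMap.id - s ∘ₗ m.a := by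
  obtain ⟨s, hs⟩ := Module.projective_lifting_property m.a LinearMap.id m.a_surj
  obtain ⟨t, ht⟩ := Module.projective_lifting_property m.b LinearMap.id m.b_surj
  -- the isomorphism `ker a ≃ ker b`
  let φ₀ : LinearMap.ker m.a →ₗ[A] LinearMap.ker m.b :=
    (δ.comp (LinearMap.ker m.a).subtype).codRestrict (LinearMap.ker m.b) fun z => by
      rw [LinearMap.mem_ker, LinearMap.comp_apply, Submodule.subtype_apply, m.comm,
        LinearMap.mem_ker.mp z.2, map_zero]
  have hφ₀ : Function.Bijective φ₀ := by
    constructor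
    · rw [injective_iff_map_eq_zero]
      intro z hz
      exact Subtype.ext (m.ker_inj z (LinearMap.mem_ker.mp z.2) (congrArg Subtype.val hz))
    · rintro ⟨w, hw⟩
      obtain ⟨z, hz, hδ⟩ := m.ker_surj w (LinearMap.mem_ker.mp hw)
      exact ⟨⟨z, LinearMap.mem_ker.mpr hz⟩, Subtype.ext hδ⟩
  let φ : LinearMap.ker m.a ≃ₗ[A] LinearMap.ker m.b := LinearEquiv.ofBijective φ₀ hφ₀
  have hφ : ∀ z : LinearMap.ker m.a, (φ z : K1) = δ z := fun _ => rfl
  let pr : K1 →ₗ[A] LinearMap.ker m.b :=
    (LinearMap.id - t ∘ₗ m.b).codRestrict (LinearMap.ker m.b) fun w => by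
      have h1 : m.b (t (m.b w)) = m.b w := LinearMap.congr_fun ht (m.b w)
      rw [LinearMap.mem_ker, LinearMap.sub_apply, LinearMap.id_apply, LinearMap.comp_apply,
        map_sub, h1, sub_self]
  let ψ : K1 →ₗ[A] K0 := (LinearMap.ker m.a).subtype ∘ₗ φ.symm.toLinearMap ∘ₗ pr
  refine ⟨s, t, ψ, hs, ht, ?_, ?_, ?_⟩
  · ext w
    exact LinearMap.mem_ker.mp (φ.symm (pr w)).2
  · ext w
    show δ (φ.symm (pr w) : K0) = _
    rw [← hφ, LinearEquiv.apply_symm_apply]
    rfl
  · ext z
    have h1 : m.a (s (m.a z)) = m.a z := LinearMap.congr_fun hs (m.a z)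
    have hz : z - s (m.a z) ∈ LinearMap.ker m.a := by
      rw [LinearMap.mem_ker, map_sub, h1, sub_self]
    show ((φ.symm (pr (δ (z - s (m.a z)))) : LinearMap.ker m.a) : K0) = z - s (m.a z)
    have h2 : pr (δ (z - s (m.a z))) = φ ⟨z - s (m.a z), hz⟩ := by
      apply Subtype.ext
      show δ (z - s (m.a z)) - t (m.b (δ (z - s (m.a z)))) = δ (z - s (m.a z))
      rw [m.comm, LinearMap.mem_ker.mp hz, map_zero, map_zero, sub_zero]
    rw [h2, LinearEquiv.symm_apply_apply]

noncomputable def baseChange (m : FiniteModel δ) (A' : Type u) [CommRing A'] [Algebra A A'] :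
    FiniteModel (δ.baseChange A') where
  P0 := A' ⊗[A] m.P0
  P1 := A' ⊗[A] m.P1
  fin0 := inferInstance
  fin1 := inferInstance
  proj0 := inferInstance
  proj1 := inferInstance
  d := m.d.baseChange A'
  a := m.a.baseChange A'
  b := m.b.baseChange A'
  comm := by
    have h : m.b ∘ₗ δ = m.d ∘ₗ m.a := LinearMap.ext m.comm
    have h2 := congrArg (LinearMap.baseChange A') h
    rw [LinearMap.baseChange_comp, LinearMap.baseChange_comp] at h2
    exact fun z => LinearMap.congr_fun h2 z
  a_surj := LinearMap.lTensor_surjective A' m.a_surj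
  b_surj := LinearMap.lTensor_surjective A' m.b_surj
  ker_inj := by
    obtain ⟨s, t, ψ, -, -, -, -, h5⟩ := m.exists_splitting
    have h5' := congrArg (LinearMap.baseChange A') h5
    simp only [LinearMap.baseChange_comp, LinearMap.baseChange_sub, LinearMap.baseChange_id]
      at h5'
    intro z hz hδ
    have := LinearMap.congr_fun h5' z
    simp only [LinearMap.comp_apply, LinearMap.sub_apply, LinearMap.id_apply, hz, map_zero,
      sub_zero, hδ] at this
    exact this.symm
  ker_surj := by
    obtain ⟨s, t, ψ, -, -, h3, h4, -⟩ := m.exists_splitting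
    have h3' := congrArg (LinearMap.baseChange A') h3
    have h4' := congrArg (LinearMap.baseChange A') h4
    simp only [LinearMap.baseChange_comp, LinearMap.baseChange_sub, LinearMap.baseChange_id,
      LinearMap.baseChange_zero] at h3' h4'
    intro w hw
    refine ⟨ψ.baseChange A' w, LinearMap.congr_fun h3' w, ?_⟩
    have := LinearMap.congr_fun h4' w
    simpa only [LinearMap.comp_apply, LinearMap.sub_apply, LinearMap.id_apply, hw, map_zero,
      sub_zero] using this

@[simp] theorem baseChange_d (m : FiniteModel δ) (A' : Type u) [CommRing A'] [Algebra A A'] :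
    (m.baseChange A').d = m.d.baseChange A' := rfl

/-! ### the case of a surjective `δ` -/

/-- if `d` is onto, its kernel is a direct summand of `P0` -/
theorem exists_retraction_ker_d (m : FiniteModel δ) (h : Function.Surjective m.d) :
    ∃ r : m.P0 →ₗ[A] LinearMap.ker m.d, r ∘ₗ (LinearMap.ker m.d).subtype = LinearMap.id := by
  obtain ⟨σ, hσ⟩ := Module.projective_lifting_property m.d LinearMap.id h
  have hmem : ∀ x, (LinearMap.id - σ ∘ₗ m.d : m.P0 →ₗ[A] m.P0) x ∈ LinearMap.ker m.d := fun x => by
    have h1 : m.d (σ (m.d x)) = m.d x := LinearMap.congr_fun hσ (m.d x)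
    rw [LinearMap.mem_ker, LinearMap.sub_apply, LinearMap.id_apply, LinearMap.comp_apply,
      map_sub, h1, sub_self]
  refine ⟨(LinearMap.id - σ ∘ₗ m.d).codRestrict (LinearMap.ker m.d) hmem, ?_⟩
  ext x
  show (x : m.P0) - σ (m.d x) = x
  rw [LinearMap.mem_ker.mp x.2, map_zero, sub_zero]

theorem ker_d_finite_projective (m : FiniteModel δ) (h : Function.Surjective m.d) :
    Module.Finite A (LinearMap.ker m.d) ∧ Module.Projective A (LinearMap.ker m.d) := by
  obtain ⟨r, hr⟩ := m.exists_retraction_ker_d h
  refine ⟨Module.Finite.of_surjective r fun x => ⟨x, LinearMap.congr_fun hr x⟩,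
    Module.Projective.of_split _ r hr⟩

theorem ker_finite_projective_of_surjective (m : FiniteModel δ) (h : Function.Surjective δ) :
    Module.Finite A (LinearMap.ker δ) ∧ Module.Projective A (LinearMap.ker δ) := by
  obtain ⟨h1, h2⟩ := m.ker_d_finite_projective (m.surjective_iff.mp h)
  exact ⟨Module.Finite.equiv m.kerEquiv.symm, Module.Projective.of_equiv m.kerEquiv.symm⟩

/-- if `δ` is onto, its kernel is a direct summand of `K0` -/
theorem exists_retraction_ker (m : FiniteModel δ) (h : Function.Surjective δ) :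
    ∃ r : K0 →ₗ[A] LinearMap.ker δ, r ∘ₗ (LinearMap.ker δ).subtype = LinearMap.id := by
  obtain ⟨r, hr⟩ := m.exists_retraction_ker_d (m.surjective_iff.mp h)
  refine ⟨m.kerEquiv.symm.toLinearMap ∘ₗ r ∘ₗ m.a, ?_⟩
  ext z
  show ((m.kerEquiv.symm (r (m.a z)) : LinearMap.ker δ) : K0) = z
  have h1 : r (m.a z) = m.kerEquiv z := LinearMap.congr_fun hr (m.kerEquiv z)
  rw [h1, LinearEquiv.symm_apply_apply]

/-- if `δ` is onto, `ker` commutes with base change -/
theorem ker_baseChange_of_surjective (m : FiniteModel δ) (h : Function.Surjective δ)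
    (A' : Type u) [CommRing A'] [Algebra A A'] :
    LinearMap.range ((LinearMap.ker δ).subtype.baseChange A') = LinearMap.ker (δ.baseChange A') ∧
      Function.Injective ((LinearMap.ker δ).subtype.baseChange A') := by
  constructor
  · have hex : Function.Exact (LinearMap.ker δ).subtype δ := fun y => by
      simp
    have hex' := lTensor_exact A' hex h
    ext y
    rw [LinearMap.mem_ker, LinearMap.mem_range]
    exact (hex' y).symm
  · obtain ⟨r, hr⟩ := m.exists_retraction_ker h
    have hr' := congrArg (LinearMap.baseChange A') hr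
    rw [LinearMap.baseChange_comp, LinearMap.baseChange_id] at hr'
    exact Function.LeftInverse.injective (g := r.baseChange A') fun x => LinearMap.congr_fun hr' x

/-! ### fields -/

theorem finite_ker_coker_field (m : FiniteModel δ) (K : Type u) [Field K] [Algebra A K] :
    Module.Finite K (LinearMap.ker (δ.baseChange K)) ∧
      Module.Finite K ((K ⊗[A] K1) ⧸ LinearMap.range (δ.baseChange K)) :=
  ⟨Module.Finite.equiv (m.baseChange K).kerEquiv.symm,
    Module.Finite.equiv (m.baseChange K).cokerEquiv.symm⟩

/-- dimension of the fibre of a finitely generated projective module at a field valued point -/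
theorem finrank_baseChange_field (P : Type u) [AddCommGroup P] [Module A P] [Module.Finite A P]
    [Module.Projective A P] (K : Type u) [Field K] [Algebra A K] :
    Module.finrank K (K ⊗[A] P) =
      Module.rankAtStalk P (PrimeSpectrum.comap (algebraMap A K) ⊥) := by
  rw [← Module.rankAtStalk_baseChange, Module.rankAtStalk_eq_finrank_of_free]
  rfl

theorem isLocallyConstant_rank (P : Type u) [AddCommGroup P] [Module A P] [Module.Finite A P]
    [Module.Projective A P] : IsLocallyConstant (Module.rankAtStalk (R := A) P) :=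
  have : Module.FinitePresentation A P := Module.finitePresentation_of_projective A P
  Module.isLocallyConstant_rankAtStalk

theorem exists_chi (m : FiniteModel δ) : ∃ f : PrimeSpectrum A → ℤ, IsLocallyConstant f ∧
    ∀ (K : Type u) [Field K] [Algebra A K],
      (Module.finrank K (LinearMap.ker (δ.baseChange K)) : ℤ) -
        Module.finrank K ((K ⊗[A] K1) ⧸ LinearMap.range (δ.baseChange K)) =
      f (PrimeSpectrum.comap (algebraMap A K) ⊥) := by
  refine ⟨fun p => (Module.rankAtStalk m.P0 p : ℤ) - Module.rankAtStalk m.P1 p, ?_, ?_⟩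
  · exact ((isLocallyConstant_rank m.P0).comp (Nat.cast : ℕ → ℤ)).sub
      ((isLocallyConstant_rank m.P1).comp (Nat.cast : ℕ → ℤ))
  · intro K _ _
    rw [(m.baseChange K).kerEquiv.finrank_eq, (m.baseChange K).cokerEquiv.finrank_eq]
    show _ = (Module.rankAtStalk m.P0 (PrimeSpectrum.comap (algebraMap A K) ⊥) : ℤ)
      - Module.rankAtStalk m.P1 (PrimeSpectrum.comap (algebraMap A K) ⊥)
    rw [← finrank_baseChange_field, ← finrank_baseChange_field]
    have h1 := LinearMap.finrank_range_add_finrank_ker (m.baseChange K).d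
    have h2 := Submodule.finrank_quotient_add_finrank (LinearMap.range (m.baseChange K).d)
    have h1' : Module.finrank K (LinearMap.range (m.baseChange K).d) +
      Module.finrank K (LinearMap.ker (m.baseChange K).d) = Module.finrank K (K ⊗[A] m.P0) := h1
    have h2' : Module.finrank K ((m.baseChange K).P1 ⧸ LinearMap.range (m.baseChange K).d) +
      Module.finrank K (LinearMap.range (m.baseChange K).d) = Module.finrank K (K ⊗[A] m.P1) := h2
    omega

/-! ### the bijectivity locus -/

/-- the locus where `δ` is fibrewise bijective -/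
def bijLocus (δ : K0 →ₗ[A] K1) : Set (PrimeSpectrum A) :=
  {p | Function.Bijective (δ.baseChange p.asIdeal.ResidueField)}

/-- the description of the bijectivity locus in terms of the model -/
def goodLocus (m : FiniteModel δ) : Set (PrimeSpectrum A) :=
  (Module.support A (m.P1 ⧸ LinearMap.range m.d))ᶜ ∩
    {p | Module.rankAtStalk m.P0 p = Module.rankAtStalk m.P1 p}

theorem isOpen_goodLocus (m : FiniteModel δ) : IsOpen m.goodLocus := by
  refine Module.isClosed_support.isOpen_compl.inter ?_
  exact ((isLocallyConstant_rank m.P0).prodMk (isLocallyConstant_rank m.P1)) {x | x.1 = x.2}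

/-- the fibre of a finitely generated module at a field valued point vanishes iff the point is
outside of the support -/
theorem subsingleton_tensor_field_iff (C : Type u) [AddCommGroup C] [Module A C]
    [Module.Finite A C] (K : Type u) [Field K] [Algebra A K] :
    Subsingleton (K ⊗[A] C) ↔
      PrimeSpectrum.comap (algebraMap A K) ⊥ ∉ Module.support A C := by
  set p : PrimeSpectrum A := PrimeSpectrum.comap (algebraMap A K) ⊥ with hp
  have hmem : ∀ r : A, r ∈ p.asIdeal ↔ algebraMap A K r = 0 := fun r => by
    rw [hp, PrimeSpectrum.comap_asIdeal, Ideal.mem_comap]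
    exact Iff.rfl
  let φ : p.asIdeal.ResidueField →+* K := Ideal.ResidueField.lift p.asIdeal (algebraMap A K)
    (fun r hr => (hmem r).mp hr)
    (fun r hr => (isUnit_iff_ne_zero.mpr fun h0 => hr ((hmem r).mpr h0) :))
  let _ : Algebra p.asIdeal.ResidueField K := φ.toAlgebra
  have : IsScalarTower A p.asIdeal.ResidueField K := IsScalarTower.of_algebraMap_eq fun r =>
    (Ideal.ResidueField.lift_algebraMap _ _ _ _ r).symm
  let e := TensorProduct.AlgebraTensorModule.cancelBaseChange A p.asIdeal.ResidueField K K C
  rw [Module.mem_support_iff_nontrivial_residueField_tensorProduct, not_nontrivial_iff_subsingleton,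
    ← e.subsingleton_congr, Module.FaithfullyFlat.subsingleton_tensorProduct_iff_right]

/-- surjectivity of a base change in terms of the cokernel -/
theorem surjective_baseChange_iff_subsingleton {P Q : Type u} [AddCommGroup P] [Module A P] [AddCommGroup Q]
    [Module A Q] (d : P →ₗ[A] Q) (A' : Type u) [CommRing A'] [Algebra A A'] :
    Function.Surjective (d.baseChange A') ↔ Subsingleton (A' ⊗[A] (Q ⧸ LinearMap.range d)) := by
  have hex : Function.Exact d (LinearMap.range d).mkQ := fun y => by
    rw [Submodule.mkQ_apply, Submodule.Quotient.mk_eq_zero]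
    rfl
  have hsurj : Function.Surjective (LinearMap.range d).mkQ := Submodule.mkQ_surjective _
  have hex' := lTensor_exact A' hex hsurj
  have hsurj' := LinearMap.lTensor_surjective A' hsurj
  constructor
  · intro h
    refine ⟨fun x y => ?_⟩
    obtain ⟨x, rfl⟩ := hsurj' x
    obtain ⟨y, rfl⟩ := hsurj' y
    rw [(hex' x).mpr (h x), (hex' y).mpr (h y)]
  · intro h y
    exact (hex' y).mp (Subsingleton.elim _ _)

theorem bijective_baseChange_field_iff (m : FiniteModel δ) (K : Type u) [Field K] [Algebra A K] :
    Function.Bijective (δ.baseChange K) ↔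
      PrimeSpectrum.comap (algebraMap A K) ⊥ ∈ m.goodLocus := by
  rw [(m.baseChange K).bijective_iff, goodLocus, Set.mem_inter_iff,
    Set.mem_compl_iff, ← subsingleton_tensor_field_iff, ← surjective_baseChange_iff_subsingleton,
    Set.mem_ofPred_eq, ← finrank_baseChange_field, ← finrank_baseChange_field]
  show Function.Bijective (m.d.baseChange K) ↔ _
  constructor
  · intro h
    exact ⟨h.2, (LinearEquiv.ofBijective _ h).finrank_eq⟩
  · rintro ⟨h1, h2⟩
    exact ⟨(LinearMap.injective_iff_surjective_of_finrank_eq_finrank h2).mpr h1, h1⟩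

theorem comap_residueField_bot (p : PrimeSpectrum A) :
    PrimeSpectrum.comap (algebraMap A p.asIdeal.ResidueField) ⊥ = p :=
  PrimeSpectrum.ext (Ideal.ext fun _ => Ideal.algebraMap_residueField_eq_zero)

theorem bijLocus_eq_goodLocus (m : FiniteModel δ) : bijLocus δ = m.goodLocus := by
  ext p
  rw [bijLocus, Set.mem_ofPred_eq, m.bijective_baseChange_field_iff, comap_residueField_bot]

theorem isOpen_bijLocus (m : FiniteModel δ) : IsOpen (bijLocus δ) := by
  rw [m.bijLocus_eq_goodLocus]
  exact m.isOpen_goodLocus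

theorem bijective_d_iff (m : FiniteModel δ) :
    Function.Bijective m.d ↔ ∀ p, p ∈ m.goodLocus := by
  constructor
  · intro h p
    refine ⟨?_, ?_⟩
    · have : Subsingleton (m.P1 ⧸ LinearMap.range m.d) := by
        rw [Submodule.Quotient.subsingleton_iff, LinearMap.range_eq_top]
        exact h.2
      rw [Module.support_eq_empty]
      exact Set.notMem_empty p
    · exact congrFun (Module.rankAtStalk_eq_of_equiv (LinearEquiv.ofBijective _ h)) p
  · intro h
    have hsupp : Module.support A (m.P1 ⧸ LinearMap.range m.d) = ∅ :=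
      Set.eq_empty_of_forall_notMem fun p => (h p).1
    rw [Module.support_eq_empty_iff, Submodule.Quotient.subsingleton_iff,
      LinearMap.range_eq_top] at hsupp
    refine ⟨?_, hsupp⟩
    obtain ⟨hfin, hproj⟩ := m.ker_d_finite_projective hsupp
    obtain ⟨σ, hσ⟩ := Module.projective_lifting_property m.d LinearMap.id hsupp
    have hex : Function.Exact (LinearMap.ker m.d).subtype m.d := fun y => by
      simp
    obtain ⟨e, -, -⟩ := hex.splitSurjectiveEquiv (Submodule.subtype_injective _) ⟨σ, hσ⟩
    have hrank : Module.rankAtStalk (R := A) (LinearMap.ker m.d) = 0 := by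
      funext p
      have h1 := congrFun (Module.rankAtStalk_eq_of_equiv e) p
      rw [Module.rankAtStalk_prod, Pi.add_apply, (h p).2] at h1
      simpa using h1
    rw [Module.rankAtStalk_eq_zero_iff_subsingleton] at hrank
    rw [← LinearMap.ker_eq_bot]
    exact Submodule.subsingleton_iff_eq_bot.mp hrank

/-- transitivity of base change -/
theorem bijective_baseChange_baseChange_iff (δ : K0 →ₗ[A] K1) (A' : Type u) [CommRing A']
    [Algebra A A'] (K : Type u) [CommRing K] [Algebra A K] [Algebra A' K] [IsScalarTower A A' K] :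
    Function.Bijective ((δ.baseChange A').baseChange K) ↔ Function.Bijective (δ.baseChange K) := by
  let e0 := TensorProduct.AlgebraTensorModule.cancelBaseChange A A' K K K0
  let e1 := TensorProduct.AlgebraTensorModule.cancelBaseChange A A' K K K1
  have hcomm : (δ.baseChange K) ∘ₗ e0.toLinearMap
      = e1.toLinearMap ∘ₗ ((δ.baseChange A').baseChange K) := by
    ext z
    simp [e0, e1]
  have h1 : Function.Bijective ((δ.baseChange K) ∘ e0) ↔ Function.Bijective (δ.baseChange K) :=
    Function.Bijective.of_comp_iff _ e0.bijective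
  have h2 : Function.Bijective (e1 ∘ ((δ.baseChange A').baseChange K)) ↔
      Function.Bijective ((δ.baseChange A').baseChange K) :=
    Function.Bijective.of_comp_iff' e1.bijective _
  rw [← h1, ← h2]
  have h3 : ((δ.baseChange K) ∘ e0 : _ → _) = (e1 ∘ ((δ.baseChange A').baseChange K) : _ → _) :=
    funext fun x => LinearMap.congr_fun hcomm x
  rw [h3]

theorem mem_goodLocus_baseChange_iff (m : FiniteModel δ) (A' : Type u) [CommRing A']
    [Algebra A A'] (p : PrimeSpectrum A') :
    p ∈ (m.baseChange A').goodLocus ↔ PrimeSpectrum.comap (algebraMap A A') p ∈ m.goodLocus := by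
  have h1 := (m.baseChange A').bijective_baseChange_field_iff p.asIdeal.ResidueField
  have h2 := m.bijective_baseChange_field_iff p.asIdeal.ResidueField
  rw [comap_residueField_bot] at h1
  rw [← h1, bijective_baseChange_baseChange_iff, h2]
  have h3 : PrimeSpectrum.comap (algebraMap A p.asIdeal.ResidueField) ⊥
      = PrimeSpectrum.comap (algebraMap A A') p := by
    conv_rhs => rw [← comap_residueField_bot p]
    rw [IsScalarTower.algebraMap_eq A A' p.asIdeal.ResidueField, PrimeSpectrum.comap_comp]
    rfl
  rw [h3]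

theorem bijective_baseChange_iff (m : FiniteModel δ) (A' : Type u) [CommRing A'] [Algebra A A'] :
    Function.Bijective (δ.baseChange A') ↔
      ∀ p : PrimeSpectrum A', PrimeSpectrum.comap (algebraMap A A') p ∈ bijLocus δ := by
  rw [(m.baseChange A').bijective_iff, (m.baseChange A').bijective_d_iff, m.bijLocus_eq_goodLocus]
  exact forall_congr' fun p => m.mem_goodLocus_baseChange_iff A' p

end FiniteModel

end Fermat.Agent.S25
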