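/-
S25 / block L2: the `P¹`-lattice theorem.  Owner helper190.

A vector bundle on `P¹_A` (given by `N₁` over `A[x]`, `N₂` over `A[y]`, glued in `N₁₂`, `y = 1/x`)
has a finite model of its Čech complex.

Proof.  Let `σ : N₁ → A[x]^r` be a section of a surjection `π`.  The `A`-linear map
`s₁ : N₁₂ → N₁`, `s₁ (t^{-l} ρ₁ n₁) = π (divX^l (σ n₁))` is a retraction of `ρ₁`, it kills
`t^{-m} N₂` for `m ≫ 0`, and `n - ρ₁ (s₁ n) ∈ t^{m'} N₂` for all `n`.  Hence `N₁ ∩ t^{-m} N₂ = 0` and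
`N₁₂ / (N₁ + t^{-m} N₂)` is a retract of `N₂ / y^{m+m'} N₂`, which is a retract of a finite free
`A`-module.
-/
import Fermat.Agent.S25.FiniteModel

set_option autoImplicit false
set_option linter.unusedSectionVars false

universe u

open scoped Polynomial
open Polynomial

noncomputable section

namespace Fermat.Agent.S25.P1Lattice

variable {A : Type u} [CommRing A]

section Gen

variable {N : Type*} [AddCommGroup N] [Module A N] [Module A[X] N] [IsScalarTower A A[X] N]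

/-- multiplication by `X ^ M` as an `A`-linear map. -/
def xmul (A : Type u) [CommRing A] (N : Type*) [AddCommGroup N] [Module A N] [Module A[X] N]
    [IsScalarTower A A[X] N] (M : ℕ) : N →ₗ[A] N :=
  ((X ^ M : A[X]) • (LinearMap.id : N →ₗ[A[X]] N)).restrictScalars A

@[simp] theorem xmul_apply (M : ℕ) (n : N) : xmul A N M n = (X ^ M : A[X]) • n := rfl

theorem C_smul' (a : A) (n : N) : (C a : A[X]) • n = a • n := by
  rw [← algebraMap_eq, algebraMap_smul]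

/-- an `A`-submodule stable under `X` is stable under `A[X]`. -/
theorem smul_mem_of_X (S : Submodule A N) (hX : ∀ n ∈ S, (X : A[X]) • n ∈ S) (p : A[X]) {n : N}
    (hn : n ∈ S) : p • n ∈ S := by
  induction p using Polynomial.induction_on' with
  | add p q hp hq => rw [add_smul]; exact S.add_mem hp hq
  | monomial k a =>
    rw [← C_mul_X_pow_eq_monomial, mul_smul, C_smul']
    refine S.smul_mem a ?_
    induction k with
    | zero => simpa using hn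
    | succ k ih => rw [pow_succ', mul_smul]; exact hX _ ih

theorem mem_of_gens (S : Submodule A N) (hX : ∀ n ∈ S, (X : A[X]) • n ∈ S) (G : Set N)
    (hG : Submodule.span A[X] G = ⊤) (hGS : G ⊆ S) (n : N) : n ∈ S := by
  let S' : Submodule A[X] N :=
    { carrier := S
      add_mem' := S.add_mem
      zero_mem' := S.zero_mem
      smul_mem' := fun p _ hn => smul_mem_of_X S hX p hn }
  have : Submodule.span A[X] G ≤ S' := Submodule.span_le.mpr hGS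
  rw [hG] at this
  exact this trivial

end Gen

/-! ### `divX` on vectors -/

/-- `divX` as an `A`-linear map. -/
def divXl : A[X] →ₗ[A] A[X] where
  toFun := divX
  map_add' _ _ := divX_add
  map_smul' a p := by simp [smul_eq_C_mul, divX_C_mul]

/-- componentwise `divX`. -/
def Dv (r : ℕ) : (Fin r → A[X]) →ₗ[A] (Fin r → A[X]) :=
  LinearMap.pi fun i => divXl ∘ₗ LinearMap.proj i

theorem Dv_apply {r : ℕ} (w : Fin r → A[X]) (i : Fin r) : Dv r w i = divX (w i) := rfl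

theorem Dv_X_smul {r : ℕ} (w : Fin r → A[X]) : Dv r ((X : A[X]) • w) = w := by
  ext i n
  simp [Dv_apply, coeff_divX]

theorem Dv_pow_coeff {r : ℕ} (l : ℕ) (w : Fin r → A[X]) (i : Fin r) (n : ℕ) :
    (((Dv r) ^ l) w i).coeff n = (w i).coeff (n + l) := by
  induction l generalizing n with
  | zero => simp
  | succ l ih =>
    rw [pow_succ', Module.End.mul_apply, Dv_apply, coeff_divX, ih]
    congr 1
    omega

theorem Dv_pow_eq_zero {r : ℕ} (l : ℕ) (w : Fin r → A[X]) (h : ∀ i, (w i).natDegree < l) :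
    ((Dv r) ^ l) w = 0 := by
  ext i n
  rw [Dv_pow_coeff]
  simp only [Pi.zero_apply, coeff_zero]
  exact coeff_eq_zero_of_natDegree_lt (by have := h i; omega)

theorem sub_X_smul_Dv {r : ℕ} (w : Fin r → A[X]) :
    w - (X : A[X]) • Dv r w = fun i => C ((w i).coeff 0) := by
  ext1 i
  have := X_mul_divX_add (w i)
  simp only [Pi.sub_apply, Pi.smul_apply, Dv_apply, smul_eq_mul]
  linear_combination (-1 : A[X]) * this

/-! ### `N / X ^ M N` is finite projective over `A` -/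

theorem eq_trunc_add (M : ℕ) (p q : A[X]) (hq : ∀ n, q.coeff n = p.coeff (n + M)) :
    p = (∑ k : Fin M, monomial (k : ℕ) (p.coeff k)) + X ^ M * q := by
  ext j
  rw [coeff_add, finsetSum_coeff, coeff_X_pow_mul', hq,
    Fin.sum_univ_eq_sum_range (fun k => (monomial k (p.coeff k)).coeff j) M]
  simp only [coeff_monomial, Finset.sum_ite_eq', Finset.mem_range]
  by_cases h : j < M
  · simp [h, Nat.not_le.mpr h]
  · have h' : M ≤ j := Nat.not_lt.mp h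
    simp [h, h', Nat.sub_add_cancel h']

theorem quot_finite_projective {N : Type u} [AddCommGroup N] [Module A N] [Module A[X] N]
    [IsScalarTower A A[X] N] [Module.Finite A[X] N] [Module.Projective A[X] N] (M : ℕ) :
    Module.Finite A (N ⧸ LinearMap.range (xmul A N M)) ∧
      Module.Projective A (N ⧸ LinearMap.range (xmul A N M)) := by
  obtain ⟨r, π, hπ⟩ := Module.Finite.exists_fin' A[X] N
  obtain ⟨σ, hσ⟩ := Module.projective_lifting_property π LinearMap.id hπ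
  have hπσ : ∀ n, π (σ n) = n := fun n => LinearMap.congr_fun hσ n
  let α₀ : N →ₗ[A] (Fin r → Fin M → A) :=
    LinearMap.pi fun i => LinearMap.pi fun k =>
      (lcoeff A (k : ℕ)) ∘ₗ (LinearMap.proj i) ∘ₗ σ.restrictScalars A
  have hα₀ : ∀ n i k, α₀ n i k = (σ n i).coeff (k : ℕ) := fun _ _ _ => rfl
  let β₀ : (Fin r → Fin M → A) →ₗ[A] (Fin r → A[X]) :=
    LinearMap.pi fun i => (∑ k : Fin M, (monomial (k : ℕ)) ∘ₗ LinearMap.proj k) ∘ₗ LinearMap.proj i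
  have hβ₀ : ∀ w i, β₀ w i = ∑ k : Fin M, monomial (k : ℕ) (w i k) := by
    intro w i
    simp [β₀]
  have hker : LinearMap.range (xmul A N M) ≤ LinearMap.ker α₀ := by
    rintro _ ⟨n, rfl⟩
    rw [LinearMap.mem_ker]
    ext i k
    rw [hα₀, xmul_apply, map_smul, Pi.smul_apply, smul_eq_mul, coeff_X_pow_mul']
    simp [Nat.not_le.mpr k.2]
  let α := (LinearMap.range (xmul A N M)).liftQ α₀ hker
  let β : (Fin r → Fin M → A) →ₗ[A] (N ⧸ LinearMap.range (xmul A N M)) :=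
    (LinearMap.range (xmul A N M)).mkQ ∘ₗ π.restrictScalars A ∘ₗ β₀
  have hβα : β ∘ₗ α = LinearMap.id := by
    apply Submodule.linearMap_qext
    ext n
    simp only [LinearMap.comp_apply, Submodule.mkQ_apply, LinearMap.id_apply, α, β,
      Submodule.liftQ_apply, LinearMap.restrictScalars_apply]
    rw [eq_comm, Submodule.Quotient.eq]
    refine ⟨π (((Dv r) ^ M) (σ n)), ?_⟩
    have e : σ n = β₀ (α₀ n) + (X ^ M : A[X]) • ((Dv r) ^ M) (σ n) := by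
      ext1 i
      have := eq_trunc_add M (σ n i) ((((Dv r) ^ M) (σ n)) i) (fun j => Dv_pow_coeff M (σ n) i j)
      rw [Pi.add_apply, Pi.smul_apply, smul_eq_mul, hβ₀]
      simp only [hα₀]
      exact this
    have e' := congrArg π e
    rw [hπσ, map_add, map_smul] at e'
    rw [xmul_apply, eq_sub_iff_add_eq']
    exact e'.symm
  have hsurj : Function.Surjective β := fun x => ⟨α x, LinearMap.congr_fun hβα x⟩
  exact ⟨Module.Finite.of_surjective β hsurj, Module.Projective.of_split α β hβα⟩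

/-! ### The retraction `s₁` -/

section Lattice

variable {N₁ N₂ N₁₂ : Type u} [AddCommGroup N₁] [AddCommGroup N₂] [AddCommGroup N₁₂]
    [Module A N₁] [Module A N₂] [Module A N₁₂]
    [Module A[X] N₁] [Module A[X] N₂] [IsScalarTower A A[X] N₁] [IsScalarTower A A[X] N₂]

theorem zpow_zpow_apply (t : N₁₂ ≃ₗ[A] N₁₂) (a b : ℤ) (n : N₁₂) :
    (t ^ a) ((t ^ b) n) = (t ^ (a + b)) n := by
  rw [zpow_add]; rfl

omit [IsScalarTower A A[X] N₁] in
theorem map_X_pow_smul (t : N₁₂ ≃ₗ[A] N₁₂) (ρ₁ : N₁ →ₗ[A] N₁₂)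
    (h₁ : ∀ n, ρ₁ ((X : A[X]) • n) = t (ρ₁ n)) (k : ℕ) (n : N₁) :
    ρ₁ ((X ^ k : A[X]) • n) = (t ^ (k : ℤ)) (ρ₁ n) := by
  induction k with
  | zero => simp
  | succ k ih =>
    rw [pow_succ', mul_smul, h₁, ih]
    have : t ((t ^ (k : ℤ)) (ρ₁ n)) = (t ^ (1 : ℤ)) ((t ^ (k : ℤ)) (ρ₁ n)) := by rw [zpow_one]
    rw [this, zpow_zpow_apply]
    congr 2
    push_cast
    ring

variable {r : ℕ} (σ : N₁ →ₗ[A[X]] (Fin r → A[X])) (π : (Fin r → A[X]) →ₗ[A[X]] N₁)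

/-- "divide by `x ^ l`, drop the polar part": `π ∘ divX ^ l ∘ σ`. -/
def sl (l : ℕ) : N₁ →ₗ[A] N₁ :=
  (π.restrictScalars A) ∘ₗ ((Dv r) ^ l) ∘ₗ (σ.restrictScalars A)

theorem sl_apply (l : ℕ) (n : N₁) : sl σ π l n = π (((Dv r) ^ l) (σ n)) := rfl

theorem sl_succ_X (l : ℕ) (n : N₁) : sl σ π (l + 1) ((X : A[X]) • n) = sl σ π l n := by
  rw [sl_apply, sl_apply, map_smul, pow_succ, Module.End.mul_apply, Dv_X_smul]

theorem sl_add_X_pow (l k : ℕ) (n : N₁) : sl σ π (l + k) ((X ^ k : A[X]) • n) = sl σ π l n := by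
  induction k with
  | zero => simp
  | succ k ih => rw [pow_succ', mul_smul, ← add_assoc, sl_succ_X, ih]

theorem exists_s₁ (t : N₁₂ ≃ₗ[A] N₁₂) (ρ₁ : N₁ →ₗ[A] N₁₂)
    (h₁ : ∀ n, ρ₁ ((X : A[X]) • n) = t (ρ₁ n))
    (surj₁ : ∀ n : N₁₂, ∃ (m : ℕ) (n₁ : N₁), ρ₁ n₁ = (t ^ (m : ℤ)) n)
    (inj₁ : Function.Injective ρ₁) :
    ∃ s₁ : N₁₂ →ₗ[A] N₁, ∀ (l : ℕ) (n₁ : N₁) (n : N₁₂), ρ₁ n₁ = (t ^ (l : ℤ)) n →
      s₁ n = sl σ π l n₁ := by
  choose L g hg using surj₁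
  have key : ∀ (l : ℕ) (n₁ : N₁) (n : N₁₂), ρ₁ n₁ = (t ^ (l : ℤ)) n →
      sl σ π (L n) (g n) = sl σ π l n₁ := by
    intro l n₁ n h
    have e : (X ^ l : A[X]) • g n = (X ^ (L n) : A[X]) • n₁ := by
      apply inj₁
      rw [map_X_pow_smul t ρ₁ h₁, map_X_pow_smul t ρ₁ h₁, hg, h, zpow_zpow_apply, zpow_zpow_apply,
        add_comm]
    rw [← sl_add_X_pow σ π (L n) l, e, add_comm, sl_add_X_pow]
  refine ⟨{ toFun := fun n => sl σ π (L n) (g n), map_add' := ?_, map_smul' := ?_ }, key⟩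
  · intro n n'
    rw [key (L n + L n') ((X ^ (L n') : A[X]) • g n + (X ^ (L n) : A[X]) • g n') (n + n'), map_add,
      sl_add_X_pow, add_comm (L n) (L n'), sl_add_X_pow]
    rw [map_add, map_add, map_X_pow_smul t ρ₁ h₁, map_X_pow_smul t ρ₁ h₁, hg, hg, zpow_zpow_apply,
      zpow_zpow_apply]
    push_cast
    rw [add_comm (L n' : ℤ) (L n : ℤ)]
  · intro a n
    rw [key (L n) (a • g n) (a • n), map_smul]
    · rfl
    · rw [map_smul, map_smul, hg]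

/-- property (b): `s₁` kills `t^{-m} N₂` for `m ≫ 0`. -/
theorem exists_kill [Module.Finite A[X] N₂] (t : N₁₂ ≃ₗ[A] N₁₂) (ρ₁ : N₁ →ₗ[A] N₁₂)
    (ρ₂ : N₂ →ₗ[A] N₁₂)
    (h₂ : ∀ n, ρ₂ ((X : A[X]) • n) = (t ^ (-1 : ℤ)) (ρ₂ n))
    (surj₁ : ∀ n : N₁₂, ∃ (m : ℕ) (n₁ : N₁), ρ₁ n₁ = (t ^ (m : ℤ)) n)
    (s₁ : N₁₂ →ₗ[A] N₁)
    (hs : ∀ (l : ℕ) (n₁ : N₁) (n : N₁₂), ρ₁ n₁ = (t ^ (l : ℤ)) n → s₁ n = sl σ π l n₁) :
    ∃ m : ℕ, ∀ n₂, s₁ ((t ^ (-(m : ℤ))) (ρ₂ n₂)) = 0 := by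
  obtain ⟨G, hG⟩ := Module.Finite.fg_top (R := A[X]) (M := N₂)
  have each : ∀ f : N₂, ∃ m₀ : ℕ, ∀ m ≥ m₀, s₁ ((t ^ (-(m : ℤ))) (ρ₂ f)) = 0 := by
    intro f
    obtain ⟨l, g, hg⟩ := surj₁ (ρ₂ f)
    refine ⟨Finset.univ.sup (fun i => (σ g i).natDegree) + 1, fun m hm => ?_⟩
    rw [hs (m + l) g _ (by
      rw [zpow_zpow_apply, hg]
      congr 2
      push_cast
      ring), sl_apply, Dv_pow_eq_zero, map_zero]
    intro i
    have : (σ g i).natDegree ≤ Finset.univ.sup (fun i => (σ g i).natDegree) :=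
      Finset.le_sup (f := fun i => (σ g i).natDegree) (Finset.mem_univ i)
    omega
  choose M0 hM0 using each
  let S : Submodule A N₂ :=
    { carrier := {n₂ | ∀ m ≥ G.sup M0, s₁ ((t ^ (-(m : ℤ))) (ρ₂ n₂)) = 0}
      add_mem' := fun {a b} ha hb m hm => by
        rw [map_add, map_add, map_add, ha m hm, hb m hm, add_zero]
      zero_mem' := fun m _ => by simp
      smul_mem' := fun c a ha m hm => by
        rw [map_smul, map_smul, map_smul, ha m hm, smul_zero] }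
  refine ⟨G.sup M0, fun n₂ => ?_⟩
  refine mem_of_gens S ?_ (G : Set N₂) hG ?_ n₂ (G.sup M0) le_rfl
  · intro n hn m hm
    rw [h₂, zpow_zpow_apply]
    have := hn (m + 1) (by omega)
    push_cast at this
    rwa [neg_add] at this
  · intro f hf m hm
    exact hM0 f m (le_trans (Finset.le_sup (f := M0) hf) hm)

/-- property (c): `n - ρ₁ (s₁ n) ∈ t^{m'} N₂`. -/
theorem exists_bound (hπσ : ∀ n, π (σ n) = n) (t : N₁₂ ≃ₗ[A] N₁₂) (ρ₁ : N₁ →ₗ[A] N₁₂)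
    (ρ₂ : N₂ →ₗ[A] N₁₂)
    (h₁ : ∀ n, ρ₁ ((X : A[X]) • n) = t (ρ₁ n))
    (h₂ : ∀ n, ρ₂ ((X : A[X]) • n) = (t ^ (-1 : ℤ)) (ρ₂ n))
    (surj₁ : ∀ n : N₁₂, ∃ (m : ℕ) (n₁ : N₁), ρ₁ n₁ = (t ^ (m : ℤ)) n)
    (surj₂ : ∀ n : N₁₂, ∃ (m : ℕ) (n₂ : N₂), ρ₂ n₂ = (t ^ (-(m : ℤ))) n)
    (s₁ : N₁₂ →ₗ[A] N₁)
    (hs : ∀ (l : ℕ) (n₁ : N₁) (n : N₁₂), ρ₁ n₁ = (t ^ (l : ℤ)) n → s₁ n = sl σ π l n₁) :
    ∃ m' : ℕ, ∀ n, ∃ n₂, ρ₂ n₂ = (t ^ (-(m' : ℤ))) (n - ρ₁ (s₁ n)) := by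
  have hpow₂ : ∀ (k : ℕ) (n : N₂), ρ₂ ((X ^ k : A[X]) • n) = (t ^ (-(k : ℤ))) (ρ₂ n) := by
    intro k n
    have := map_X_pow_smul t⁻¹ ρ₂ (fun n => by rw [h₂, zpow_neg, zpow_one]) k n
    rwa [inv_zpow'] at this
  choose d c hc using fun i : Fin r => surj₂ (ρ₁ (π (Pi.single i 1)))
  set m' := Finset.univ.sup d with hm'
  let T : Submodule A N₁₂ :=
    Submodule.comap ((t ^ (-(m' : ℤ))).toLinearMap) (LinearMap.range ρ₂)
  have memT : ∀ n, n ∈ T ↔ ∃ n₂, ρ₂ n₂ = (t ^ (-(m' : ℤ))) n := fun n => Iff.rfl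
  have stab : ∀ n ∈ T, (t ^ (-1 : ℤ)) n ∈ T := by
    intro n hn
    obtain ⟨n₂, h⟩ := (memT n).1 hn
    refine (memT _).2 ⟨(X : A[X]) • n₂, ?_⟩
    rw [h₂, h, zpow_zpow_apply, zpow_zpow_apply, add_comm]
  have he : ∀ i, ρ₁ (π (Pi.single i 1)) ∈ T := by
    intro i
    refine (memT _).2 ⟨(X ^ (m' - d i) : A[X]) • c i, ?_⟩
    have hle : d i ≤ m' := Finset.le_sup (f := d) (Finset.mem_univ i)
    rw [hpow₂, hc, zpow_zpow_apply]
    congr 2
    push_cast [Nat.cast_sub hle]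
    ring
  have hconst : ∀ a : Fin r → A, (t ^ (-1 : ℤ)) (ρ₁ (π (fun i => C (a i)))) ∈ T := by
    intro a
    refine stab _ ?_
    rw [LinearMap.pi_apply_eq_sum_univ π, map_sum]
    refine Submodule.sum_mem _ fun i _ => ?_
    rw [C_smul', map_smul]
    refine T.smul_mem _ ?_
    convert he i using 3
    ext j
    simp [Pi.single_apply, eq_comm]
  have aux : ∀ (l : ℕ) (w : Fin r → A[X]),
      (t ^ (-(l : ℤ))) (ρ₁ (π (w - (X ^ l : A[X]) • ((Dv r) ^ l) w))) ∈ T := by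
    intro l
    induction l with
    | zero => intro w; simp
    | succ l ih =>
      intro w
      have e : w - (X ^ (l + 1) : A[X]) • ((Dv r) ^ (l + 1)) w
          = (w - (X ^ l : A[X]) • ((Dv r) ^ l) w)
            + (X ^ l : A[X]) • (fun i => C (((((Dv r) ^ l) w) i).coeff 0)) := by
        rw [← sub_X_smul_Dv, pow_succ' (Dv r), Module.End.mul_apply, smul_sub, smul_smul,
          ← pow_succ]
        abel
      rw [e, map_add, map_add, map_add, map_smul, map_X_pow_smul t ρ₁ h₁, zpow_zpow_apply]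
      have e1 : (-((l + 1 : ℕ) : ℤ)) = -1 + -(l : ℤ) := by push_cast; ring
      have e2 : (-((l + 1 : ℕ) : ℤ)) + (l : ℤ) = -1 := by push_cast; ring
      rw [e2, e1, ← zpow_zpow_apply]
      exact T.add_mem (stab _ (ih w)) (hconst _)
  refine ⟨m', fun n => ?_⟩
  obtain ⟨l, n₁, hn₁⟩ := surj₁ n
  have h := aux l (σ n₁)
  rw [map_sub, hπσ, map_smul, ← sl_apply, ← hs l n₁ n hn₁, map_sub, map_X_pow_smul t ρ₁ h₁, hn₁,
    ← map_sub, zpow_zpow_apply, neg_add_cancel, zpow_zero] at h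
  exact (memT _).1 h

/-- the finite model, from a retraction `s₁` with the properties (a), (b), (c). -/
theorem finiteModel_of_retraction [Module.Finite A[X] N₂] [Module.Projective A[X] N₂]
    (t : N₁₂ ≃ₗ[A] N₁₂) (ρ₁ : N₁ →ₗ[A] N₁₂) (ρ₂ : N₂ →ₗ[A] N₁₂)
    (hpow₂ : ∀ (k : ℕ) (n : N₂), ρ₂ ((X ^ k : A[X]) • n) = (t ^ (-(k : ℤ))) (ρ₂ n))
    (inj₂ : Function.Injective ρ₂) (s₁ : N₁₂ →ₗ[A] N₁) (m m' : ℕ)
    (ha : ∀ n₁, s₁ (ρ₁ n₁) = n₁) (hb : ∀ n₂, s₁ ((t ^ (-(m : ℤ))) (ρ₂ n₂)) = 0)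
    (hc : ∀ n, ∃ n₂, ρ₂ n₂ = (t ^ (-(m' : ℤ))) (n - ρ₁ (s₁ n))) :
    Nonempty (FiniteModel (ρ₁.coprod (-ρ₂))) := by
  let Den : Submodule A N₁₂ :=
    LinearMap.range ρ₁ ⊔ LinearMap.range ((t ^ (-(m : ℤ))).toLinearMap ∘ₗ ρ₂)
  have hDen₁ : ∀ n₁, ρ₁ n₁ ∈ Den := fun n₁ => Submodule.mem_sup_left ⟨n₁, rfl⟩
  have hDen₂ : ∀ n₂, (t ^ (-(m : ℤ))) (ρ₂ n₂) ∈ Den := fun n₂ => Submodule.mem_sup_right ⟨n₂, rfl⟩
  -- the differential
  have hd : LinearMap.range (xmul A N₂ m) ≤ LinearMap.ker (-(Den.mkQ ∘ₗ ρ₂)) := by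
    rintro _ ⟨n, rfl⟩
    rw [LinearMap.mem_ker, LinearMap.neg_apply, LinearMap.comp_apply, xmul_apply, hpow₂,
      Submodule.mkQ_apply, (Submodule.Quotient.mk_eq_zero _).2 (hDen₂ n), neg_zero]
  -- `P1` is a retract of `N₂ / X ^ (m + m') N₂`
  have hψ : LinearMap.range (xmul A N₂ (m + m')) ≤
      LinearMap.ker (Den.mkQ ∘ₗ (t ^ (m' : ℤ)).toLinearMap ∘ₗ ρ₂) := by
    rintro _ ⟨n, rfl⟩
    rw [LinearMap.mem_ker, LinearMap.comp_apply, LinearMap.comp_apply, xmul_apply, hpow₂,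
      LinearEquiv.coe_coe, zpow_zpow_apply, Submodule.mkQ_apply, Submodule.Quotient.mk_eq_zero]
    convert hDen₂ n using 3
    push_cast
    ring
  let ψ := (LinearMap.range (xmul A N₂ (m + m'))).liftQ _ hψ
  let κ : N₁₂ →ₗ[A] N₁₂ := (t ^ (-(m' : ℤ))).toLinearMap ∘ₗ (LinearMap.id - ρ₁ ∘ₗ s₁)
  have hκ : ∀ n, κ n ∈ LinearMap.range ρ₂ := fun n => hc n
  let e₂ := LinearEquiv.ofInjective ρ₂ inj₂
  let c : N₁₂ →ₗ[A] N₂ := e₂.symm.toLinearMap ∘ₗ κ.codRestrict (LinearMap.range ρ₂) hκ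
  have hcρ : ∀ n, ρ₂ (c n) = (t ^ (-(m' : ℤ))) (n - ρ₁ (s₁ n)) := by
    intro n
    have h1 : (e₂ (c n) : N₁₂) = ρ₂ (c n) := LinearEquiv.ofInjective_apply ρ₂ (c n)
    rw [← h1]
    simp only [c, LinearMap.comp_apply, LinearEquiv.coe_coe, LinearEquiv.apply_symm_apply,
      LinearMap.codRestrict_apply]
    rfl
  have hθ : Den ≤ LinearMap.ker ((LinearMap.range (xmul A N₂ (m + m'))).mkQ ∘ₗ c) := by
    refine sup_le ?_ ?_
    · rintro _ ⟨n₁, rfl⟩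
      have : c (ρ₁ n₁) = 0 := by
        apply inj₂
        rw [hcρ, ha, sub_self, map_zero, map_zero]
      rw [LinearMap.mem_ker, LinearMap.comp_apply, this, map_zero]
    · rintro _ ⟨n₂, rfl⟩
      have : c ((t ^ (-(m : ℤ))) (ρ₂ n₂)) = (X ^ (m + m') : A[X]) • n₂ := by
        apply inj₂
        rw [hcρ, hb, map_zero, sub_zero, zpow_zpow_apply, hpow₂]
        congr 2
        push_cast
        ring
      have h' : ((LinearMap.range (xmul A N₂ (m + m'))).mkQ ∘ₗ c)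
          (((t ^ (-(m : ℤ))).toLinearMap ∘ₗ ρ₂) n₂)
          = (LinearMap.range (xmul A N₂ (m + m'))).mkQ (c ((t ^ (-(m : ℤ))) (ρ₂ n₂))) := rfl
      rw [LinearMap.mem_ker, h', this, Submodule.mkQ_apply, Submodule.Quotient.mk_eq_zero]
      exact ⟨n₂, rfl⟩
  let θ := Den.liftQ _ hθ
  have hψθ : ψ ∘ₗ θ = LinearMap.id := by
    apply Submodule.linearMap_qext
    ext n
    simp only [LinearMap.comp_apply, Submodule.mkQ_apply, LinearMap.id_apply, ψ, θ,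
      Submodule.liftQ_apply, LinearEquiv.coe_coe]
    rw [hcρ, zpow_zpow_apply, add_neg_cancel, zpow_zero, Submodule.Quotient.eq]
    have : (1 : N₁₂ ≃ₗ[A] N₁₂) (n - ρ₁ (s₁ n)) - n = -ρ₁ (s₁ n) := by
      show (n - ρ₁ (s₁ n)) - n = -ρ₁ (s₁ n)
      abel
    rw [this]
    exact Den.neg_mem (hDen₁ _)
  have hψsurj : Function.Surjective ψ := fun x => ⟨θ x, LinearMap.congr_fun hψθ x⟩
  obtain ⟨f0, p0⟩ := quot_finite_projective (A := A) (N := N₂) m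
  obtain ⟨fR, pR⟩ := quot_finite_projective (A := A) (N := N₂) (m + m')
  refine ⟨{
    P0 := N₂ ⧸ LinearMap.range (xmul A N₂ m)
    P1 := N₁₂ ⧸ Den
    fin0 := f0
    fin1 := Module.Finite.of_surjective ψ hψsurj
    proj0 := p0
    proj1 := Module.Projective.of_split θ ψ hψθ
    d := (LinearMap.range (xmul A N₂ m)).liftQ _ hd
    a := (LinearMap.range (xmul A N₂ m)).mkQ ∘ₗ LinearMap.snd A N₁ N₂
    b := Den.mkQ
    comm := ?_
    a_surj := ?_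
    b_surj := Submodule.mkQ_surjective _
    ker_inj := ?_
    ker_surj := ?_ }⟩
  · rintro ⟨n₁, n₂⟩
    simp only [LinearMap.coprod_apply, LinearMap.neg_apply, LinearMap.comp_apply,
      LinearMap.snd_apply, Submodule.mkQ_apply, Submodule.liftQ_apply, map_add, map_neg]
    rw [(Submodule.Quotient.mk_eq_zero _).2 (hDen₁ n₁), zero_add]
  · exact (Submodule.mkQ_surjective _).comp LinearMap.snd_surjective
  · rintro ⟨n₁, n₂⟩ h1 h2
    simp only [LinearMap.comp_apply, LinearMap.snd_apply, Submodule.mkQ_apply,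
      Submodule.Quotient.mk_eq_zero] at h1
    obtain ⟨n₂', rfl⟩ := h1
    simp only [LinearMap.coprod_apply, LinearMap.neg_apply, xmul_apply, hpow₂] at h2
    have h3 : ρ₁ n₁ = (t ^ (-(m : ℤ))) (ρ₂ n₂') := by
      rw [← sub_eq_zero, sub_eq_add_neg]; exact h2
    have h4 : n₁ = 0 := by rw [← ha n₁, h3, hb]
    have h5 : xmul A N₂ m n₂' = 0 := by
      apply inj₂
      rw [xmul_apply, hpow₂, ← h3, h4, map_zero, map_zero]
    rw [h4, h5]
    rfl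
  · intro w hw
    rw [Submodule.mkQ_apply, Submodule.Quotient.mk_eq_zero] at hw
    obtain ⟨_, ⟨n₁, rfl⟩, _, ⟨n₂, rfl⟩, rfl⟩ := Submodule.mem_sup.1 hw
    refine ⟨(n₁, -((X ^ m : A[X]) • n₂)), ?_, ?_⟩
    · simp only [LinearMap.comp_apply, LinearMap.snd_apply, Submodule.mkQ_apply,
        Submodule.Quotient.mk_eq_zero]
      exact Submodule.neg_mem _ ⟨n₂, rfl⟩
    · simp only [LinearMap.coprod_apply, LinearMap.neg_apply, map_neg, neg_neg, hpow₂,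
        LinearMap.comp_apply, LinearEquiv.coe_coe]

end Lattice

end Fermat.Agent.S25.P1Lattice

namespace Fermat.Agent.S25

open P1Lattice in
/-- **The `P¹`-lattice theorem.** -/
theorem exists_finiteModel_of_lattice {A : Type u} [CommRing A]
    {N₁ N₂ N₁₂ : Type u} [AddCommGroup N₁] [AddCommGroup N₂] [AddCommGroup N₁₂]
    [Module A N₁] [Module A N₂] [Module A N₁₂]
    [Module A[X] N₁] [Module A[X] N₂] [IsScalarTower A A[X] N₁] [IsScalarTower A A[X] N₂]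
    [Module.Finite A[X] N₁] [Module.Projective A[X] N₁]
    [Module.Finite A[X] N₂] [Module.Projective A[X] N₂]
    (t : N₁₂ ≃ₗ[A] N₁₂) (ρ₁ : N₁ →ₗ[A] N₁₂) (ρ₂ : N₂ →ₗ[A] N₁₂)
    (h₁ : ∀ n, ρ₁ ((Polynomial.X : A[X]) • n) = t (ρ₁ n))
    (h₂ : ∀ n, ρ₂ ((Polynomial.X : A[X]) • n) = t.symm (ρ₂ n))
    (surj₁ : ∀ n : N₁₂, ∃ (m : ℕ) (n₁ : N₁), ρ₁ n₁ = (t ^ m) n)
    (surj₂ : ∀ n : N₁₂, ∃ (m : ℕ) (n₂ : N₂), ρ₂ n₂ = (t.symm ^ m) n)
    (inj₁ : Function.Injective ρ₁) (inj₂ : Function.Injective ρ₂) :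
    Nonempty (FiniteModel (ρ₁.coprod (-ρ₂))) := by
  have hsymm : t.symm = t⁻¹ := rfl
  have h₂' : ∀ n, ρ₂ ((X : A[X]) • n) = (t ^ (-1 : ℤ)) (ρ₂ n) := fun n => by
    rw [h₂, zpow_neg, zpow_one, hsymm]
  have surj₁' : ∀ n : N₁₂, ∃ (m : ℕ) (n₁ : N₁), ρ₁ n₁ = (t ^ (m : ℤ)) n := fun n => by
    obtain ⟨m, n₁, h⟩ := surj₁ n
    exact ⟨m, n₁, by rw [h, zpow_natCast]⟩
  have surj₂' : ∀ n : N₁₂, ∃ (m : ℕ) (n₂ : N₂), ρ₂ n₂ = (t ^ (-(m : ℤ))) n := fun n => by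
    obtain ⟨m, n₂, h⟩ := surj₂ n
    exact ⟨m, n₂, by rw [h, zpow_neg, zpow_natCast, hsymm, inv_pow]⟩
  have hpow₂ : ∀ (k : ℕ) (n : N₂), ρ₂ ((X ^ k : A[X]) • n) = (t ^ (-(k : ℤ))) (ρ₂ n) := by
    intro k n
    have := map_X_pow_smul t⁻¹ ρ₂ (fun n => by rw [h₂, hsymm]) k n
    rwa [inv_zpow'] at this
  obtain ⟨r, π, hπ⟩ := Module.Finite.exists_fin' A[X] N₁
  obtain ⟨σ, hσ⟩ := Module.projective_lifting_property π LinearMap.id hπ
  have hπσ : ∀ n, π (σ n) = n := fun n => LinearMap.congr_fun hσ n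
  obtain ⟨s₁, hs⟩ := exists_s₁ σ π t ρ₁ h₁ surj₁' inj₁
  obtain ⟨m, hb⟩ := exists_kill σ π t ρ₁ ρ₂ h₂' surj₁' s₁ hs
  obtain ⟨m', hc⟩ := exists_bound σ π hπσ t ρ₁ ρ₂ h₁ h₂' surj₁' surj₂' s₁ hs
  have ha : ∀ n₁, s₁ (ρ₁ n₁) = n₁ := fun n₁ => by
    rw [hs 0 n₁ (ρ₁ n₁) (by simp), sl_apply]
    simp [hπσ]
  exact finiteModel_of_retraction t ρ₁ ρ₂ hpow₂ inj₂ s₁ m m' ha hb hc

end Fermat.Agent.S25
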