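/-
S25 / block L3: an invertible triple has a finite model.   Owner: helper69.
-/
import Fermat.Agent.S25.FiniteModel
import Fermat.Agent.S25.Core

set_option autoImplicit false

universe u

open scoped TensorProduct Polynomial

namespace Fermat.Agent.S25

namespace TripleFinite

/-! ### Transitivity of projectivity -/

theorem projective_trans (P R N : Type*) [CommRing P] [CommRing R] [Algebra P R]
    [AddCommGroup N] [Module P N] [Module R N] [IsScalarTower P R N]
    [Module.Free P R] [Module.Projective R N] : Module.Projective P N := by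
  obtain ⟨s, hs⟩ := (Module.projective_def' (R := R) (P := N)).mp inferInstance
  refine Module.Projective.of_split (R := P) (M := N →₀ R) (s.restrictScalars P)
    ((Finsupp.linearCombination R id).restrictScalars P) ?_
  ext n
  exact congrArg (fun f : N →ₗ[R] N => f n) hs

/-- `X` acts injectively on a projective `A[X]`-module. -/
theorem X_smul_injective {A N : Type*} [CommRing A] [AddCommGroup N] [Module A[X] N]
    [Module.Projective A[X] N] (n : N) (h : (Polynomial.X : A[X]) • n = 0) : n = 0 := by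
  obtain ⟨s, hs⟩ := (Module.projective_def' (R := A[X]) (P := N)).mp inferInstance
  have h1 : s n = 0 := by
    have h2 : (Polynomial.X : A[X]) • s n = 0 := by rw [← map_smul, h, map_zero]
    refine Finsupp.ext (fun i => ?_)
    have h3 := congrArg (fun f : N →₀ A[X] => f i) h2
    simp only [Finsupp.smul_apply, smul_eq_mul, Finsupp.coe_zero, Pi.zero_apply] at h3
    simpa using h3
  have := congrArg (fun f : N →ₗ[A[X]] N => f n) hs
  simp only [LinearMap.comp_apply, h1, map_zero, LinearMap.id_apply] at this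
  exact this.symm


/-! ### `A ⊗ B` is finite free over `A[X]` -/

section Free

variable {k : Type u} [Field k] {B : Type u} [CommRing B] [IsDomain B] [Algebra k B] (x : B)
  (A : Type u) [CommRing A] [Algebra k A]

/-- `A[X] → A ⊗ B`, `X ↦ 1 ⊗ x`. -/
noncomputable def polyTo : A[X] →ₐ[A] A ⊗[k] B := Polynomial.aeval ((1 : A) ⊗ₜ[k] x)

omit [IsDomain B] in
@[simp] lemma polyTo_X : polyTo x A Polynomial.X = (1 : A) ⊗ₜ[k] x := by simp [polyTo]

variable {x}

theorem exists_equiv (hx : Transcendental k x)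
    (hfin : (Polynomial.aeval (R := k) x).toRingHom.Finite) :
    ∃ (n : ℕ) (E : A ⊗[k] B ≃ₗ[A] (Fin n → A[X])),
      ∀ (f : A[X]) (r : A ⊗[k] B), E (polyTo x A f * r) = f • E r := by
  let _ : Algebra k[X] B := (Polynomial.aeval (R := k) x).toRingHom.toAlgebra
  have halg : ∀ f : k[X], algebraMap k[X] B f = Polynomial.aeval x f := fun f => rfl
  have : IsScalarTower k k[X] B := IsScalarTower.of_algebraMap_eq (fun c => by
    rw [halg]; simp)
  have : Module.Finite k[X] B := hfin
  have : Module.IsTorsionFree k[X] B := by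
    rw [Module.isTorsionFree_iff_algebraMap_injective]
    exact (transcendental_iff_injective).mp hx
  obtain ⟨n, b⟩ : Σ n : ℕ, Module.Basis (Fin n) k[X] B := Module.basisOfFiniteTypeTorsionFree'
  let e : B ≃ₗ[k[X]] (Fin n → k[X]) := b.equivFun
  let E1 : A ⊗[k] B ≃ₗ[A] A ⊗[k] (Fin n → k[X]) :=
    TensorProduct.AlgebraTensorModule.congr (LinearEquiv.refl A A) (e.restrictScalars k)
  let E2 : A ⊗[k] (Fin n → k[X]) ≃ₗ[A] (Fin n → A ⊗[k] k[X]) :=
    TensorProduct.piRight k A A (fun _ : Fin n => k[X])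
  let E3 : (Fin n → A ⊗[k] k[X]) ≃ₗ[A] (Fin n → A[X]) :=
    LinearEquiv.piCongrRight (fun _ => (polyEquivTensor' k A).symm.toLinearEquiv)
  let E : A ⊗[k] B ≃ₗ[A] (Fin n → A[X]) := E1.trans (E2.trans E3)
  have hE : ∀ (a : A) (c : B) (i : Fin n),
      E (a ⊗ₜ c) i = a • (e c i).map (algebraMap k A) := by
    intro a c i
    simp [E, E1, E2, E3]
  have hX : ∀ r : A ⊗[k] B, E (((1 : A) ⊗ₜ[k] x) * r) = (Polynomial.X : A[X]) • E r := by
    intro r
    induction r using TensorProduct.induction_on with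
    | zero => simp
    | tmul a c =>
      funext i
      rw [Algebra.TensorProduct.tmul_mul_tmul, hE, Pi.smul_apply, hE, one_mul]
      have : e (x * c) = (Polynomial.X : k[X]) • e c := by
        rw [← map_smul]
        congr 1
        rw [Algebra.smul_def, halg]
        simp
      rw [this]
      simp only [Pi.smul_apply, smul_eq_mul, Polynomial.map_mul, Polynomial.map_X]
      rw [mul_smul_comm]
    | add r s hr hs => rw [mul_add, map_add, hr, hs, map_add, smul_add]
  refine ⟨n, E, fun f r => ?_⟩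
  induction f using Polynomial.induction_on' generalizing r with
  | add p q hp hq => rw [map_add, add_mul, map_add, hp, hq, add_smul]
  | monomial m a =>
    induction m generalizing r with
    | zero =>
      have : polyTo x A (Polynomial.monomial 0 a) = algebraMap A (A ⊗[k] B) a := by
        simp [polyTo, Polynomial.monomial_zero_left]
      rw [this, ← Algebra.smul_def, map_smul, Polynomial.monomial_zero_left]
      funext i
      simp [Polynomial.smul_eq_C_mul]
    | succ m ih =>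
      have h1 : (Polynomial.monomial (m + 1) a : A[X]) = Polynomial.X * Polynomial.monomial m a := by
        rw [Polynomial.X_mul_monomial]
      rw [h1, map_mul (polyTo x A), polyTo_X, mul_assoc, hX, ih, mul_smul]


theorem finite_projective (hx : Transcendental k x)
    (hfin : (Polynomial.aeval (R := k) x).toRingHom.Finite)
    (N : Type u) [AddCommGroup N] [Module (A ⊗[k] B) N]
    [Module.Finite (A ⊗[k] B) N] [Module.Projective (A ⊗[k] B) N] [Module A[X] N]
    (hsmul : ∀ (f : A[X]) (n : N), f • n = (polyTo (k := k) x A f) • n) :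
    Module.Finite A[X] N ∧ Module.Projective A[X] N := by
  obtain ⟨n, E, hE⟩ := exists_equiv A hx hfin
  let _ : Algebra A[X] (A ⊗[k] B) := (polyTo x A).toRingHom.toAlgebra
  have halg : ∀ (f : A[X]) (r : A ⊗[k] B), f • r = polyTo x A f * r := fun f r => rfl
  have : IsScalarTower A[X] (A ⊗[k] B) N := ⟨fun f r n => by
    rw [hsmul, halg, mul_smul]⟩
  let E' : (A ⊗[k] B) ≃ₗ[A[X]] (Fin n → A[X]) :=
    { E with
      map_smul' := fun f r => by
        simpa [halg] using hE f r }
  have : Module.Free A[X] (A ⊗[k] B) := Module.Free.of_equiv E'.symm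
  have : Module.Finite A[X] (A ⊗[k] B) := Module.Finite.equiv E'.symm
  exact ⟨Module.Finite.trans (A ⊗[k] B) N, projective_trans A[X] (A ⊗[k] B) N⟩

end Free

/-- `y = 1/x` is transcendental. -/
theorem transcendental_y {k : Type u} [Field k] (𝔠 : CurveCharts k) : Transcendental k 𝔠.y := by
  intro halg
  obtain ⟨p, hp0, hp⟩ := halg
  apply 𝔠.trans₁
  refine ⟨p.reverse, by simpa using hp0, ?_⟩
  have hx0 : 𝔠.x ≠ 0 := by
    intro h
    apply 𝔠.trans₁
    rw [h]
    exact isAlgebraic_zero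
  have hinj : Function.Injective (algebraMap 𝔠.B₁ 𝔠.B₁₂) := by
    have := 𝔠.away₁
    exact IsLocalization.injective 𝔠.B₁₂ (powers_le_nonZeroDivisors_of_noZeroDivisors hx0)
  apply hinj
  rw [map_zero, ← Polynomial.aeval_algebraMap_apply]
  let _ : Invertible (algebraMap 𝔠.B₂ 𝔠.B₁₂ 𝔠.y) :=
    ⟨algebraMap 𝔠.B₁ 𝔠.B₁₂ 𝔠.x, 𝔠.xy, by rw [mul_comm]; exact 𝔠.xy⟩
  have h1 : Polynomial.eval₂ (algebraMap k 𝔠.B₁₂) (algebraMap 𝔠.B₂ 𝔠.B₁₂ 𝔠.y) p = 0 := by
    have := congrArg (algebraMap 𝔠.B₂ 𝔠.B₁₂) hp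
    rwa [map_zero, ← Polynomial.aeval_algebraMap_apply] at this
  exact (Polynomial.eval₂_reverse_eq_zero_iff (algebraMap k 𝔠.B₁₂)
    (algebraMap 𝔠.B₂ 𝔠.B₁₂ 𝔠.y) p).mpr h1


end TripleFinite

/-- The statement of the `P¹`-lattice theorem (block L2, `exists_finiteModel_of_lattice`), as a
proposition, so that this file does not depend on its proof. -/
def LatticeStatement : Prop :=
  ∀ {A : Type u} [CommRing A]
    {N₁ N₂ N₁₂ : Type u} [AddCommGroup N₁] [AddCommGroup N₂] [AddCommGroup N₁₂]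
    [Module A N₁] [Module A N₂] [Module A N₁₂]
    [Module A[X] N₁] [Module A[X] N₂] [IsScalarTower A A[X] N₁] [IsScalarTower A A[X] N₂]
    [Module.Finite A[X] N₁] [Module.Projective A[X] N₁]
    [Module.Finite A[X] N₂] [Module.Projective A[X] N₂]
    (t : N₁₂ ≃ₗ[A] N₁₂) (ρ₁ : N₁ →ₗ[A] N₁₂) (ρ₂ : N₂ →ₗ[A] N₁₂)
    (_ : ∀ n, ρ₁ ((Polynomial.X : A[X]) • n) = t (ρ₁ n))
    (_ : ∀ n, ρ₂ ((Polynomial.X : A[X]) • n) = t.symm (ρ₂ n))
    (_ : ∀ n : N₁₂, ∃ (m : ℕ) (n₁ : N₁), ρ₁ n₁ = (t ^ m) n)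
    (_ : ∀ n : N₁₂, ∃ (m : ℕ) (n₂ : N₂), ρ₂ n₂ = (t.symm ^ m) n)
    (_ : Function.Injective ρ₁) (_ : Function.Injective ρ₂),
    Nonempty (FiniteModel (ρ₁.coprod (-ρ₂)))

open TripleFinite in
/-- L3, relative to L2: an invertible triple has a finite model.  Use as
`Triple.exists_finiteModel_of_latticeStatement (fun t ρ₁ ρ₂ => exists_finiteModel_of_lattice t ρ₁ ρ₂)`
(or `@exists_finiteModel_of_lattice`). -/
theorem Triple.exists_finiteModel_of_latticeStatement (L2 : LatticeStatement.{u})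
    {k : Type u} [Field k] {𝔠 : CurveCharts k}
    {A : Type u} [CommRing A] [Algebra k A] (T : Triple 𝔠 A) (hT : T.IsInvertible) :
    Nonempty (FiniteModel T.δ) := by
  let m1 : Module A[X] T.N₁ := Module.compHom T.N₁ (polyTo (k := k) 𝔠.x A).toRingHom
  let m2 : Module A[X] T.N₂ := Module.compHom T.N₂ (polyTo (k := k) 𝔠.y A).toRingHom
  have s1 : ∀ (f : A[X]) (n : T.N₁), f • n = (polyTo (k := k) 𝔠.x A f) • n := fun _ _ => rfl
  have s2 : ∀ (f : A[X]) (n : T.N₂), f • n = (polyTo (k := k) 𝔠.y A f) • n := fun _ _ => rfl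
  have t1 : IsScalarTower A A[X] T.N₁ := ⟨fun a f n => by
    rw [s1, s1, map_smul]
    exact smul_assoc a _ n⟩
  have t2 : IsScalarTower A A[X] T.N₂ := ⟨fun a f n => by
    rw [s2, s2, map_smul]
    exact smul_assoc a _ n⟩
  have := hT.inv₁
  have := hT.inv₂
  obtain ⟨f1, p1⟩ := finite_projective A 𝔠.trans₁ 𝔠.fin₁ T.N₁ s1
  obtain ⟨f2, p2⟩ := finite_projective A (transcendental_y 𝔠) 𝔠.fin₂ T.N₂ s2
  -- the unit `x` of `R₁₂ A`
  have hxy : 𝔠.res₁ A (𝔠.xA A) * 𝔠.res₂ A (𝔠.yA A) = 1 := by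
    simp only [CurveCharts.res₁, CurveCharts.res₂, CurveCharts.xA, CurveCharts.yA,
      Algebra.TensorProduct.map_tmul, Algebra.TensorProduct.tmul_mul_tmul]
    simp only [AlgHom.coe_id, id_eq, mul_one, IsScalarTower.coe_toAlgHom']
    rw [𝔠.xy]
    rfl
  have hyx : 𝔠.res₂ A (𝔠.yA A) * 𝔠.res₁ A (𝔠.xA A) = 1 := by rw [mul_comm]; exact hxy
  let t : T.N₁₂ ≃ₗ[A] T.N₁₂ :=
    { toFun := fun n => 𝔠.res₁ A (𝔠.xA A) • n
      invFun := fun n => 𝔠.res₂ A (𝔠.yA A) • n
      map_add' := fun a b => smul_add _ a b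
      map_smul' := fun a n => by
        simp only [RingHom.id_apply]
        exact smul_comm _ a n
      left_inv := fun n => by
        simp only
        rw [← mul_smul, hyx, one_smul]
      right_inv := fun n => by
        simp only
        rw [← mul_smul, hxy, one_smul] }
  have ht : ∀ n, t n = 𝔠.res₁ A (𝔠.xA A) • n := fun _ => rfl
  have hts : ∀ n, t.symm n = 𝔠.res₂ A (𝔠.yA A) • n := fun _ => rfl
  have htm : ∀ (m : ℕ) (n : T.N₁₂), (t ^ m) n = (𝔠.res₁ A (𝔠.xA A)) ^ m • n := by
    intro m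
    induction m with
    | zero => intro n; simp
    | succ m ih =>
      intro n
      rw [pow_succ, pow_succ, LinearEquiv.mul_apply, ih, ht, ← mul_smul]
  have htsm : ∀ (m : ℕ) (n : T.N₁₂), (t.symm ^ m) n = (𝔠.res₂ A (𝔠.yA A)) ^ m • n := by
    intro m
    induction m with
    | zero => intro n; simp
    | succ m ih =>
      intro n
      rw [pow_succ, pow_succ, LinearEquiv.mul_apply, ih, hts, ← mul_smul]
  have hX1 : ∀ n : T.N₁, (Polynomial.X : A[X]) • n = 𝔠.xA A • n := by
    intro n; rw [s1, polyTo_X]; rfl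
  have hX2 : ∀ n : T.N₂, (Polynomial.X : A[X]) • n = 𝔠.yA A • n := by
    intro n; rw [s2, polyTo_X]; rfl
  have hXm1 : ∀ (m : ℕ) (n : T.N₁), (𝔠.xA A) ^ m • n = 0 → n = 0 := by
    intro m
    induction m with
    | zero => intro n h; simpa using h
    | succ m ih =>
      intro n h
      rw [pow_succ, mul_smul] at h
      exact X_smul_injective n (by rw [hX1]; exact ih _ h)
  have hXm2 : ∀ (m : ℕ) (n : T.N₂), (𝔠.yA A) ^ m • n = 0 → n = 0 := by
    intro m
    induction m with
    | zero => intro n h; simpa using h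
    | succ m ih =>
      intro n h
      rw [pow_succ, mul_smul] at h
      exact X_smul_injective n (by rw [hX2]; exact ih _ h)
  refine L2 t T.ρ₁A T.ρ₂A ?_ ?_ ?_ ?_ ?_ ?_
  · intro n
    rw [hX1, ht]
    exact T.ρ₁.map_smulₛₗ _ n
  · intro n
    rw [hX2, hts]
    exact T.ρ₂.map_smulₛₗ _ n
  · intro n
    obtain ⟨m, n₁, h⟩ := hT.surj₁ n
    exact ⟨m, n₁, by rw [htm]; exact h⟩
  · intro n
    obtain ⟨m, n₂, h⟩ := hT.surj₂ n
    exact ⟨m, n₂, by rw [htsm]; exact h⟩
  · rw [injective_iff_map_eq_zero]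
    intro n h
    obtain ⟨m, hm⟩ := hT.inj₁ n h
    exact hXm1 m n hm
  · rw [injective_iff_map_eq_zero]
    intro n h
    obtain ⟨m, hm⟩ := hT.inj₂ n h
    exact hXm2 m n hm

end Fermat.Agent.S25
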