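/-
S25 / block T1-G: finite models: transport along equivalences, bijectivity after base change.
(The other statements of T1-G, `baseChange`, `injective_iff`, `surjective_iff`, `bijective_iff`,
`kerEquiv`, `cokerEquiv`, are in `FiniteModelLemmas.lean`.)
Owner: helper205.
-/
import Fermat.Agent.S25.FiniteModelLemmas

set_option autoImplicit false

universe u

open scoped TensorProduct

namespace Fermat.Agent.S25

namespace FiniteModel

variable {A : Type u} [CommRing A] {K0 K1 : Type u} [AddCommGroup K0] [Module A K0]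
  [AddCommGroup K1] [Module A K1] {δ : K0 →ₗ[A] K1}

/-- transport along equivalences -/
noncomputable def ofEquiv (F : FiniteModel δ) {L0 L1 : Type u} [AddCommGroup L0] [Module A L0]
    [AddCommGroup L1] [Module A L1] {δ' : L0 →ₗ[A] L1} (e0 : K0 ≃ₗ[A] L0) (e1 : K1 ≃ₗ[A] L1)
    (h : ∀ z, e1 (δ z) = δ' (e0 z)) : FiniteModel δ' where
  P0 := F.P0
  P1 := F.P1
  fin0 := F.fin0
  fin1 := F.fin1
  proj0 := F.proj0
  proj1 := F.proj1
  d := F.d
  a := F.a ∘ₗ e0.symm.toLinearMap
  b := F.b ∘ₗ e1.symm.toLinearMap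
  comm := fun z => by
    have h1 : e1.symm (δ' z) = δ (e0.symm z) := by
      rw [LinearEquiv.symm_apply_eq, h, LinearEquiv.apply_symm_apply]
    show F.b (e1.symm (δ' z)) = F.d (F.a (e0.symm z))
    rw [h1, F.comm]
  a_surj := F.a_surj.comp e0.symm.surjective
  b_surj := F.b_surj.comp e1.symm.surjective
  ker_inj := fun z hz hδ => by
    have h1 : δ (e0.symm z) = 0 := by
      apply e1.injective
      rw [h, LinearEquiv.apply_symm_apply, hδ, map_zero]
    have h2 := F.ker_inj (e0.symm z) hz h1
    exact e0.symm.map_eq_zero_iff.mp h2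
  ker_surj := fun w hw => by
    obtain ⟨z, hz, hδ⟩ := F.ker_surj (e1.symm w) hw
    refine ⟨e0 z, ?_, ?_⟩
    · show F.a (e0.symm (e0 z)) = 0
      rw [LinearEquiv.symm_apply_apply, hz]
    · rw [← h, hδ, LinearEquiv.apply_symm_apply]

section ofEquiv

variable (F : FiniteModel δ) {L0 L1 : Type u} [AddCommGroup L0] [Module A L0]
    [AddCommGroup L1] [Module A L1] {δ' : L0 →ₗ[A] L1} (e0 : K0 ≃ₗ[A] L0) (e1 : K1 ≃ₗ[A] L1)
    (h : ∀ z, e1 (δ z) = δ' (e0 z))

@[simp] theorem ofEquiv_d : (F.ofEquiv e0 e1 h).d = F.d := rfl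

@[simp] theorem ofEquiv_a : (F.ofEquiv e0 e1 h).a = F.a ∘ₗ e0.symm.toLinearMap := rfl

@[simp] theorem ofEquiv_b : (F.ofEquiv e0 e1 h).b = F.b ∘ₗ e1.symm.toLinearMap := rfl

end ofEquiv

@[simp] theorem baseChange_a (F : FiniteModel δ) (A' : Type u) [CommRing A'] [Algebra A A'] :
    (F.baseChange A').a = F.a.baseChange A' := rfl

@[simp] theorem baseChange_b (F : FiniteModel δ) (A' : Type u) [CommRing A'] [Algebra A A'] :
    (F.baseChange A').b = F.b.baseChange A' := rfl

theorem injective_baseChange_iff_d (F : FiniteModel δ) (A' : Type u) [CommRing A'] [Algebra A A'] :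
    Function.Injective (δ.baseChange A') ↔ Function.Injective (F.d.baseChange A') :=
  (F.baseChange A').injective_iff

theorem surjective_baseChange_iff_d (F : FiniteModel δ) (A' : Type u) [CommRing A']
    [Algebra A A'] :
    Function.Surjective (δ.baseChange A') ↔ Function.Surjective (F.d.baseChange A') :=
  (F.baseChange A').surjective_iff

theorem bijective_baseChange_iff_d (F : FiniteModel δ) (A' : Type u) [CommRing A'] [Algebra A A'] :
    Function.Bijective (δ.baseChange A') ↔ Function.Bijective (F.d.baseChange A') :=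
  (F.baseChange A').bijective_iff

end FiniteModel

end Fermat.Agent.S25
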