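/-
S25 / FINAL-ALG: assembly of `AlgSpec 𝔠` from its nodes.   Owner: helper280.
The nodes which are not landed yet (atlas H4, `val_exists` P6, the family P7) are explicit
hypotheses of `exists_algSpec_of_nodes`.
-/
import Fermat.Agent.S25.Triple.BCLemmas
import Fermat.Agent.S25.Alg.Lift
import Fermat.Agent.S25.Alg.ValUnique
import Fermat.Agent.S25.Alg.ChiLocConstFinal

set_option autoImplicit false

universe u

open scoped TensorProduct

namespace Fermat.Agent.S25

open Triple

variable {k : Type u} [Field k]

/-- Statement of node P6 (valuative criterion, existence). -/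
def ValExistsStatement (𝔠 : CurveCharts k) : Prop :=
  ∀ (V K : Type u) [CommRing V] [IsDomain V] [ValuationRing V] [Field K]
    [Algebra k V] [Algebra k K] [Algebra V K] [IsScalarTower k V K] [IsFractionRing V K]
    (TK : Triple 𝔠 K), TK.IsPic0 →
    ∃ T : Triple 𝔠 V, T.IsPic0 ∧ IsBC (IsScalarTower.toAlgHom k V K) T TK

/-- Statement of node P7 (the geometrically integral family). -/
def FamStatement (𝔠 : CurveCharts k) : Prop :=
  ∃ (F : Type u) (_ : CommRing F) (_ : Algebra k F),
    Algebra.FiniteType k F ∧ (∀ (K : Type u) [Field K] [Algebra k K], IsDomain (K ⊗[k] F)) ∧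
    ∃ fam : Triple 𝔠 F, fam.IsPic0 ∧
      ∀ (K : Type u) [Field K] [IsAlgClosed K] [Algebra k K] (T : Triple 𝔠 K), T.IsPic0 →
        ∃ φ : F →ₐ[k] K, IsBC φ fam T

/-- Assembly of the algebraic specification. -/
theorem exists_algSpec_of_nodes [IsAlgClosed k] (𝔠 : CurveCharts k) (hch : Nonempty (AlgCharts 𝔠))
    (hve : ValExistsStatement 𝔠) (hfam : FamStatement 𝔠) : Nonempty (AlgSpec 𝔠) := by
  obtain ⟨ch⟩ := hch
  obtain ⟨F, _, _, hft, hgi, fam, hpic, hsurj⟩ := hfam
  exact ⟨{
    charts := ch
    exists_bc := Triple.exists_bc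
    bc_unique := Triple.bc_unique
    bc_pic0 := Triple.bc_pic0
    lift := Lift.lift 𝔠
    val_unique := ValUnique.val_unique 𝔠
    val_exists := hve
    chi_locConst := Triple.chi_locConst
    famRing := F
    fam_ft := hft
    fam_geomIntegral := hgi
    fam := fam
    fam_pic0 := hpic
    fam_surj := hsurj }⟩

end Fermat.Agent.S25
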