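/-
S25 / FINAL-ALG: `Nonempty (AlgSpec 𝔠)` from the nodes of blocks X, H which are still open.
All the other nodes of the charts skeleton are imported from their final files.  Owner: helper280.
-/
import Fermat.Agent.S25.AlgSpecCore
import Fermat.Agent.S25.Charts.Idiv
import Fermat.Agent.S25.Charts.IdivMul
import Fermat.Agent.S25.Charts.Idiv2
import Fermat.Agent.S25.Charts.Otw
import Fermat.Agent.S25.Charts.FieldBasic
import Fermat.Agent.S25.Charts.ChiTwist
import Fermat.Agent.S25.Charts.ChiTwistDiv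
import Fermat.Agent.S25.Charts.ChiTwistH0
import Fermat.Agent.S25.Charts.Degree
import Fermat.Agent.S25.Charts.NSLocus
import Fermat.Agent.S25.Charts.IdivPic0Final
import Fermat.Agent.S25.Charts.ChartUnique
import Fermat.Agent.S25.Charts.FiniteBases
import Fermat.Agent.S25.Charts.Covering
import Fermat.Agent.S25.Charts.Atlas
import Fermat.Agent.S25.Charts.ValExists
import Fermat.Agent.S25.Charts.Family

set_option autoImplicit false

universe u

open scoped TensorProduct

namespace Fermat.Agent.S25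

open Triple

variable {k : Type u} [Field k] [IsAlgClosed k] {𝔠 : CurveCharts k}

section H

variable {A : Type u} [CommRing A] [Algebra k A]

/-- the NS-locus is open and compatible with base change -/
theorem exists_NS_locus (E : Triple 𝔠 k) (hE : E.IsInvertible) (T : Triple 𝔠 A)
    (hT : T.IsInvertible) : ∃ V : Set (PrimeSpectrum A), IsOpen V ∧
      ∀ (A' : Type u) [CommRing A'] [Algebra k A'] (ψ : A →ₐ[k] A') (T' : Triple 𝔠 A'),
        IsBC ψ T T' → ((∀ p : PrimeSpectrum A', PrimeSpectrum.comap ψ.toRingHom p ∈ V) ↔ NS E T') :=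
  exists_NS_locus_of IP0_isInvertible (fun _ _ _ φ => IP0_bc φ) E hE T hT

end H

/-- The nodes of the charts skeleton which are still open (statements verbatim). -/
structure OpenNodes (𝔠 : CurveCharts k) : Prop where
  chi_ge_of_h0_pos : ∀ {K : Type u} [Field K] [Algebra k K] (T : Triple 𝔠 K), T.IsInvertible →
    0 < T.h0 → (unit 𝔠 K).chi ≤ T.chi
  exists_h1_vanishing : ∃ m₀ : ℤ, ∀ (K : Type u) [Field K] [Algebra k K]
    (T : Triple 𝔠 K), T.IsInvertible → m₀ ≤ T.chi → T.h1 = 0
  exists_points : ∃ (m : ℕ) (E : Triple 𝔠 k),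
    E.IsInvertible ∧ E.IsRigid ∧ E.deg = m ∧
    ∀ (K : Type u) [Field K] [IsAlgClosed K] [Algebra k K] (T : Triple 𝔠 K), T.IsPic0 →
      ∃ σ : Fin m → (𝔠.B₁ →ₐ[k] K),
        Nonempty (Iso T ((tensorList (List.ofFn fun i => Ipt (σ i))).tensor (E.const K)))
  exists_div_of_NS : ∀ {A : Type u} [CommRing A] [Algebra k A] (E : Triple 𝔠 k) (_ : E.IsInvertible)
    (_ : E.IsRigid) (_ : E.deg = 𝔠.genus) (T : Triple 𝔠 A) (_ : T.IsPic0) (_ : NS E T),
    ∃ I : Ideal (𝔠.R₁ A), IsDiv A I 𝔠.genus ∧ Nonempty (Iso T ((Idiv I).tensor (E.const A)))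

namespace OpenNodes

variable (h : OpenNodes 𝔠)

include h

theorem coveringHyp : CoveringHyp 𝔠 where
  Idiv_isInvertible := Idiv_isInvertible
  Idiv_isRigid := Idiv_isRigid
  Idiv_bc := Idiv_bc
  isDiv_mul := IsDiv.mul
  isDiv_graphIdeal₁ := isDiv_graphIdeal₁
  graphIdeal₁_map := graphIdeal₁_map
  isDiv₂_graphIdeal₂ := isDiv₂_graphIdeal₂
  IP0_isInvertible := IP0_isInvertible
  Otw_isInvertible := Otw_isInvertible
  Otw_isRigid := Otw_isRigid
  Otw_bc := Otw_bc
  finite_cohomology := finite_cohomology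
  h0_unit := h0_unit
  h1_unit := h1_unit
  chi_tensor_Idiv := chi_tensor_Idiv
  chi_tensor_Idiv₂ := chi_tensor_Idiv₂
  chi_tensor_Otw := chi_tensor_Otw
  h0_tensor_Idiv_pos_iff := h0_tensor_Idiv_pos_iff
  chi_ge_of_h0_pos := h.chi_ge_of_h0_pos
  deg_ihom := deg_ihom
  exists_h1_vanishing := h.exists_h1_vanishing

/-- COVERING LEMMA -/
theorem exists_twists : ∃ (n : ℕ) (E : Fin n → Triple 𝔠 k),
    (∀ j, (E j).IsInvertible ∧ (E j).IsRigid ∧ (E j).deg = 𝔠.genus) ∧
    ∀ (K : Type u) [Field K] [Algebra k K] (T : Triple 𝔠 K), T.IsPic0 → ∃ j, NS (E j) T :=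
  exists_twists_of h.coveringHyp

theorem atlasInput : Atlas.Input 𝔠 where
  isDiv_map := IsDiv.map
  idiv_bc := Idiv_bc
  twists := h.exists_twists
  ns_locus := exists_NS_locus
  div_exists := h.exists_div_of_NS
  div_unique := div_unique_of_NS
  pic0 := isPic0_Idiv_tensor_const
  bases := exists_finite_bases 𝔠

/-- the atlas -/
theorem exists_algCharts : Nonempty (AlgCharts 𝔠) :=
  Atlas.exists_algCharts_of_input h.atlasInput

theorem valExistsStatement : ValExistsStatement 𝔠 := by
  obtain ⟨ch⟩ := h.exists_algCharts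
  intro V K _ _ _ _ _ _ _ _ _ TK hTK
  exact val_exists_of 𝔠 ch h.exists_points Idiv_isInvertible Idiv_bc isDiv_graphIdeal₁
    graphIdeal₁_map Idiv₂_isInvertible Idiv₂_bc isDiv₂_graphIdeal₂ graphIdeal₂_map Ipt_iso_Ipt₂
    V K TK hTK

theorem familyNodes : Family.Nodes 𝔠 where
  mul := IsDiv.mul
  idiv_mul := Idiv_mul
  graph := isDiv_graphIdeal₁
  graph_map := graphIdeal₁_map
  idiv_bc := Idiv_bc
  pic0 := isPic0_Idiv_tensor_const
  points := h.exists_points

theorem famStatement : FamStatement 𝔠 :=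
  Family.exists_fam_of_nodes 𝔠 h.familyNodes

/-- The algebraic specification, from the open nodes. -/
theorem exists_algSpec : Nonempty (AlgSpec 𝔠) :=
  exists_algSpec_of_nodes 𝔠 h.exists_algCharts h.valExistsStatement h.famStatement

end OpenNodes

end Fermat.Agent.S25
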