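/-
S25 / FINAL-ALG: `Nonempty (AlgSpec 𝔠)` for every system of curve charts.  Owner: helper280.
-/
import Fermat.Agent.S25.AlgSpecNodes
import Fermat.Agent.S25.Charts.Vanishing
import Fermat.Agent.S25.Charts.PointsOfPic
import Fermat.Agent.S25.Charts.ChartExists

set_option autoImplicit false

universe u

namespace Fermat.Agent.S25

variable {k : Type u} [Field k] [IsAlgClosed k]

/-- all the nodes of the charts skeleton are proved -/
theorem openNodes (𝔠 : CurveCharts k) : OpenNodes 𝔠 where
  chi_ge_of_h0_pos := chi_ge_of_h0_pos
  exists_h1_vanishing := exists_h1_vanishing 𝔠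
  exists_points := exists_points 𝔠
  exists_div_of_NS := exists_div_of_NS

/-- The algebraic specification. -/
theorem exists_algSpec (𝔠 : CurveCharts k) : Nonempty (AlgSpec 𝔠) :=
  (openNodes 𝔠).exists_algSpec

end Fermat.Agent.S25
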