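/-
S25: the GEOMETRIC SPECIFICATION.  Owner: helper25.  FROZEN INTERFACE.

* `GeomCharts c ε`  : the curve `C` is cut into two affine charts matching a `CurveCharts k`.
* `Dictionary G`    : invertible sheaves on `C ×ₖ Spec A`  <->  invertible `Triple`s over `A`.
* `PiStar c`, `SepSpec c ε`, `Glue2Spec c ε` : Zariski-descent properties of the Picard functor.
-/
import Fermat.Statements.S25
import Fermat.Agent.S25.AlgSpec

set_option autoImplicit false

universe u

open CategoryTheory CategoryTheory.Limits AlgebraicGeometry AlgebraicGeometry.RelPicard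
  NeronModelInfra GoodReductionJacobian
open scoped TensorProduct

namespace Fermat.Agent.S25

variable {k : Type u} [Field k]

/-- The structure morphism `Spec A ⟶ Spec k` of a `k`-algebra. -/
noncomputable abbrev sp (k : Type u) [Field k] (A : Type u) [CommRing A] [Algebra k A] :
    Spec (CommRingCat.of A) ⟶ Spec (CommRingCat.of k) :=
  Spec.map (CommRingCat.ofHom (algebraMap k A))

/-- The morphism over `Spec k` induced by a `k`-algebra homomorphism. -/
noncomputable def affHom {A A' : Type u} [CommRing A] [Algebra k A] [CommRing A'] [Algebra k A']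
    (φ : A →ₐ[k] A') : SchemeHomOver (sp k A') (sp k A) :=
  ⟨Spec.map (CommRingCat.ofHom φ.toRingHom), by
    rw [← Spec.map_comp, ← CommRingCat.ofHom_comp]
    congr 2
    exact φ.comp_algebraMap⟩

/-- The inclusion of an open subscheme, as a morphism over the base. -/
noncomputable def opensHom {S T : Scheme.{u}} (t : T ⟶ S) (U : T.Opens) : SchemeHomOver (U.ι ≫ t) t :=
  ⟨U.ι, rfl⟩

/-- The inclusion of open subschemes `U ≤ V`, as a morphism over the base. -/
noncomputable def opensLEHom {S T : Scheme.{u}} (t : T ⟶ S) {U V : T.Opens} (h : U ≤ V) :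
    SchemeHomOver (U.ι ≫ t) (V.ι ≫ t) :=
  ⟨T.homOfLE h, by rw [← Category.assoc, Scheme.homOfLE_ι]⟩

variable {C : Scheme.{u}} (c : C ⟶ Spec (CommRingCat.of k))
  (ε : SchemeHomOver (𝟙 (Spec (CommRingCat.of k))) c)

/-- The curve is covered by two affine opens whose coordinate rings realise a `CurveCharts`. -/
structure GeomCharts where
  𝔠 : CurveCharts k
  W₁ : C.Opens
  W₂ : C.Opens
  aff₁ : IsAffineOpen W₁
  aff₂ : IsAffineOpen W₂
  aff₁₂ : IsAffineOpen (W₁ ⊓ W₂)
  cover : W₁ ⊔ W₂ = ⊤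
  i₁ : 𝔠.B₁ ≃+* Γ(C, W₁)
  i₂ : 𝔠.B₂ ≃+* Γ(C, W₂)
  i₁₂ : 𝔠.B₁₂ ≃+* Γ(C, W₁ ⊓ W₂)
  res₁ : ∀ b, i₁₂ (algebraMap 𝔠.B₁ 𝔠.B₁₂ b) = C.presheaf.map (homOfLE inf_le_left).op (i₁ b)
  res₂ : ∀ b, i₁₂ (algebraMap 𝔠.B₂ 𝔠.B₁₂ b) = C.presheaf.map (homOfLE inf_le_right).op (i₂ b)
  str₁ : ∀ a : k, i₁ (algebraMap k 𝔠.B₁ a) =
    c.appLE ⊤ W₁ le_top ((Scheme.ΓSpecIso (CommRingCat.of k)).inv a)
  str₂ : ∀ a : k, i₂ (algebraMap k 𝔠.B₂ a) =
    c.appLE ⊤ W₂ le_top ((Scheme.ΓSpecIso (CommRingCat.of k)).inv a)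
  /-- the marked point lies in `W₂` -/
  pt_mem : ⊤ ≤ ε.1 ⁻¹ᵁ W₂
  /-- and evaluation at it is `e₀` -/
  pt_eval : ∀ b : 𝔠.B₂,
    (Scheme.ΓSpecIso (CommRingCat.of k)).hom (ε.1.appLE W₂ ⊤ pt_mem (i₂ b)) = 𝔠.e₀ b

variable {c ε}

open Triple in
/-- Dictionary between invertible sheaves on `C ×ₖ Spec A` and invertible triples over `A`. -/
structure Dictionary (G : GeomCharts c ε) where
  /-- sections over the three affine opens -/
  sec : ∀ (A : Type u) [CommRing A] [Algebra k A], (pullback c (sp k A)).Modules → Triple G.𝔠 A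
  inv : ∀ (A : Type u) [CommRing A] [Algebra k A] (L : (pullback c (sp k A)).Modules),
    Scheme.Modules.IsInvertible L → (sec A L).IsInvertible
  iso_iff : ∀ (A : Type u) [CommRing A] [Algebra k A] (L L' : (pullback c (sp k A)).Modules),
    Scheme.Modules.IsInvertible L → Scheme.Modules.IsInvertible L' →
    (Nonempty (L ≅ L') ↔ Nonempty (Iso (sec A L) (sec A L')))
  ess_surj : ∀ (A : Type u) [CommRing A] [Algebra k A] (T : Triple G.𝔠 A), T.IsInvertible →
    ∃ L : (pullback c (sp k A)).Modules, Scheme.Modules.IsInvertible L ∧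
      Nonempty (Iso (sec A L) T)
  bc : ∀ (A A' : Type u) [CommRing A] [Algebra k A] [CommRing A'] [Algebra k A']
    (φ : A →ₐ[k] A') (L : (pullback c (sp k A)).Modules), Scheme.Modules.IsInvertible L →
    IsBC φ (sec A L) (sec A' ((Scheme.Modules.pullback (baseChangeSnd c (affHom φ))).obj L))
  rigid_iff : ∀ (A : Type u) [CommRing A] [Algebra k A] (L : (pullback c (sp k A)).Modules),
    Scheme.Modules.IsInvertible L →
    (Nonempty ((Scheme.Modules.pullback (rigSection c (sp k A) ε)).obj L ≅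
        SheafOfModules.unit (Spec (CommRingCat.of A)).ringCatSheaf) ↔ (sec A L).IsRigid)
  unit : ∀ (A : Type u) [CommRing A] [Algebra k A],
    Nonempty (Iso (sec A (SheafOfModules.unit (pullback c (sp k A)).ringCatSheaf))
      (Triple.unit G.𝔠 A))

variable (c ε)

/-- `π_* 𝒪 = 𝒪` universally. -/
def PiStar : Prop :=
  ∀ {T : Scheme.{u}} (t : T ⟶ Spec (CommRingCat.of k)),
    Function.Bijective (pullback.snd c t).appTop

/-- The rigidified Picard presheaf is separated for the Zariski topology. -/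
def SepSpec : Prop :=
  ∀ {T : Scheme.{u}} (t : T ⟶ Spec (CommRingCat.of k)) (M M' : RigidifiedLineBundle c ε t)
    {J : Type u} (U : J → T.Opens), (⨆ j, U j) = ⊤ →
    (∀ j, Nonempty ((M.pullbackAlong (opensHom t (U j))).L ≅
      (M'.pullbackAlong (opensHom t (U j))).L)) →
    Nonempty (M.L ≅ M'.L)

/-- Rigidified line bundles glue along a cover of the base by two opens. -/
def Glue2Spec : Prop :=
  ∀ {T : Scheme.{u}} (t : T ⟶ Spec (CommRingCat.of k)) (U V : T.Opens), U ⊔ V = ⊤ →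
    ∀ (MU : RigidifiedLineBundle c ε (U.ι ≫ t)) (MV : RigidifiedLineBundle c ε (V.ι ≫ t)),
    Nonempty ((MU.pullbackAlong (opensLEHom t (inf_le_left : U ⊓ V ≤ U))).L ≅
      (MV.pullbackAlong (opensLEHom t (inf_le_right : U ⊓ V ≤ V))).L) →
    ∃ M : RigidifiedLineBundle c ε t,
      Nonempty ((M.pullbackAlong (opensHom t U)).L ≅ MU.L) ∧
      Nonempty ((M.pullbackAlong (opensHom t V)).L ≅ MV.L)

end Fermat.Agent.S25
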