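/-
S25 / block D (Dictionary): the two-chart atlas of `C ×ₖ Spec A` (definition only).
Owner: helper249.  FROZEN INTERFACE: do not edit without telling helper249.
-/
import Fermat.Agent.S25.Mod.DictDefs
import Fermat.Agent.S25.GeomSpec

set_option autoImplicit false

universe u

open CategoryTheory CategoryTheory.Limits AlgebraicGeometry AlgebraicGeometry.RelPicard
  NeronModelInfra TopologicalSpace
open scoped TensorProduct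

namespace Fermat.Agent.S25.Geo

open Fermat.Agent.S25.Mod

variable {k : Type u} [Field k] {C : Scheme.{u}} {c : C ⟶ Spec (CommRingCat.of k)}
  {ε : SchemeHomOver (𝟙 (Spec (CommRingCat.of k))) c}

/-- The function `a ⊗ b ↦ pr₂^#(a) · pr₁^#(b)` on an open `V ≤ pr₁⁻¹ W` of `C ×ₖ Spec A`. -/
noncomputable def tmulFun (c : C ⟶ Spec (CommRingCat.of k)) (A : Type u) [CommRing A] [Algebra k A]
    (W : C.Opens) (V : (pullback c (sp k A)).Opens) (h : V ≤ pullback.fst c (sp k A) ⁻¹ᵁ W)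
    (a : A) (b : Γ(C, W)) : Γ(pullback c (sp k A), V) :=
  (pullback.snd c (sp k A)).appLE ⊤ V le_top ((Scheme.ΓSpecIso (CommRingCat.of A)).inv a) *
    (pullback.fst c (sp k A)).appLE W V h b

/-- The two-chart atlas of `C ×ₖ Spec A` with its coordinate rings. -/
structure ProdChart (G : GeomCharts c ε) (A : Type u) [CommRing A] [Algebra k A] where
  𝒰 : Cov2 (pullback c (sp k A))
  hU₁ : 𝒰.U₁ = pullback.fst c (sp k A) ⁻¹ᵁ G.W₁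
  hU₂ : 𝒰.U₂ = pullback.fst c (sp k A) ⁻¹ᵁ G.W₂
  θ₁ : G.𝔠.R₁ A ≃+* Γ(pullback c (sp k A), 𝒰.U₁)
  θ₂ : G.𝔠.R₂ A ≃+* Γ(pullback c (sp k A), 𝒰.U₂)
  θ₁₂ : G.𝔠.R₁₂ A ≃+* Γ(pullback c (sp k A), 𝒰.U₁₂)
  tmul₁ : ∀ (a : A) (b : G.𝔠.B₁), θ₁ (a ⊗ₜ b) = tmulFun c A G.W₁ 𝒰.U₁ hU₁.le a (G.i₁ b)
  tmul₂ : ∀ (a : A) (b : G.𝔠.B₂), θ₂ (a ⊗ₜ b) = tmulFun c A G.W₂ 𝒰.U₂ hU₂.le a (G.i₂ b)
  tmul₁₂ : ∀ (a : A) (b : G.𝔠.B₁₂), θ₁₂ (a ⊗ₜ b) =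
    tmulFun c A (G.W₁ ⊓ G.W₂) 𝒰.U₁₂ (le_inf (inf_le_left.trans hU₁.le) (inf_le_right.trans hU₂.le))
      a (G.i₁₂ b)
  res₁ : ∀ r, θ₁₂ (G.𝔠.res₁ A r) = rres _ 𝒰.le₁ (θ₁ r)
  res₂ : ∀ r, θ₁₂ (G.𝔠.res₂ A r) = rres _ 𝒰.le₂ (θ₂ r)
  hx : 𝒰.x = θ₁ (G.𝔠.xA A)
  hy : 𝒰.y = θ₂ (G.𝔠.yA A)

end Fermat.Agent.S25.Geo
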