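/-
S25 / block D: the DICTIONARY between invertible sheaves on `C ×ₖ Spec A` and invertible triples.
Owner: helper249.   Main result: `Fermat.Agent.S25.Dict.exists_dictionary`.
-/
import Fermat.Agent.S25.Dict.Transport
import Fermat.Agent.S25.Dict.QC
import Fermat.Agent.S25.Dict.TwoCover
import Fermat.Agent.S25.Dict.PullbackSections
import Fermat.Agent.S25.Dict.InvSec
import Fermat.Agent.S25.Dict.AlgTransport
import Fermat.Agent.S25.Mod.Triv
import Fermat.Agent.S25.ProductCharts.Exists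
import Fermat.Agent.S25.ProductCharts.BaseChange
import Fermat.Agent.S25.ProductCharts.Rig

set_option autoImplicit false

universe u

open CategoryTheory CategoryTheory.Limits AlgebraicGeometry AlgebraicGeometry.RelPicard
  NeronModelInfra TopologicalSpace
open scoped TensorProduct

namespace Fermat.Agent.S25.Dict

open Fermat.Agent.S25.Mod Fermat.Agent.S25.Geo

variable {k : Type u} [Field k] {C : Scheme.{u}} {c : C ⟶ Spec (CommRingCat.of k)}
  {ε : SchemeHomOver (𝟙 (Spec (CommRingCat.of k))) c}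
  {G : GeomCharts c ε} {A : Type u} [CommRing A] [Algebra k A]

/-- The triple of sections of a sheaf of modules on `C ×ₖ Spec A`. -/
noncomputable def secT (P : ProdChart G A) (L : (pullback c (sp k A)).Modules) : Triple G.𝔠 A :=
  toTriple P (gsec P.𝒰 L)

theorem secT_inv (P : ProdChart G A) (L : (pullback c (sp k A)).Modules)
    (hL : Scheme.Modules.IsInvertible L) : (secT P L).IsInvertible := by
  have := isQuasicoherent_of_isInvertible L hL
  refine { toTriple_isQC P (gsec_isQC P.𝒰 L) with inv₁ := ?_, inv₂ := ?_ }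
  · exact invertible_of_ringEquiv P.θ₁ (N := (secT P L).N₁) (N' := Γ(L, P.𝒰.U₁)) (AddEquiv.refl _)
      (fun _ _ => rfl) (invertible_sections L hL P.𝒰.aff₁)
  · exact invertible_of_ringEquiv P.θ₂ (N := (secT P L).N₂) (N' := Γ(L, P.𝒰.U₂)) (AddEquiv.refl _)
      (fun _ _ => rfl) (invertible_sections L hL P.𝒰.aff₂)

theorem secT_iso_iff (P : ProdChart G A) (L L' : (pullback c (sp k A)).Modules)
    (hL : Scheme.Modules.IsInvertible L) (hL' : Scheme.Modules.IsInvertible L') :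
    Nonempty (L ≅ L') ↔ Nonempty (Triple.Iso (secT P L) (secT P L')) := by
  have := isQuasicoherent_of_isInvertible L hL
  have := isQuasicoherent_of_isInvertible L' hL'
  constructor
  · rintro ⟨e⟩
    exact ⟨toTripleIso P (gsecIso P.𝒰 e)⟩
  · rintro ⟨e⟩
    exact iso_of_gsec_iso P.𝒰 L L' (ofToTripleIso P e)

theorem secT_ess_surj (P : ProdChart G A) (T : Triple G.𝔠 A) (hT : T.IsInvertible) :
    ∃ L : (pullback c (sp k A)).Modules, Scheme.Modules.IsInvertible L ∧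
      Nonempty (Triple.Iso (secT P L) T) := by
  obtain ⟨M, hM, ⟨e⟩⟩ := exists_glue P.𝒰 (ofTriple P T) (ofTriple_isQC P hT.toIsQC)
  refine ⟨M, ?_, ⟨(toTripleIso P e).trans (toOfTripleIso P T)⟩⟩
  have i₁ : Module.Invertible Γ(pullback c (sp k A), P.𝒰.U₁) (ofTriple P T).N₁ :=
    invertible_of_ringEquiv P.θ₁.symm (N := (ofTriple P T).N₁) (N' := T.N₁) (AddEquiv.refl _)
      (fun _ _ => rfl) hT.inv₁
  have i₂ : Module.Invertible Γ(pullback c (sp k A), P.𝒰.U₂) (ofTriple P T).N₂ :=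
    invertible_of_ringEquiv P.θ₂.symm (N := (ofTriple P T).N₂) (N' := T.N₂) (AddEquiv.refl _)
      (fun _ _ => rfl) hT.inv₂
  exact isInvertible_of_sections M P.𝒰.U₁ P.𝒰.U₂ P.𝒰.aff₁ P.𝒰.aff₂ P.𝒰.cover
    (Module.Invertible.congr e.e₁.symm) (Module.Invertible.congr e.e₂.symm)

/-- Sections of the structure sheaf, as a sheaf of modules, are functions. -/
noncomputable def unitSec (X : Scheme.{u}) (U : X.Opens) :
    Γ(SheafOfModules.unit X.ringCatSheaf, U) ≃+ Γ(X, U) :=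
  AddEquiv.refl _

lemma unitSec_smul {X : Scheme.{u}} (U : X.Opens) (r : Γ(X, U))
    (s : Γ(SheafOfModules.unit X.ringCatSheaf, U)) :
    unitSec X U (r • s) = r * unitSec X U s := rfl

lemma unitSec_mres {X : Scheme.{u}} {U V : X.Opens} (h : V ≤ U)
    (s : Γ(SheafOfModules.unit X.ringCatSheaf, U)) :
    unitSec X V (mres _ h s) = rres X h (unitSec X U s) := rfl

theorem secT_unit (P : ProdChart G A) :
    Nonempty (Triple.Iso (secT P (SheafOfModules.unit (pullback c (sp k A)).ringCatSheaf))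
      (Triple.unit G.𝔠 A)) := by
  refine ⟨
    { e₁ := { (unitSec _ P.𝒰.U₁).trans P.θ₁.symm.toAddEquiv with
        map_smul' := fun r s => ?_ }
      e₂ := { (unitSec _ P.𝒰.U₂).trans P.θ₂.symm.toAddEquiv with
        map_smul' := fun r s => ?_ }
      e₁₂ := { (unitSec _ P.𝒰.U₁₂).trans P.θ₁₂.symm.toAddEquiv with
        map_smul' := fun r s => ?_ }
      comm₁ := fun s => ?_
      comm₂ := fun s => ?_ }⟩
  · change P.θ₁.symm (P.θ₁ r * unitSec _ P.𝒰.U₁ s) = r * P.θ₁.symm (unitSec _ P.𝒰.U₁ s)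
    rw [map_mul, RingEquiv.symm_apply_apply]
  · change P.θ₂.symm (P.θ₂ r * unitSec _ P.𝒰.U₂ s) = r * P.θ₂.symm (unitSec _ P.𝒰.U₂ s)
    rw [map_mul, RingEquiv.symm_apply_apply]
  · change P.θ₁₂.symm (P.θ₁₂ r * unitSec _ P.𝒰.U₁₂ s) = r * P.θ₁₂.symm (unitSec _ P.𝒰.U₁₂ s)
    rw [map_mul, RingEquiv.symm_apply_apply]
  · change P.θ₁₂.symm (rres _ P.𝒰.le₁ (unitSec _ P.𝒰.U₁ s)) =
      G.𝔠.res₁ A (P.θ₁.symm (unitSec _ P.𝒰.U₁ s))
    apply P.θ₁₂.injective
    rw [RingEquiv.apply_symm_apply, P.res₁, RingEquiv.apply_symm_apply]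
  · change P.θ₁₂.symm (rres _ P.𝒰.le₂ (unitSec _ P.𝒰.U₂ s)) =
      G.𝔠.res₂ A (P.θ₂.symm (unitSec _ P.𝒰.U₂ s))
    apply P.θ₁₂.injective
    rw [RingEquiv.apply_symm_apply, P.res₂, RingEquiv.apply_symm_apply]

section BC

variable {A' : Type u} [CommRing A'] [Algebra k A']

theorem secT_bc (P : ProdChart G A) (P' : ProdChart G A') (φ : A →ₐ[k] A')
    (L : (pullback c (sp k A)).Modules) (hL : Scheme.Modules.IsInvertible L) :
    Triple.IsBC φ (secT P L)
      (secT P' ((Scheme.Modules.pullback (baseChangeSnd c (affHom φ))).obj L)) := by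
  have hq := isQuasicoherent_of_isInvertible L hL
  have hq' := isQuasicoherent_of_isInvertible _ (hL.pullback (baseChangeSnd c (affHom φ)))
  let β₁ : (secT P L).N₁ →ₛₗ[(G.𝔠.bc₁ φ).toRingHom]
      (secT P' ((Scheme.Modules.pullback (baseChangeSnd c (affHom φ))).obj L)).N₁ :=
    { toFun := pbMap (baseChangeSnd c (affHom φ)) L P.𝒰.U₁ P'.𝒰.U₁ (le_bc₁ P P' φ)
      map_add' := map_add _
      map_smul' := fun r n => by
        refine ((pbMap (baseChangeSnd c (affHom φ)) L P.𝒰.U₁ P'.𝒰.U₁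
          (le_bc₁ P P' φ)).map_smulₛₗ (P.θ₁ r) n).trans ?_
        exact congrArg (· • _) (appLE_θ₁ P P' φ r) }
  let β₂ : (secT P L).N₂ →ₛₗ[(G.𝔠.bc₂ φ).toRingHom]
      (secT P' ((Scheme.Modules.pullback (baseChangeSnd c (affHom φ))).obj L)).N₂ :=
    { toFun := pbMap (baseChangeSnd c (affHom φ)) L P.𝒰.U₂ P'.𝒰.U₂ (le_bc₂ P P' φ)
      map_add' := map_add _
      map_smul' := fun r n => by
        refine ((pbMap (baseChangeSnd c (affHom φ)) L P.𝒰.U₂ P'.𝒰.U₂
          (le_bc₂ P P' φ)).map_smulₛₗ (P.θ₂ r) n).trans ?_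
        exact congrArg (· • _) (appLE_θ₂ P P' φ r) }
  let β₁₂ : (secT P L).N₁₂ →ₛₗ[(G.𝔠.bc₁₂ φ).toRingHom]
      (secT P' ((Scheme.Modules.pullback (baseChangeSnd c (affHom φ))).obj L)).N₁₂ :=
    { toFun := pbMap (baseChangeSnd c (affHom φ)) L P.𝒰.U₁₂ P'.𝒰.U₁₂ (le_bc₁₂ P P' φ)
      map_add' := map_add _
      map_smul' := fun r n => by
        refine ((pbMap (baseChangeSnd c (affHom φ)) L P.𝒰.U₁₂ P'.𝒰.U₁₂
          (le_bc₁₂ P P' φ)).map_smulₛₗ (P.θ₁₂ r) n).trans ?_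
        exact congrArg (· • _) (appLE_θ₁₂ P P' φ r) }
  refine ⟨
    { β₁ := β₁
      β₂ := β₂
      β₁₂ := β₁₂
      comm₁ := fun n => (mres_pbMap (baseChangeSnd c (affHom φ)) L (le_bc₁ P P' φ)
        (le_bc₁₂ P P' φ) P.𝒰.le₁ P'.𝒰.le₁ n).symm
      comm₂ := fun n => (mres_pbMap (baseChangeSnd c (affHom φ)) L (le_bc₂ P P' φ)
        (le_bc₁₂ P P' φ) P.𝒰.le₂ P'.𝒰.le₂ n).symm
      isBC₁ := ?_
      isBC₂ := ?_
      isBC₁₂ := ?_ }⟩
  · exact isBCMap_of_ringEquiv (G.𝔠.bc₁ φ).toRingHom _ P.θ₁ P'.θ₁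
      (fun r => (appLE_θ₁ P P' φ r).symm) β₁
      (pbMap (baseChangeSnd c (affHom φ)) L P.𝒰.U₁ P'.𝒰.U₁ (le_bc₁ P P' φ))
      (AddEquiv.refl _) (AddEquiv.refl _) (fun _ _ => rfl) (fun _ _ => rfl) (fun _ => rfl)
      (isBCMap_pbMap _ L _ P.𝒰.aff₁ P'.𝒰.aff₁ (QCOn.of_isQuasicoherent L _)
        (QCOn.of_isQuasicoherent _ _))
  · exact isBCMap_of_ringEquiv (G.𝔠.bc₂ φ).toRingHom _ P.θ₂ P'.θ₂
      (fun r => (appLE_θ₂ P P' φ r).symm) β₂
      (pbMap (baseChangeSnd c (affHom φ)) L P.𝒰.U₂ P'.𝒰.U₂ (le_bc₂ P P' φ))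
      (AddEquiv.refl _) (AddEquiv.refl _) (fun _ _ => rfl) (fun _ _ => rfl) (fun _ => rfl)
      (isBCMap_pbMap _ L _ P.𝒰.aff₂ P'.𝒰.aff₂ (QCOn.of_isQuasicoherent L _)
        (QCOn.of_isQuasicoherent _ _))
  · exact isBCMap_of_ringEquiv (G.𝔠.bc₁₂ φ).toRingHom _ P.θ₁₂ P'.θ₁₂
      (fun r => (appLE_θ₁₂ P P' φ r).symm) β₁₂
      (pbMap (baseChangeSnd c (affHom φ)) L P.𝒰.U₁₂ P'.𝒰.U₁₂ (le_bc₁₂ P P' φ))
      (AddEquiv.refl _) (AddEquiv.refl _) (fun _ _ => rfl) (fun _ _ => rfl) (fun _ => rfl)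
      (isBCMap_pbMap _ L _ P.𝒰.aff₁₂ P'.𝒰.aff₁₂ (QCOn.of_isQuasicoherent L _)
        (QCOn.of_isQuasicoherent _ _))

end BC

/-- Freeness of rank one does not depend on the presentation of the ring. -/
theorem free_iff_of_ringEquiv {R S : Type u} [CommRing R] [CommRing S] (θ : R ≃+* S)
    (N : Type u) [AddCommGroup N] [Module S N] [Module R N]
    (h : ∀ (r : R) (n : N), r • n = θ r • n) :
    Nonempty (N ≃ₗ[S] S) ↔ Nonempty (N ≃ₗ[R] R) := by
  constructor
  · rintro ⟨e⟩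
    exact ⟨{ e.toAddEquiv.trans θ.symm.toAddEquiv with
      map_smul' := fun r n => by
        change θ.symm (e (r • n)) = r * θ.symm (e n)
        rw [h, e.map_smul, smul_eq_mul, map_mul, RingEquiv.symm_apply_apply] }⟩
  · rintro ⟨e⟩
    exact ⟨{ e.toAddEquiv.trans θ.toAddEquiv with
      map_smul' := fun s n => by
        change θ (e (s • n)) = s * θ (e n)
        have : s • n = θ.symm s • n := by rw [h, RingEquiv.apply_symm_apply]
        rw [this, e.map_smul, smul_eq_mul, map_mul, RingEquiv.apply_symm_apply] }⟩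

theorem ev₀_surjective (𝔠 : CurveCharts k) (A : Type u) [CommRing A] [Algebra k A] :
    Function.Surjective (𝔠.ev₀ A).toRingHom := fun a =>
  ⟨a ⊗ₜ 1, by simp [CurveCharts.ev₀]⟩

theorem secT_rigid_iff (P : ProdChart G A) (L : (pullback c (sp k A)).Modules)
    (hL : Scheme.Modules.IsInvertible L) :
    Nonempty ((Scheme.Modules.pullback (rigSection c (sp k A) ε)).obj L ≅
        SheafOfModules.unit (Spec (CommRingCat.of A)).ringCatSheaf) ↔ (secT P L).IsRigid := by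
  have hq := isQuasicoherent_of_isInvertible L hL
  have hq' := isQuasicoherent_of_isInvertible _ (hL.pullback (rigSection c (sp k A) ε))
  rw [trivial_iff_top]
  let θ' : A ≃+* Γ(Spec (CommRingCat.of A), ⊤) :=
    (Scheme.ΓSpecIso (CommRingCat.of A)).symm.commRingCatIsoToRingEquiv
  let _ : Module A Γ((Scheme.Modules.pullback (rigSection c (sp k A) ε)).obj L, ⊤) :=
    Module.compHom _ θ'.toRingHom
  rw [free_iff_of_ringEquiv θ' _ (fun _ _ => rfl)]
  have hθ : ∀ r, θ' ((G.𝔠.ev₀ A).toRingHom r) =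
      ((rigSection c (sp k A) ε).appLE _ ⊤ (le_rig P)).hom (P.θ₂ r) := fun r => by
    apply θ'.symm.injective
    rw [RingEquiv.symm_apply_apply]
    exact (appLE_rig P r).symm
  let β : (secT P L).N₂ →ₛₗ[(G.𝔠.ev₀ A).toRingHom]
      Γ((Scheme.Modules.pullback (rigSection c (sp k A) ε)).obj L, ⊤) :=
    { toFun := pbMap (rigSection c (sp k A) ε) L P.𝒰.U₂ ⊤ (le_rig P)
      map_add' := map_add _
      map_smul' := fun r n => by
        refine ((pbMap (rigSection c (sp k A) ε) L P.𝒰.U₂ ⊤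
          (le_rig P)).map_smulₛₗ (P.θ₂ r) n).trans ?_
        exact congrArg (· • _) (hθ r).symm }
  have hβ : IsBCMap (G.𝔠.ev₀ A).toRingHom β :=
    isBCMap_of_ringEquiv (G.𝔠.ev₀ A).toRingHom _ P.θ₂ θ' hθ β
      (pbMap (rigSection c (sp k A) ε) L P.𝒰.U₂ ⊤ (le_rig P))
      (AddEquiv.refl _) (AddEquiv.refl _) (fun _ _ => rfl) (fun _ _ => rfl) (fun _ => rfl)
      (isBCMap_pbMap _ L _ P.𝒰.aff₂ (isAffineOpen_top _) (QCOn.of_isQuasicoherent L _)
        (QCOn.of_isQuasicoherent _ _))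
  have := (secT_inv P L hL).inv₂
  exact free_iff_rigid (G.𝔠.ev₀ A).toRingHom (ev₀_surjective G.𝔠 A) β hβ

theorem exists_dictionary (G : GeomCharts c ε) : Nonempty (Dictionary G) := by
  classical
  let P : ∀ (A : Type u) [CommRing A] [Algebra k A], ProdChart G A :=
    fun A _ _ => (nonempty_prodChart G A).some
  exact ⟨
    { sec := fun A _ _ L => secT (P A) L
      inv := fun A _ _ L hL => secT_inv (P A) L hL
      iso_iff := fun A _ _ L L' hL hL' => secT_iso_iff (P A) L L' hL hL'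
      ess_surj := fun A _ _ T hT => secT_ess_surj (P A) T hT
      bc := fun A A' _ _ _ _ φ L hL => secT_bc (P A) (P A') φ L hL
      rigid_iff := fun A _ _ L hL => secT_rigid_iff (P A) L hL
      unit := fun A _ _ => secT_unit (P A) }⟩

end Fermat.Agent.S25.Dict
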