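/-
S25 / block M-B : rigidified line bundles glue along a cover of the base by two opens.
Owner: helper21.
-/
import Fermat.Agent.S25.Mod.Geom
import Fermat.Agent.S25.Mod.Rigid
import Fermat.Agent.S25.Mod.Inv

set_option autoImplicit false

universe u

open CategoryTheory CategoryTheory.Limits AlgebraicGeometry AlgebraicGeometry.RelPicard
  NeronModelInfra GoodReductionJacobian

namespace Fermat.Agent.S25

variable {k : Type u} [Field k] {C : Scheme.{u}} (c : C ⟶ Spec (CommRingCat.of k))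
  (ε : SchemeHomOver (𝟙 (Spec (CommRingCat.of k))) c)

theorem glue2Spec : Glue2Spec c ε := by
  intro T t U V hUV MU MV ⟨φ⟩
  obtain ⟨M, ⟨e₁⟩, ⟨e₂⟩, ⟨r⟩⟩ := (Mod.sectionData c ε t U V hUV).exists_rigidified_glue MU.L MV.L φ
    MU.rigidified.some MV.rigidified.some
  refine ⟨⟨M, ?_, ⟨r⟩⟩, ⟨e₁⟩, ⟨e₂⟩⟩
  exact (Mod.cover2Prod c t U V hUV).isInvertible_of_pullback M
    (Mod.isInvertible_of_iso e₁.symm MU.isInvertible)
    (Mod.isInvertible_of_iso e₂.symm MV.isInvertible)

theorem glue2Spec_of_piStar (_h : PiStar c) : Glue2Spec c ε := glue2Spec c ε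

end Fermat.Agent.S25
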