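/-
S25 / block D-A: `π_* 𝒪 = 𝒪` universally.   Owner: helper297.
-/
import Fermat.Agent.S25.GeomSpec

set_option autoImplicit false

universe u

open CategoryTheory CategoryTheory.Limits AlgebraicGeometry AlgebraicGeometry.RelPicard
  NeronModelInfra GoodReductionJacobian Opposite TopologicalSpace

namespace Fermat.Agent.S25

namespace PiStarAux

/-- A morphism of schemes which induces isomorphisms on sections over affine opens of the target
induces an isomorphism on global sections. -/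
theorem isIso_appTop_of_forall_affine {X Y : Scheme.{u}} (f : X ⟶ Y)
    (h : ∀ U : Y.affineOpens, IsIso (f.app U.1)) : IsIso f.appTop := by
  let φ : Y.sheaf ⟶ (TopCat.Sheaf.pushforward CommRingCat f.base).obj X.sheaf := ⟨f.c⟩
  have hφ : IsIso φ := by
    refine TopCat.Sheaf.isIso_iff_isIso_basis (B := fun U : Y.affineOpens => U.1) ?_ ?_
    · rw [Subtype.range_coe]
      exact Y.isBasis_affineOpens
    · intro U
      exact h U
  have h2 : IsIso ((sheafToPresheaf _ _).map φ) := Functor.map_isIso _ φ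
  have h3 : IsIso (((sheafToPresheaf _ _).map φ).app (op ⊤)) := inferInstance
  exact h3

/-- Flat base change: if `Γ(S) → Γ(C)` is an isomorphism (`S` affine, `C` qcqs) then so is
`Γ(T, U) → Γ(C ×ₛ T, pr₂⁻¹ U)` for every flat `T ⟶ S` and every affine open `U` of `T`. -/
theorem isIso_snd_app_of_isIso_appTop {C T S : Scheme.{u}} (c : C ⟶ S) (t : T ⟶ S) [Flat t]
    [IsAffine S] [CompactSpace C] [QuasiSeparatedSpace C] [IsIso c.appTop]
    (U : T.Opens) (hU : IsAffineOpen U) : IsIso ((pullback.snd c t).app U) := by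
  have H := IsPullback.of_hasPullback c t
  have hUST : U ≤ t ⁻¹ᵁ (⊤ : S.Opens) := le_top
  have hUSX : (⊤ : C.Opens) ≤ c ⁻¹ᵁ (⊤ : S.Opens) := le_top
  have hUY : (pullback.snd c t) ⁻¹ᵁ U =
      (pullback.fst c t) ⁻¹ᵁ (⊤ : C.Opens) ⊓ (pullback.snd c t) ⁻¹ᵁ U := by simp
  have h1 := isIso_pushoutSection_of_isQuasiSeparated_of_flat_right H hUST hUSX hUY
    (isAffineOpen_top S) hU isCompact_univ isQuasiSeparated_univ
  rw [isIso_pushoutSection_iff] at h1
  have h2 : IsIso (c.appLE ⊤ ⊤ hUSX) := by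
    have : c.appLE ⊤ ⊤ hUSX = c.appTop := c.appLE_eq_app
    rw [this]
    infer_instance
  have h3 := h1.isIso_inr_of_isIso
  rwa [Scheme.Hom.appLE_eq_app] at h3

/-- Same statement on global sections, for arbitrary `T`. -/
theorem isIso_snd_appTop_of_isIso_appTop {C T S : Scheme.{u}} (c : C ⟶ S) (t : T ⟶ S) [Flat t]
    [IsAffine S] [CompactSpace C] [QuasiSeparatedSpace C] [IsIso c.appTop] :
    IsIso (pullback.snd c t).appTop :=
  isIso_appTop_of_forall_affine _ fun U => isIso_snd_app_of_isIso_appTop c t U.1 U.2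

end PiStarAux

variable {k : Type u} [Field k] {C : Scheme.{u}} {c : C ⟶ Spec (CommRingCat.of k)}
  {ε : SchemeHomOver (𝟙 (Spec (CommRingCat.of k))) c}

namespace GeomCharts

variable (G : GeomCharts c ε)

include G in
theorem compactSpace : CompactSpace C := by
  rw [← isCompact_univ_iff]
  have h : (Set.univ : Set C) = (G.W₁ : Set C) ∪ (G.W₂ : Set C) := by
    have := congrArg (fun U : C.Opens => (U : Set C)) G.cover
    simpa using this.symm
  rw [h]
  exact G.aff₁.isCompact.union G.aff₂.isCompact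

include G in
theorem quasiSeparatedSpace : QuasiSeparatedSpace C := by
  refine Scheme.quasiSeparatedSpace_of_isOpenCover (fun b : Bool => if b then G.W₁ else G.W₂)
    ?_ ?_ ?_
  · refine IsOpenCover.mk ?_
    rw [iSup_bool_eq]
    exact G.cover
  · rintro (_ | _)
    · exact G.aff₂
    · exact G.aff₁
  · have h12 : IsCompact ((G.W₁ : Set C) ∩ (G.W₂ : Set C)) := G.aff₁₂.isCompact
    rintro (_ | _) (_ | _)
    · simpa using G.aff₂.isCompact
    · simpa [Set.inter_comm] using h12
    · simpa using h12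
    · simpa using G.aff₁.isCompact

/-- `c.appLE ⊤ W` is `c.appTop` followed by restriction. -/
theorem appLE_top_apply (W : C.Opens) (a : Γ(Spec (CommRingCat.of k), ⊤)) :
    c.appLE ⊤ W le_top a = C.presheaf.map (homOfLE (le_top : W ≤ ⊤)).op (c.appTop a) := rfl

theorem y_ne_zero : G.𝔠.y ≠ 0 := by
  intro h
  have h1 := G.𝔠.xy
  rw [h, map_zero, mul_zero] at h1
  have hx : G.𝔠.x ≠ 0 := fun h0 => by
    have := G.𝔠.trans₁
    rw [h0] at this
    exact this (isAlgebraic_zero)
  have := G.𝔠.away₁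
  have hinj : Function.Injective (algebraMap G.𝔠.B₁ G.𝔠.B₁₂) :=
    IsLocalization.injective G.𝔠.B₁₂ (M := Submonoid.powers G.𝔠.x)
      (powers_le_nonZeroDivisors_of_noZeroDivisors hx)
  have h2 : algebraMap G.𝔠.B₁ G.𝔠.B₁₂ 0 = algebraMap G.𝔠.B₁ G.𝔠.B₁₂ 1 := by
    rw [map_zero, map_one]; exact h1
  exact zero_ne_one (hinj h2)

theorem injective_algebraMap₂ : Function.Injective (algebraMap G.𝔠.B₂ G.𝔠.B₁₂) := by
  have := G.𝔠.away₂
  exact IsLocalization.injective G.𝔠.B₁₂ (M := Submonoid.powers G.𝔠.y)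
      (powers_le_nonZeroDivisors_of_noZeroDivisors G.y_ne_zero)

include G in
theorem bijective_appTop : Function.Bijective c.appTop := by
  constructor
  · intro a b hab
    have h1 : ∀ a : Γ(Spec (CommRingCat.of k), ⊤),
        G.i₁ (algebraMap k G.𝔠.B₁ ((Scheme.ΓSpecIso (CommRingCat.of k)).hom a)) =
          C.presheaf.map (homOfLE (le_top : G.W₁ ≤ ⊤)).op (c.appTop a) := by
      intro a
      rw [G.str₁, appLE_top_apply]
      simp
    have h2 := (h1 a).trans ((congrArg _ hab).trans (h1 b).symm)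
    have h3 := (algebraMap k G.𝔠.B₁).injective (G.i₁.injective h2)
    exact (ConcreteCategory.bijective_of_isIso (Scheme.ΓSpecIso (CommRingCat.of k)).hom).1 h3
  · intro s
    set r₁ := C.presheaf.map (homOfLE (le_top : G.W₁ ≤ ⊤)).op s with hr₁
    set r₂ := C.presheaf.map (homOfLE (le_top : G.W₂ ≤ ⊤)).op s with hr₂
    have hb₁ : G.i₁ (G.i₁.symm r₁) = r₁ := G.i₁.apply_symm_apply _
    have hb₂ : G.i₂ (G.i₂.symm r₂) = r₂ := G.i₂.apply_symm_apply _
    have hglue : algebraMap G.𝔠.B₁ G.𝔠.B₁₂ (G.i₁.symm r₁) =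
        algebraMap G.𝔠.B₂ G.𝔠.B₁₂ (G.i₂.symm r₂) := by
      apply G.i₁₂.injective
      rw [G.res₁, G.res₂, hb₁, hb₂, hr₁, hr₂]
      rw [← ConcreteCategory.comp_apply, ← ConcreteCategory.comp_apply, ← Functor.map_comp,
        ← Functor.map_comp]
      rfl
    obtain ⟨a, ha⟩ := G.𝔠.const _ _ hglue
    have ha₂ : G.i₂.symm r₂ = algebraMap k G.𝔠.B₂ a := by
      apply G.injective_algebraMap₂
      rw [← hglue, ha, ← IsScalarTower.algebraMap_apply, ← IsScalarTower.algebraMap_apply]
    refine ⟨(Scheme.ΓSpecIso (CommRingCat.of k)).inv a, ?_⟩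
    refine C.sheaf.eq_of_locally_eq₂ (homOfLE (le_top : G.W₁ ≤ ⊤)) (homOfLE (le_top : G.W₂ ≤ ⊤))
      (by rw [G.cover]) _ _ ?_ ?_
    · have h := G.str₁ a
      rw [appLE_top_apply, ← ha, hb₁] at h
      exact h.symm
    · have h := G.str₂ a
      rw [appLE_top_apply, ← ha₂, hb₂] at h
      exact h.symm

end GeomCharts

/-- **S25-D-A**: `π_* 𝒪 = 𝒪` universally. -/
theorem piStar (G : GeomCharts c ε) : PiStar c := by
  intro T t
  have h1 := G.compactSpace
  have h2 := G.quasiSeparatedSpace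
  have h3 : IsIso c.appTop := (ConcreteCategory.isIso_iff_bijective _).2 G.bijective_appTop
  have h4 := PiStarAux.isIso_snd_appTop_of_isIso_appTop c t
  exact ConcreteCategory.bijective_of_isIso _

end Fermat.Agent.S25
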