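/-
S25, block M-A: `SepSpec` from `PiStar`.  Owner: helper168.
-/
import Fermat.Agent.S25.Mod.SepAbs
import Fermat.Agent.S25.Mod.Bridge

set_option autoImplicit false

universe u

open CategoryTheory CategoryTheory.Limits AlgebraicGeometry AlgebraicGeometry.RelPicard
  NeronModelInfra TopologicalSpace

noncomputable section

namespace Fermat.Agent.S25

open Fermat.Agent.S25.Mod

variable {k : Type u} [Field k] {C : Scheme.{u}} (c : C ⟶ Spec (CommRingCat.of k))
  (ε : SchemeHomOver (𝟙 (Spec (CommRingCat.of k))) c)

theorem sepSpec_of_piStar (h : PiStar c) : SepSpec c ε := by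
  intro T t M M' J U hU hloc
  refine nonempty_iso_of_locIso (pullback.snd c t) (rigSection c t ε) (rigSection_snd c ε t)
    (fun U a => PiStar.exists_app_eq c t h U a) M.isInvertible M.rigidified.some
    M'.rigidified.some U hU (fun j => ?_)
  have e := LocIso.ofPullbackIso (baseChangeSnd c (opensHom t (U j))) (hloc j).some
  exact e.restrict (opensRange_baseChangeSnd c t (U j)).ge

end Fermat.Agent.S25
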