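/-
S25 / block R: DEFINITIONS (no sorry).  Owner: helper25.  FROZEN INTERFACE.
-/
import Mathlib

set_option autoImplicit false

universe w u

open CategoryTheory CategoryTheory.Limits AlgebraicGeometry Opposite

namespace Fermat.Agent.S25.Rep

variable {S : Scheme.{u}}

/-- open subscheme of an object of `Over S` -/
noncomputable abbrev restr (T : Over S) (U : T.left.Opens) : Over S := Over.mk (U.ι ≫ T.hom)

/-- its inclusion -/
noncomputable abbrev incl (T : Over S) (U : T.left.Opens) : restr T U ⟶ T :=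
  Over.homMk U.ι rfl

/-- inclusion of open subschemes -/
noncomputable abbrev inclLE (T : Over S) {U V : T.left.Opens} (h : U ≤ V) : restr T U ⟶ restr T V :=
  Over.homMk (T.left.homOfLE h) (by simp)

variable (F : (Over S)ᵒᵖ ⥤ Type w)

/-- separated presheaf (Zariski) -/
def IsSep : Prop :=
  ∀ (T : Over S) {J : Type u} (U : J → T.left.Opens), (⨆ j, U j) = ⊤ →
    ∀ a b : F.obj (op T), (∀ j, F.map (incl T (U j)).op a = F.map (incl T (U j)).op b) → a = b

/-- gluing for covers by two opens -/
def HasGlue2 : Prop :=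
  ∀ (T : Over S) (U V : T.left.Opens), U ⊔ V = ⊤ →
    ∀ (a : F.obj (op (restr T U))) (b : F.obj (op (restr T V))),
      F.map (inclLE T (inf_le_left : U ⊓ V ≤ U)).op a =
        F.map (inclLE T (inf_le_right : U ⊓ V ≤ V)).op b →
      ∃ x : F.obj (op T), F.map (incl T U).op x = a ∧ F.map (incl T V).op x = b

/-- A finite atlas of `F` by representable open subfunctors. -/
structure Atlas where
  ι : Type u
  fin : Finite ι
  X : ι → Over S
  ξ : ∀ i, F.obj (op (X i))
  mono : ∀ (i : ι) (T : Over S) (g g' : T ⟶ X i),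
    F.map g.op (ξ i) = F.map g'.op (ξ i) → g = g'
  isOpen : ∀ (i : ι) (T : Over S) (η : F.obj (op T)), ∃ U : T.left.Opens,
    ∀ (T' : Over S) (h : T' ⟶ T), (∀ x : T'.left, h.left.base x ∈ U) ↔
      ∃ g : T' ⟶ X i, F.map g.op (ξ i) = F.map h.op η
  cover : ∀ (T : Over S) (η : F.obj (op T)) (x : T.left), ∃ (i : ι) (U : T.left.Opens), x ∈ U ∧
    ∃ g : restr T U ⟶ X i, F.map g.op (ξ i) = F.map (incl T U).op η


variable (k : Type u) [Field k]

/-- `Spec A` as an object over `Spec k`. -/
noncomputable abbrev aff (A : Type u) [CommRing A] [Algebra k A] : Over (Spec (CommRingCat.of k)) :=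
  Over.mk (Spec.map (CommRingCat.ofHom (algebraMap k A)))

variable {k}

/-- the morphism over `Spec k` induced by a `k`-algebra hom -/
noncomputable def affMap {A A' : Type u} [CommRing A] [Algebra k A] [CommRing A'] [Algebra k A']
    (φ : A →ₐ[k] A') : aff k A' ⟶ aff k A :=
  Over.homMk (Spec.map (CommRingCat.ofHom φ.toRingHom)) (by
    dsimp
    rw [← Spec.map_comp, ← CommRingCat.ofHom_comp]
    congr 2
    exact φ.comp_algebraMap)

variable (F : (Over (Spec (CommRingCat.of k)))ᵒᵖ ⥤ Type w)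

/-- A finite atlas by affine charts, all conditions tested on affine schemes only. -/
structure AffAtlas where
  ι : Type u
  fin : Finite ι
  R : ι → Type u
  [ring : ∀ i, CommRing (R i)]
  [alg : ∀ i, Algebra k (R i)]
  ξ : ∀ i, F.obj (op (aff k (R i)))
  mono : ∀ (i : ι) (A : Type u) [CommRing A] [Algebra k A] (φ φ' : R i →ₐ[k] A),
    F.map (affMap φ).op (ξ i) = F.map (affMap φ').op (ξ i) → φ = φ'
  isOpen : ∀ (i : ι) (A : Type u) [CommRing A] [Algebra k A] (η : F.obj (op (aff k A))),
    ∃ V : Set (PrimeSpectrum A), IsOpen V ∧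
      ∀ (A' : Type u) [CommRing A'] [Algebra k A'] (ψ : A →ₐ[k] A'),
        (∀ p : PrimeSpectrum A', PrimeSpectrum.comap ψ.toRingHom p ∈ V) ↔
          ∃ φ : R i →ₐ[k] A', F.map (affMap φ).op (ξ i) = F.map (affMap ψ).op η
  cover : ∀ (K : Type u) [Field K] [Algebra k K] (η : F.obj (op (aff k K))),
    ∃ (i : ι) (φ : R i →ₐ[k] K), F.map (affMap φ).op (ξ i) = η

attribute [instance] AffAtlas.ring AffAtlas.alg

end Fermat.Agent.S25.Rep
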