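/-
S25 / block R (formal representability).
A Zariski-separated presheaf on `Over S` with gluing for two opens and a finite nonempty atlas of
representable open subfunctors is representable, by the scheme glued from the charts.

NB: compared with the skeleton, the hypothesis `hne : Nonempty 𝒜.ι` has been added: the statement
is false for the empty atlas of the constant empty presheaf.  See `Atlas.nonempty_of_point`.
-/
import Fermat.Agent.S25.Rep.Merge

set_option autoImplicit false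

universe w u

open CategoryTheory CategoryTheory.Limits AlgebraicGeometry Opposite

namespace Fermat.Agent.S25.Rep

variable {S : Scheme.{u}} {F : (Over S)ᵒᵖ ⥤ Type w}

section Merge

variable {c1 c2 : Chart F} {X : Over S} {ξ : F.obj (op X)} {j1 : c1.X ⟶ X} {j2 : c2.X ⟶ X}

/-- a morphism to the glued object which is classified by the first chart factors through it -/
lemma IsMerge.eq_comp (H : IsMerge c1 c2 X ξ j1 j2) {T' : Over S} (h : T' ⟶ X) (a : T' ⟶ c1.X)
    (ha : F.map a.op c1.ξ = F.map h.op ξ) : h = a ≫ j1 := by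
  have := H.oi1
  have := H.oi2
  apply homExt
  intro x
  rcases H.cover (h.left.base x) with hx | hx
  · obtain ⟨V, h1, hxV, hh1⟩ := exists_factor j1 h x hx
    refine ⟨V, hxV, ?_⟩
    have : h1 = incl T' V ≫ a := by
      apply c1.mono
      rw [← H.map1, ← map_comp', ← hh1, map_comp', ← ha, ← map_comp', H.map1]
    rw [hh1, this, Category.assoc]
  · obtain ⟨V, h2, hxV, hh2⟩ := exists_factor j2 h x hx
    refine ⟨V, hxV, ?_⟩
    rw [hh2, ← Category.assoc]
    refine (H.glue _ _ _ ?_).symm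
    rw [map_comp', ha, ← map_comp', hh2, map_comp', H.map2]

lemma IsMerge.mono (H : IsMerge c1 c2 X ξ j1 j2) (T : Over S) (g g' : T ⟶ X)
    (hgg' : F.map g.op ξ = F.map g'.op ξ) : g = g' := by
  have := H.oi1
  have := H.oi2
  apply homExt
  intro x
  rcases H.cover (g.left.base x) with hx | hx
  · obtain ⟨V, g1, hxV, hg1⟩ := exists_factor j1 g x hx
    refine ⟨V, hxV, ?_⟩
    rw [hg1]
    refine (H.eq_comp _ _ ?_).symm
    rw [map_comp', ← hgg', ← map_comp', hg1, map_comp', H.map1]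
  · obtain ⟨V, g2, hxV, hg2⟩ := exists_factor j2 g x hx
    refine ⟨V, hxV, ?_⟩
    rw [hg2]
    refine (H.symm.eq_comp _ _ ?_).symm
    rw [map_comp', ← hgg', ← map_comp', hg2, map_comp', H.map2]

lemma IsMerge.isOpen (hsep : IsSep F) (H : IsMerge c1 c2 X ξ j1 j2) (T : Over S)
    (η : F.obj (op T)) : ∃ U : T.left.Opens,
    ∀ (T' : Over S) (h : T' ⟶ T), (∀ x : T'.left, h.left.base x ∈ U) ↔
      ∃ g : T' ⟶ X, F.map g.op ξ = F.map h.op η := by
  have := H.oi1
  have := H.oi2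
  obtain ⟨U1, hU1⟩ := c1.isOpen T η
  obtain ⟨U2, hU2⟩ := c2.isOpen T η
  refine ⟨U1 ⊔ U2, fun T' h => ⟨fun hh => ?_, ?_⟩⟩
  · apply exists_of_local hsep ξ H.mono
    intro x
    rcases hh x with hx | hx
    · obtain ⟨V, hxV, hV⟩ := exists_factorU U1 h x hx
      obtain ⟨g1, hg1⟩ := (hU1 _ _).1 hV
      exact ⟨V, hxV, g1 ≫ j1, by rw [map_comp', H.map1, hg1, map_comp']⟩
    · obtain ⟨V, hxV, hV⟩ := exists_factorU U2 h x hx
      obtain ⟨g2, hg2⟩ := (hU2 _ _).1 hV
      exact ⟨V, hxV, g2 ≫ j2, by rw [map_comp', H.map2, hg2, map_comp']⟩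
  · rintro ⟨g, hg⟩ x
    rcases H.cover (g.left.base x) with hx | hx
    · obtain ⟨V, g1, hxV, hg1⟩ := exists_factor j1 g x hx
      have := (hU1 _ (incl T' V ≫ h)).2 ⟨g1, by
        rw [← H.map1, ← map_comp', ← hg1, map_comp', hg, map_comp']⟩
      exact Or.inl (this ⟨x, hxV⟩)
    · obtain ⟨V, g2, hxV, hg2⟩ := exists_factor j2 g x hx
      have := (hU2 _ (incl T' V ≫ h)).2 ⟨g2, by
        rw [← H.map2, ← map_comp', ← hg2, map_comp', hg, map_comp']⟩
      exact Or.inr (this ⟨x, hxV⟩)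

end Merge

/-- two charts can be merged into one -/
lemma Chart.exists_merge (hsep : IsSep F) (hglue : HasGlue2 F) (c1 c2 : Chart F) :
    ∃ (c : Chart F) (j1 : c1.X ⟶ c.X) (j2 : c2.X ⟶ c.X), IsMerge c1 c2 c.X c.ξ j1 j2 := by
  obtain ⟨X, ξ, j1, j2, H⟩ := Chart.exists_isMerge hglue c1 c2
  exact ⟨⟨X, ξ, H.mono, H.isOpen hsep⟩, j1, j2, H⟩

/-- merging finitely many charts of an atlas -/
lemma Atlas.exists_chart (hsep : IsSep F) (hglue : HasGlue2 F) (𝒜 : Atlas F) (s : Finset 𝒜.ι)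
    (hs : s.Nonempty) :
    ∃ c : Chart F,
      (∀ i ∈ s, ∃ j : 𝒜.X i ⟶ c.X, IsOpenImmersion j.left ∧ F.map j.op c.ξ = 𝒜.ξ i) ∧
      (∀ z : c.X.left, ∃ i ∈ s, ∃ j : 𝒜.X i ⟶ c.X,
        F.map j.op c.ξ = 𝒜.ξ i ∧ z ∈ Set.range j.left.base) := by
  induction hs using Finset.Nonempty.cons_induction with
  | singleton a =>
    refine ⟨𝒜.chart a, ?_, ?_⟩
    · intro i hi
      obtain rfl := Finset.mem_singleton.1 hi
      exact ⟨𝟙 _, (inferInstance : IsOpenImmersion (𝟙 (𝒜.X i).left)), map_id' F _⟩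
    · intro z
      exact ⟨a, Finset.mem_singleton_self a, 𝟙 _, map_id' F _, z, rfl⟩
  | cons a s ha hs ih =>
    obtain ⟨c0, h1, h2⟩ := ih
    obtain ⟨c, j1, j2, H⟩ := Chart.exists_merge hsep hglue c0 (𝒜.chart a)
    have := H.oi1
    have := H.oi2
    refine ⟨c, ?_, ?_⟩
    · intro i hi
      rcases Finset.mem_cons.1 hi with rfl | hi
      · exact ⟨j2, H.oi2, H.map2⟩
      · obtain ⟨j, hj, hjξ⟩ := h1 i hi
        exact ⟨j ≫ j1, by rw [Over.comp_left]; infer_instance, by rw [map_comp', H.map1, hjξ]⟩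
    · intro z
      rcases H.cover z with ⟨z', rfl⟩ | hz
      · obtain ⟨i, hi, j, hjξ, y, rfl⟩ := h2 z'
        refine ⟨i, Finset.mem_cons_of_mem hi, j ≫ j1, by rw [map_comp', H.map1, hjξ], y, ?_⟩
        simp
      · exact ⟨a, Finset.mem_cons_self a s, j2, H.map2, hz⟩

/-- an atlas of a functor with a section over a nonempty scheme is nonempty -/
lemma Atlas.nonempty_of_point (𝒜 : Atlas F) (T : Over S) (η : F.obj (op T)) (x : T.left) :
    Nonempty 𝒜.ι :=
  let ⟨i, _⟩ := 𝒜.cover T η x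
  ⟨i⟩

variable (F) in
/-- MAIN THEOREM of block R. -/
theorem representable (hsep : IsSep F) (hglue : HasGlue2 F) (𝒜 : Atlas F) (hne : Nonempty 𝒜.ι) :
    ∃ (J : Over S) (ξJ : F.obj (op J)),
      (∀ (T : Over S) (η : F.obj (op T)), ∃! g : T ⟶ J, F.map g.op ξJ = η) ∧
      ∃ j : ∀ i, 𝒜.X i ⟶ J, (∀ i, IsOpenImmersion (j i).left) ∧
        (∀ z : J.left, ∃ i, z ∈ Set.range (j i).left.base) ∧
        ∀ i, F.map (j i).op ξJ = 𝒜.ξ i := by
  have := 𝒜.fin
  have := Fintype.ofFinite 𝒜.ι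
  obtain ⟨c, h1, h2⟩ := 𝒜.exists_chart hsep hglue Finset.univ Finset.univ_nonempty
  choose j hj hjξ using fun i => h1 i (Finset.mem_univ i)
  refine ⟨c.X, c.ξ, ?_, j, hj, ?_, hjξ⟩
  · intro T η
    obtain ⟨U, hU⟩ := c.isOpen T η
    have hall : ∀ x : T.left, x ∈ U := by
      intro x
      obtain ⟨i, V, hxV, g, hg⟩ := 𝒜.cover T η x
      exact (hU _ (incl T V)).2 ⟨g ≫ j i, by rw [map_comp', hjξ, hg]⟩ ⟨x, hxV⟩
    obtain ⟨g, hg⟩ := (hU T (𝟙 T)).1 hall
    rw [map_id'] at hg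
    exact ⟨g, hg, fun g' hg' => c.mono T g' g (by rw [hg, hg'])⟩
  · intro z
    obtain ⟨i, -, j', hj', hz⟩ := h2 z
    have : j' = j i := c.mono _ _ _ (by rw [hj', hjξ])
    exact ⟨i, this ▸ hz⟩

end Fermat.Agent.S25.Rep
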