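/-
S25 / block R (reduction of the atlas conditions to affine test schemes).  Owner: helper220.
-/
import Fermat.Agent.S25.RepDefs

set_option autoImplicit false

universe w u

open CategoryTheory CategoryTheory.Limits AlgebraicGeometry Opposite

namespace Fermat.Agent.S25.Rep

variable {k : Type u} [Field k]

@[simp]
theorem affMap_left {A A' : Type u} [CommRing A] [Algebra k A] [CommRing A'] [Algebra k A']
    (φ : A →ₐ[k] A') : (affMap φ).left = Spec.map (CommRingCat.ofHom φ.toRingHom) := rfl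

/-- Lemma A: every morphism between affine objects comes from an algebra hom. -/
theorem exists_affMap_eq {A R : Type u} [CommRing A] [Algebra k A] [CommRing R] [Algebra k R]
    (f : aff k A ⟶ aff k R) : ∃ φ : R →ₐ[k] A, affMap φ = f := by
  have hw := Over.w f
  dsimp at hw
  set ψ : CommRingCat.of R ⟶ CommRingCat.of A := Spec.preimage f.left with hψ
  have hψ' : Spec.map ψ = f.left := Spec.map_preimage _
  rw [← hψ', ← Spec.map_comp] at hw
  have h2 := Spec.map_injective hw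
  refine ⟨{ ψ.hom with commutes' := fun c => ?_ }, ?_⟩
  · have := congrArg (fun g => g.hom c) h2
    simpa using this
  · apply Over.OverMorphism.ext
    rw [affMap_left, ← hψ']
    rfl

/-- Lemma B0: a scheme morphism `Spec A ⟶ T` makes `A` a `k`-algebra. -/
theorem exists_alg (T : Over (Spec (CommRingCat.of k))) (A : Type u) [CommRing A]
    (f : Spec (CommRingCat.of A) ⟶ T.left) :
    ∃ (_ : Algebra k A) (t : aff k A ⟶ T), t.left = f := by
  set ρ : CommRingCat.of k ⟶ CommRingCat.of A := Spec.preimage (f ≫ T.hom) with hρ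
  have hρ' : Spec.map ρ = f ≫ T.hom := Spec.map_preimage _
  let _ : Algebra k A := ρ.hom.toAlgebra
  refine ⟨inferInstance, Over.homMk f ?_, rfl⟩
  dsimp
  rw [← hρ']
  rfl

/-- Lemma L: lifting through an open immersion, in `Over S`. -/
theorem exists_lift {S : Scheme.{u}} {Y Z T : Over S} (j : Y ⟶ T) [IsOpenImmersion j.left]
    (a : Z ⟶ T) (h : Set.range a.left ⊆ Set.range j.left) : ∃ l : Z ⟶ Y, l ≫ j = a := by
  refine ⟨Over.homMk (IsOpenImmersion.lift j.left a.left h) ?_, ?_⟩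
  · rw [← Over.w j, IsOpenImmersion.lift_fac_assoc, Over.w a]
  · apply Over.OverMorphism.ext
    simp

/-- Lemma P: every point is the image of a field valued point. -/
theorem exists_point (T : Over (Spec (CommRingCat.of k))) (x : T.left) :
    ∃ (K : Type u) (_ : Field K) (_ : Algebra k K) (t : aff k K ⟶ T), ∀ z, t.left z = x := by
  obtain ⟨alg, t, ht⟩ := exists_alg T (T.left.residueField x) (T.left.fromSpecResidueField x)
  refine ⟨T.left.residueField x, inferInstance, alg, t, fun z => ?_⟩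
  rw [ht]
  exact Scheme.fromSpecResidueField_apply x z

/-- Lemma N: every point has an affine open neighbourhood. -/
theorem exists_affine_nhd (T : Over (Spec (CommRingCat.of k))) (x : T.left) :
    ∃ (A : Type u) (_ : CommRing A) (_ : Algebra k A) (j : aff k A ⟶ T),
      IsOpenImmersion j.left ∧ x ∈ Set.range j.left := by
  obtain ⟨W, hW, hxW, -⟩ := exists_isAffineOpen_mem_and_subset (x := x) (U := ⊤) trivial
  obtain ⟨alg, t, ht⟩ := exists_alg T Γ(T.left, W) hW.fromSpec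
  refine ⟨Γ(T.left, W), inferInstance, alg, t, ?_, ?_⟩
  · rw [ht]; infer_instance
  · rw [ht, hW.range_fromSpec]; exact hxW

variable (F : (Over (Spec (CommRingCat.of k)))ᵒᵖ ⥤ Type w)

variable {F}

theorem map_comp_apply' {S : Scheme.{u}} {F : (Over S)ᵒᵖ ⥤ Type w} {X Y Z : Over S} (f : X ⟶ Y)
    (g : Y ⟶ Z) (a : F.obj (op Z)) : F.map (f ≫ g).op a = F.map f.op (F.map g.op a) := by
  rw [op_comp, Functor.map_comp_apply]

/-- `mono` for arbitrary test objects. -/
theorem AffAtlas.mono' (𝒜 : AffAtlas F) (i : 𝒜.ι) (T : Over (Spec (CommRingCat.of k)))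
    (g g' : T ⟶ aff k (𝒜.R i))
    (h : F.map g.op (𝒜.ξ i) = F.map g'.op (𝒜.ξ i)) : g = g' := by
  apply Over.OverMorphism.ext
  apply T.left.affineCover.hom_ext
  intro x
  obtain ⟨alg, t, ht⟩ := exists_alg T _ (T.left.affineCover.f x)
  obtain ⟨φ, hφ⟩ := exists_affMap_eq (t ≫ g)
  obtain ⟨φ', hφ'⟩ := exists_affMap_eq (t ≫ g')
  have h1 : φ = φ' := by
    apply 𝒜.mono i
    rw [hφ, hφ', map_comp_apply', map_comp_apply', h]
  have h2 : t ≫ g = t ≫ g' := by rw [← hφ, ← hφ', h1]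
  have h3 := congrArg (fun m => m.left) h2
  simp only [Over.comp_left, ht] at h3
  exact h3

/-- Lemma G: gluing morphisms into an object `X` with a "monomorphic" section `ξ`. -/
theorem exists_glue {S : Scheme.{u}} {F : (Over S)ᵒᵖ ⥤ Type w} (hsep : IsSep F) {X : Over S}
    (ξ : F.obj (op X))
    (hmono : ∀ (T : Over S) (g g' : T ⟶ X), F.map g.op ξ = F.map g'.op ξ → g = g')
    (T : Over S) (ζ : F.obj (op T))
    (H : ∀ x : T.left, ∃ U : T.left.Opens, x ∈ U ∧
      ∃ γ : restr T U ⟶ X, F.map γ.op ξ = F.map (incl T U).op ζ) :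
    ∃ g : T ⟶ X, F.map g.op ξ = ζ := by
  choose U hxU γ hγ using H
  have hU : (⨆ x, U x) = ⊤ := by
    rw [eq_top_iff]
    intro x _
    exact TopologicalSpace.Opens.mem_iSup.2 ⟨x, hxU x⟩
  have hcompat : ∀ x y : T.left, pullback.fst (U x).ι (U y).ι ≫ (γ x).left =
      pullback.snd (U x).ι (U y).ι ≫ (γ y).left := by
    intro x y
    let P : Over S := Over.mk (pullback.fst (U x).ι (U y).ι ≫ (U x).ι ≫ T.hom)
    let a : P ⟶ restr T (U x) := Over.homMk (pullback.fst (U x).ι (U y).ι) rfl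
    have hcond : pullback.fst (U x).ι (U y).ι ≫ (U x).ι = pullback.snd (U x).ι (U y).ι ≫ (U y).ι :=
      pullback.condition
    let b : P ⟶ restr T (U y) := Over.homMk (pullback.snd (U x).ι (U y).ι) (by
      show pullback.snd (U x).ι (U y).ι ≫ (U y).ι ≫ T.hom =
        pullback.fst (U x).ι (U y).ι ≫ (U x).ι ≫ T.hom
      rw [reassoc_of% hcond])
    have hab : a ≫ incl T (U x) = b ≫ incl T (U y) := by
      apply Over.OverMorphism.ext
      exact hcond
    have h1 : a ≫ γ x = b ≫ γ y := by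
      apply hmono
      rw [map_comp_apply', map_comp_apply', hγ, hγ, ← map_comp_apply', ← map_comp_apply', hab]
    exact congrArg (fun m => m.left) h1
  let 𝒰 := T.left.openCoverOfIsOpenCover U hU
  let gl : T.left ⟶ X.left := 𝒰.glueMorphisms (fun x => (γ x).left) hcompat
  have hgl : ∀ x : T.left, (U x).ι ≫ gl = (γ x).left := fun x =>
    𝒰.ι_glueMorphisms (fun x => (γ x).left) hcompat x
  have hw : gl ≫ X.hom = T.hom := by
    apply 𝒰.hom_ext
    intro x
    show (U x).ι ≫ gl ≫ X.hom = (U x).ι ≫ T.hom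
    rw [reassoc_of% (hgl x)]
    exact Over.w (γ x)
  refine ⟨Over.homMk gl hw, ?_⟩
  apply hsep T U hU
  intro x
  rw [← map_comp_apply', ← hγ]
  have h2 : incl T (U x) ≫ Over.homMk gl hw = γ x := by
    apply Over.OverMorphism.ext
    exact hgl x
  rw [h2]

/-- the points of `T` near which `η` comes from the chart `i`. -/
def AffAtlas.Good (𝒜 : AffAtlas F) (i : 𝒜.ι) (T : Over (Spec (CommRingCat.of k)))
    (η : F.obj (op T)) (y : T.left) : Prop :=
  ∃ (A : Type u) (_ : CommRing A) (_ : Algebra k A) (j : aff k A ⟶ T),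
    IsOpenImmersion j.left ∧ y ∈ Set.range j.left ∧
      ∃ φ : 𝒜.R i →ₐ[k] A, F.map (affMap φ).op (𝒜.ξ i) = F.map j.op η

theorem AffAtlas.isOpen_good (𝒜 : AffAtlas F) (i : 𝒜.ι) (T : Over (Spec (CommRingCat.of k)))
    (η : F.obj (op T)) : IsOpen {y | 𝒜.Good i T η y} := by
  rw [isOpen_iff_forall_mem_open]
  rintro y ⟨A, _, _, j, hj, hy, φ, hφ⟩
  exact ⟨Set.range j.left, fun z hz => ⟨A, _, _, j, hj, hz, φ, hφ⟩,
    j.left.isOpenEmbedding.isOpen_range, hy⟩

theorem AffAtlas.exists_of_good (hsep : IsSep F) (𝒜 : AffAtlas F) (i : 𝒜.ι)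
    (T : Over (Spec (CommRingCat.of k))) (η : F.obj (op T))
    (T' : Over (Spec (CommRingCat.of k))) (h : T' ⟶ T) (hx : ∀ x : T'.left, 𝒜.Good i T η (h.left x)) :
    ∃ g : T' ⟶ aff k (𝒜.R i), F.map g.op (𝒜.ξ i) = F.map h.op η := by
  apply exists_glue hsep (𝒜.ξ i) (𝒜.mono' i) T' (F.map h.op η)
  intro x
  obtain ⟨A, _, _, j, hj, hy, φ, hφ⟩ := hx x
  refine ⟨h.left ⁻¹ᵁ j.left.opensRange, hy, ?_⟩
  obtain ⟨l, hl⟩ := exists_lift j (incl T' (h.left ⁻¹ᵁ j.left.opensRange) ≫ h) (by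
    rintro _ ⟨z, rfl⟩
    exact z.2)
  refine ⟨l ≫ affMap φ, ?_⟩
  rw [map_comp_apply', hφ, ← map_comp_apply', hl, map_comp_apply']

theorem affMap_left_apply {A A' : Type u} [CommRing A] [Algebra k A] [CommRing A'] [Algebra k A']
    (φ : A →ₐ[k] A') (z : PrimeSpectrum A') :
    (affMap φ).left z = PrimeSpectrum.comap φ.toRingHom z := rfl

theorem AffAtlas.good_of_exists (𝒜 : AffAtlas F) (i : 𝒜.ι)
    (T : Over (Spec (CommRingCat.of k))) (η : F.obj (op T))
    (T' : Over (Spec (CommRingCat.of k))) (h : T' ⟶ T)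
    (g : T' ⟶ aff k (𝒜.R i)) (hg : F.map g.op (𝒜.ξ i) = F.map h.op η) (x : T'.left) :
    𝒜.Good i T η (h.left x) := by
  obtain ⟨A, _, _, j₀, hj₀, hy⟩ := exists_affine_nhd T (h.left x)
  obtain ⟨V, hV, hVprop⟩ := 𝒜.isOpen i A (F.map j₀.op η)
  obtain ⟨K, _, _, t, ht⟩ := exists_point T' x
  obtain ⟨l, hl⟩ := exists_lift j₀ (t ≫ h) (by
    rintro _ ⟨z, rfl⟩
    rw [Over.comp_left, Scheme.Hom.comp_apply, ht]
    exact hy)
  obtain ⟨ψ, hψ⟩ := exists_affMap_eq l
  obtain ⟨φ, hφ⟩ := exists_affMap_eq (t ≫ g)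
  have h1 : ∀ p : PrimeSpectrum K, PrimeSpectrum.comap ψ.toRingHom p ∈ V := by
    rw [hVprop K ψ]
    refine ⟨φ, ?_⟩
    rw [hφ, hψ, map_comp_apply', hg, ← map_comp_apply', ← map_comp_apply', hl]
  let pt : PrimeSpectrum K := ⊥
  obtain ⟨_, ⟨f, rfl⟩, hpf, hfV⟩ :=
    PrimeSpectrum.isTopologicalBasis_basic_opens.exists_subset_of_mem_open (h1 pt) hV
  change PrimeSpectrum.comap ψ.toRingHom pt ∈ (PrimeSpectrum.basicOpen f : Set _) at hpf
  change (PrimeSpectrum.basicOpen f : Set _) ⊆ V at hfV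
  let ψf : A →ₐ[k] Localization.Away f := IsScalarTower.toAlgHom k A (Localization.Away f)
  have hrange : Set.range (PrimeSpectrum.comap ψf.toRingHom) = PrimeSpectrum.basicOpen f :=
    PrimeSpectrum.localization_away_comap_range (Localization.Away f) f
  obtain ⟨φf, hφf⟩ := (hVprop (Localization.Away f) ψf).1 (fun q => hfV (by
    rw [← hrange]; exact ⟨q, rfl⟩))
  refine ⟨Localization.Away f, inferInstance, inferInstance, affMap ψf ≫ j₀, ?_, ?_, φf, ?_⟩
  · rw [Over.comp_left]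
    have : IsOpenImmersion (affMap ψf).left := by
      rw [affMap_left]
      exact inferInstanceAs (IsOpenImmersion (Spec.map (CommRingCat.ofHom
        (algebraMap A (Localization.Away f)))))
    infer_instance
  · rw [← hrange] at hpf
    obtain ⟨q, hq⟩ := hpf
    refine ⟨q, ?_⟩
    have e1 : j₀.left ((affMap ψ).left pt) = h.left x := by
      rw [hψ]
      have e2 : (l ≫ j₀).left pt = (t ≫ h).left pt := by rw [hl]
      calc j₀.left (l.left pt) = (l ≫ j₀).left pt := rfl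
        _ = (t ≫ h).left pt := e2
        _ = h.left (t.left pt) := rfl
        _ = h.left x := congrArg _ (ht pt)
    calc (affMap ψf ≫ j₀).left q = j₀.left ((affMap ψf).left q) := rfl
      _ = j₀.left ((affMap ψ).left pt) := congrArg _ hq
      _ = _ := e1
  · rw [hφf, map_comp_apply']

/-- `isOpen` for arbitrary test objects. -/
theorem AffAtlas.isOpen' (hsep : IsSep F) (𝒜 : AffAtlas F) (i : 𝒜.ι)
    (T : Over (Spec (CommRingCat.of k))) (η : F.obj (op T)) :
    ∃ U : T.left.Opens, ∀ (T' : Over (Spec (CommRingCat.of k))) (h : T' ⟶ T),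
      (∀ x : T'.left, h.left.base x ∈ U) ↔
        ∃ g : T' ⟶ aff k (𝒜.R i), F.map g.op (𝒜.ξ i) = F.map h.op η :=
  ⟨⟨{y | 𝒜.Good i T η y}, 𝒜.isOpen_good i T η⟩, fun T' h =>
    ⟨fun hx => 𝒜.exists_of_good hsep i T η T' h hx,
      fun ⟨g, hg⟩ x => 𝒜.good_of_exists i T η T' h g hg x⟩⟩

/-- `cover` for arbitrary test objects. -/
theorem AffAtlas.cover' (hsep : IsSep F) (𝒜 : AffAtlas F)
    (T : Over (Spec (CommRingCat.of k))) (η : F.obj (op T)) (x : T.left) :
    ∃ (i : 𝒜.ι) (U : T.left.Opens), x ∈ U ∧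
      ∃ g : restr T U ⟶ aff k (𝒜.R i), F.map g.op (𝒜.ξ i) = F.map (incl T U).op η := by
  obtain ⟨K, _, _, t, ht⟩ := exists_point T x
  obtain ⟨i, φ, hφ⟩ := 𝒜.cover K (F.map t.op η)
  have hx : 𝒜.Good i T η x := by
    have := 𝒜.good_of_exists i T η (aff k K) t (affMap φ) hφ (⊥ : PrimeSpectrum K)
    exact (ht (⊥ : PrimeSpectrum K)) ▸ this
  refine ⟨i, ⟨{y | 𝒜.Good i T η y}, 𝒜.isOpen_good i T η⟩, hx, ?_⟩
  exact 𝒜.exists_of_good hsep i T η _ (incl T _) (fun z => z.2)

/-- MAIN RESULT: an affine atlas is an atlas. -/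
noncomputable def AffAtlas.toAtlas (hsep : IsSep F) (𝒜 : AffAtlas F) : Atlas F where
  ι := 𝒜.ι
  fin := 𝒜.fin
  X i := aff k (𝒜.R i)
  ξ := 𝒜.ξ
  mono := 𝒜.mono'
  isOpen := 𝒜.isOpen' hsep
  cover := 𝒜.cover' hsep

end Fermat.Agent.S25.Rep
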