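/-
S25 / block Z: the functor to be represented.  Owner: helper25.  FROZEN INTERFACE (no sorry).
-/
import Fermat.Agent.S25.GeomSpec

set_option autoImplicit false

universe u

open CategoryTheory CategoryTheory.Limits AlgebraicGeometry AlgebraicGeometry.RelPicard
  NeronModelInfra GoodReductionJacobian Opposite

namespace Fermat.Agent.S25

variable {k : Type u} [Field k] {C : Scheme.{u}} {c : C ⟶ Spec (CommRingCat.of k)}
  {ε : SchemeHomOver (𝟙 (Spec (CommRingCat.of k))) c}

/-- membership of a class in a sub-Picard condition -/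
def classMem (P : SubPicCondition c ε) {T : Scheme.{u}} (t : T ⟶ Spec (CommRingCat.of k))
    (x : RigidifiedLineBundle.Classes c ε t) : Prop :=
  Quotient.liftOn x (fun M => P.P t M)
    (fun M M' h => propext ⟨P.congr t M M' h, P.congr t M' M ⟨h.some.symm⟩⟩)

@[simp] lemma classMem_mk (P : SubPicCondition c ε) {T : Scheme.{u}}
    (t : T ⟶ Spec (CommRingCat.of k)) (M : RigidifiedLineBundle c ε t) :
    classMem P t (Quotient.mk _ M) ↔ P.P t M := Iff.rfl

lemma classMem_map (P : SubPicCondition c ε) {T T' : Scheme.{u}}
    {t : T ⟶ Spec (CommRingCat.of k)} {t' : T' ⟶ Spec (CommRingCat.of k)}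
    (ψ : SchemeHomOver t' t) (x : RigidifiedLineBundle.Classes c ε t) (hx : classMem P t x) :
    classMem P t' (RigidifiedLineBundle.classesMap ψ x) := by
  induction x using Quotient.ind with
  | _ M => exact P.pullback_mem t t' ψ M hx

/-- The sub-presheaf of the rigidified Picard presheaf cut out by `P`. -/
noncomputable def picFunctor (P : SubPicCondition c ε) : (Over (Spec (CommRingCat.of k)))ᵒᵖ ⥤ Type (u + 1) where
  obj X := {x : RigidifiedLineBundle.Classes c ε X.unop.hom // classMem P X.unop.hom x}
  map {X X'} φ := TypeCat.ofHom (fun x =>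
    ⟨(relPicardPresheaf c ε).map φ x.1, classMem_map P
      (⟨φ.unop.left, Over.w φ.unop⟩ : SchemeHomOver X'.unop.hom X.unop.hom) x.1 x.2⟩)
  map_id X := TypeCat.homEquiv.injective (funext fun x => Subtype.ext (by
    simp <;> rfl))
  map_comp {X X' X''} φ χ := TypeCat.homEquiv.injective (funext fun x => Subtype.ext (by
    simp <;> rfl))

end Fermat.Agent.S25
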