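/-
S25: top-level assembly.  Everything except the three existence nodes
(`GeomCharts c ε`, `Dictionary G`, `AlgSpec G.𝔠`) is discharged here.   Owner: helper280.
-/
import Fermat.Agent.S25.Z.Assembly
import Fermat.Agent.S25.PiStar
import Fermat.Agent.S25.Sep
import Fermat.Agent.S25.Glue2

set_option autoImplicit false

universe u

open CategoryTheory CategoryTheory.Limits AlgebraicGeometry AlgebraicGeometry.RelPicard
  NeronModelInfra GoodReductionJacobian Opposite

namespace Fermat.Agent.S25

variable {k : Type u} [Field k] {C : Scheme.{u}} {c : C ⟶ Spec (CommRingCat.of k)}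
  {ε : SchemeHomOver (𝟙 (Spec (CommRingCat.of k))) c}

theorem result_of_charts [IsAlgClosed k] (G : GeomCharts c ε) (D : Dictionary G)
    (S : AlgSpec G.𝔠) :
    ∃ D : RelativePic0Designation k c,
      Nonempty (RepresentsRelSubPic c ε (algEquivZeroCut c ε) D) ∧
        Smooth D.toBase ∧ IsProper D.toBase ∧ GeometricallyConnected D.toBase :=
  result_of_specs G D S (sepSpec_of_piStar c ε (piStar G)) (glue2Spec c ε)

end Fermat.Agent.S25
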