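/-
S25: the frozen conclusion from the nodes which are still open
(`GeomCharts c ε` and the four nodes of `OpenNodes`).   Owner: helper280.
-/
import Fermat.Agent.S25.Top
import Fermat.Agent.S25.Dict
import Fermat.Agent.S25.AlgSpecFinal

set_option autoImplicit false

universe u

open CategoryTheory CategoryTheory.Limits AlgebraicGeometry AlgebraicGeometry.RelPicard
  NeronModelInfra GoodReductionJacobian Opposite

namespace Fermat.Agent.S25

variable {k : Type u} [Field k] {C : Scheme.{u}} {c : C ⟶ Spec (CommRingCat.of k)}
  {ε : SchemeHomOver (𝟙 (Spec (CommRingCat.of k))) c}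

theorem result_of_open [IsAlgClosed k] (hG : Nonempty (GeomCharts c ε))
    (hN : ∀ 𝔠 : CurveCharts k, OpenNodes 𝔠) :
    ∃ D : RelativePic0Designation k c,
      Nonempty (RepresentsRelSubPic c ε (algEquivZeroCut c ε) D) ∧
        Smooth D.toBase ∧ IsProper D.toBase ∧ GeometricallyConnected D.toBase := by
  obtain ⟨G⟩ := hG
  obtain ⟨D⟩ := Dict.exists_dictionary G
  obtain ⟨S⟩ := (hN G.𝔠).exists_algSpec
  exact result_of_charts G D S

/-- the frozen conclusion from block G alone -/
theorem result_of_geomCharts [IsAlgClosed k] (hG : Nonempty (GeomCharts c ε)) :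
    ∃ D : RelativePic0Designation k c,
      Nonempty (RepresentsRelSubPic c ε (algEquivZeroCut c ε) D) ∧
        Smooth D.toBase ∧ IsProper D.toBase ∧ GeometricallyConnected D.toBase :=
  result_of_open hG openNodes

end Fermat.Agent.S25
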