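/-
S25 block G: the curve is cut into two affine charts realising a `CurveCharts`.   Owner: helper26.

Main result: `Fermat.Agent.S25.exists_geomCharts : Nonempty (GeomCharts c ε)`.
-/
import Fermat.Agent.S25.GeomSpec
import Fermat.Agent.S25.Geom.Reg
import Fermat.Agent.S25.Geom.Affine
import Fermat.Agent.S25.Geom.Facts
import Fermat.Agent.S25.Geom.Finite
import Fermat.Agent.S25.Geom.Pair
import Fermat.Agent.S25.Geom.Pole

set_option autoImplicit false

universe u

open CategoryTheory CategoryTheory.Limits AlgebraicGeometry TopologicalSpace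
  NeronModelInfra GoodReductionJacobian

namespace Fermat.Agent.S25

namespace Geom

variable {k : Type u} [Field k] {C : Scheme.{u}} {c : C ⟶ Spec (CommRingCat.of k)} [IsIntegral C]
  {e : Spec (CommRingCat.of k) ⟶ C}

/-- the algebraic charts attached to a function whose only pole is the marked point -/
noncomputable def curveCharts [IsAlgClosed k] [IsProper c] [Smooth c] (F : CurveFacts c)
    (he : e ≫ c = 𝟙 _) (f : C.functionField) (hf : ∀ x : C, RegAt f x ↔ x ≠ pt e) :
    CurveCharts k :=
  have hpole : ¬ RegAt f (pt e) := fun h => (hf _).mp h rfl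
  have hnc : NonConst c f := nonConst_of_not_regAt c hpole
  have hmem : pt e ∈ dom f⁻¹ := mem_dom.mpr ((F.val _ f).resolve_left hpole)
  { B₁ := Sec c (dom f)
    B₂ := Sec c (dom f⁻¹)
    B₁₂ := Sec c (dom f ⊓ dom f⁻¹)
    x := sec f
    y := sec f⁻¹
    e₀ := evalAlg he (dom f⁻¹) ((pt_mem_iff e _).mpr hmem)
    away₁ := away_left c hnc.ne_zero (finite_chart c F hnc).1
    away₂ := away_right c hnc.ne_zero (finite_chart c F hnc.inv).1
    xy := sec_mul_sec_inv c hnc.ne_zero
    dom₁ := isDomain_sec c _
    dom₂ := isDomain_sec c _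
    smooth₁ := smooth_sec c (finite_chart c F hnc).1
    smooth₂ := smooth_sec c (finite_chart c F hnc.inv).1
    fin₁ := (finite_chart c F hnc).2
    fin₂ := (finite_chart c F hnc.inv).2
    trans₁ := hnc.transcendental
    const := const_of_cover c F.const (dom_sup_dom_inv F.val f)
    pole := by
      intro 𝔮 h𝔮 hy
      obtain ⟨p, hpW, hp⟩ := exists_point_of_prime (finite_chart c F hnc.inv).1 𝔮 h𝔮
      have hp0 : p = pt e := by
        by_contra hne
        have h1 : RegAt f p := (hf p).mpr hne
        refine (hp (sec f⁻¹)).mp hy ?_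
        rw [(isSec_sec f⁻¹).mem_basicOpen_iff]
        exact ⟨hpW, inv_ne_zero hnc.ne_zero, by rwa [inv_inv]⟩
      subst hp0
      ext s
      rw [RingHom.mem_ker]
      exact (hp s).trans (evalΓ_eq_zero_iff e _ _ s).symm }

end Geom

open Geom

variable {k : Type u} [Field k] {C : Scheme.{u}} (c : C ⟶ Spec (CommRingCat.of k))
  (ε : SchemeHomOver (𝟙 (Spec (CommRingCat.of k))) c)

/-- **Block G.** A smooth proper integral curve over an algebraically closed field with a marked
rational point is cut into two affine charts realising a `CurveCharts`. -/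
theorem exists_geomCharts [IsAlgClosed k] [IsProper c] [SmoothOfRelativeDimension 1 c]
    [IsIntegral C] : Nonempty (GeomCharts c ε) := by
  have F := curveFacts c
  obtain ⟨f, hf⟩ := exists_only_pole F ε.2
  have hpole : ¬ RegAt f (pt ε.1) := fun h => (hf _).mp h rfl
  have hnc : NonConst c f := nonConst_of_not_regAt c hpole
  have hmem : pt ε.1 ∈ dom f⁻¹ := mem_dom.mpr ((F.val _ f).resolve_left hpole)
  have : Smooth c := SmoothOfRelativeDimension.smooth 1 c
  exact ⟨{
    𝔠 := curveCharts F ε.2 f hf
    W₁ := dom f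
    W₂ := dom f⁻¹
    aff₁ := (finite_chart c F hnc).1
    aff₂ := (finite_chart c F hnc.inv).1
    aff₁₂ := isAffineOpen_dom_inf hnc.ne_zero (finite_chart c F hnc).1
    cover := dom_sup_dom_inv F.val f
    i₁ := RingEquiv.refl _
    i₂ := RingEquiv.refl _
    i₁₂ := RingEquiv.refl _
    res₁ := fun _ => rfl
    res₂ := fun _ => rfl
    str₁ := fun _ => rfl
    str₂ := fun _ => rfl
    pt_mem := (pt_mem_iff ε.1 _).mpr hmem
    pt_eval := fun _ => rfl }⟩

end Fermat.Agent.S25
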